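import Fermat.Agent.S36.R.Defs

/-!
# S36 / Val / DiscProd : the discriminant of `1, θ, …, θ^(n-1)` as a product over a full family of embeddings

Companion of `Norm.normHom_eq_prod`.
-/

set_option autoImplicit false
set_option linter.style.haveILetI false

open Finset

namespace Fermat.Agent.S36.Val

open Fermat.Agent.S36.Norm Fermat.Agent.S36.R

/-- a product of signs is a sign. -/
theorem DiscProd_sign {Ω ι : Type*} [CommRing Ω] (s : Finset ι) :
    (∏ _i ∈ s, (-1 : Ω)) = 1 ∨ (∏ _i ∈ s, (-1 : Ω)) = -1 := by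
  rw [prod_const]
  exact neg_one_pow_eq_or Ω _

/-- the square of the Vandermonde determinant is, up to sign, the off-diagonal product. -/
theorem DiscProd_vandermonde {Ω : Type*} [CommRing Ω] (n : ℕ) (x : Fin n → Ω) :
    ∃ s : Ω, (s = 1 ∨ s = -1) ∧
      (Matrix.vandermonde x).det ^ 2 = s * ∏ i, ∏ j ∈ ({i}ᶜ : Finset (Fin n)), (x j - x i) := by
  classical
  have hs : (∏ p ∈ (univ : Finset (Fin n)).sigma (fun i => Ioi i), (-1 : Ω)) = 1 ∨
      (∏ p ∈ (univ : Finset (Fin n)).sigma (fun i => Ioi i), (-1 : Ω)) = -1 := DiscProd_sign _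
  refine ⟨∏ p ∈ (univ : Finset (Fin n)).sigma (fun i => Ioi i), (-1 : Ω), hs, ?_⟩
  rw [← prod_prod_Ioi_mul_eq_prod_prod_off_diag (fun j i => x j - x i), Matrix.det_vandermonde,
    prod_sigma, ← prod_mul_distrib, ← prod_pow]
  refine prod_congr rfl fun i _ => ?_
  rw [← prod_mul_distrib, ← prod_pow]
  refine prod_congr rfl fun j _ => ?_
  ring

/-- **The discriminant is, up to sign, the product of the differences of the conjugates.** -/
theorem discrHom_eq_prod {F E Ω ι : Type*} [Field F] [Field E] [Field Ω] [Fintype ι]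
    [DecidableEq ι] [CharZero F] (φ : F →+* E) (hφ : FinHom φ) (β : F →+* Ω) (τ : ι → E →+* Ω)
    (hτ : ∀ i x, τ i (φ x) = β x) (hinj : Function.Injective τ) (n : ℕ)
    (hcard : Fintype.card ι = n) (hdeg : degHom φ = n) (θ : E) :
    ∃ s : Ω, (s = 1 ∨ s = -1) ∧
      β (discrHom φ n θ) = s * ∏ i, ∏ j ∈ ({i}ᶜ : Finset ι), (τ j θ - τ i θ) := by
  classical
  letI := φ.toAlgebra
  haveI : FiniteDimensional F E := hφ
  let io : Ω →+* AlgebraicClosure Ω := algebraMap Ω (AlgebraicClosure Ω)
  letI : Algebra F (AlgebraicClosure Ω) := (io.comp β).toAlgebra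
  let τ' : ι → (E →ₐ[F] AlgebraicClosure Ω) := fun i =>
    { io.comp (τ i) with
      commutes' := fun y => congrArg io (hτ i y) }
  have hinj' : Function.Injective τ' := by
    intro i j hij
    apply hinj
    refine RingHom.ext fun y => ?_
    exact io.injective (AlgHom.congr_fun hij y)
  have hcard' : Fintype.card ι = Fintype.card (E →ₐ[F] AlgebraicClosure Ω) := by
    rw [AlgHom.card, hcard]
    exact hdeg.symm
  have hbij : Function.Bijective τ' :=
    (Fintype.bijective_iff_injective_and_card _).mpr ⟨hinj', hcard'⟩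
  let e₀ : Fin n ≃ ι := (Fintype.equivFinOfCardEq hcard).symm
  let e : Fin n ≃ (E →ₐ[F] AlgebraicClosure Ω) := e₀.trans (Equiv.ofBijective τ' hbij)
  have h1 := Algebra.discr_eq_det_embeddingsMatrixReindex_pow_two F (AlgebraicClosure Ω)
    (fun i : Fin n => θ ^ (i : ℕ)) e
  have h2 : Algebra.embeddingsMatrixReindex F (AlgebraicClosure Ω) (fun i : Fin n => θ ^ (i : ℕ)) e
      = (Matrix.vandermonde fun i : Fin n => io (τ (e₀ i) θ)).transpose := by
    ext i j
    simp only [Algebra.embeddingsMatrixReindex, Matrix.reindex_apply, Equiv.refl_symm,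
      Equiv.coe_refl, Equiv.symm_symm, Matrix.submatrix_apply, id_eq,
      Algebra.embeddingsMatrix_apply, map_pow, Matrix.transpose_apply, Matrix.vandermonde_apply]
    rfl
  rw [h2, Matrix.det_transpose] at h1
  obtain ⟨s, hs, h3⟩ := DiscProd_vandermonde n fun i : Fin n => io (τ (e₀ i) θ)
  rw [h3] at h1
  have h4 : (∏ i : Fin n, ∏ j ∈ ({i}ᶜ : Finset (Fin n)), (io (τ (e₀ j) θ) - io (τ (e₀ i) θ)))
      = io (∏ i, ∏ j ∈ ({i}ᶜ : Finset ι), (τ j θ - τ i θ)) := by
    rw [map_prod, ← Equiv.prod_comp e₀]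
    refine prod_congr rfl fun i _ => ?_
    rw [map_prod]
    have h5 : ({e₀ i}ᶜ : Finset ι) = ({i}ᶜ : Finset (Fin n)).map e₀.toEmbedding := by
      ext k
      simp only [mem_compl, mem_singleton, mem_map_equiv]
      rw [not_iff_not, Equiv.symm_apply_eq]
    rw [h5, prod_map]
    refine prod_congr rfl fun j _ => ?_
    rw [map_sub]
    rfl
  rw [h4] at h1
  rcases hs with rfl | rfl
  · refine ⟨1, Or.inl rfl, io.injective ?_⟩
    rw [map_mul, map_one]
    exact h1
  · refine ⟨-1, Or.inr rfl, io.injective ?_⟩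
    rw [map_mul, map_neg, map_one]
    exact h1

end Fermat.Agent.S36.Val
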