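import Fermat.Agent.S36.Val.Setup
import Fermat.Agent.S36.Val.DiscProd

/-!
# S36 / Val / Disc : the two discriminant bounds `db1`, `db2` of `R.TowerF`, in the language of `Val.Setup`

`θ₁ = x(q^l) ∈ F1`, `θ₂ = be θ₁ = x(q^(l²)) ∈ F2`.
* `ord_disc1`      : `v(disc_{F1/F0}(1, θ₁, …, θ₁^l)) = l`                         (`v(π) = 1`);
* `ord_disc2_inf`  : `v_∞(disc_{F2/F1}(1, θ₂, …, θ₂^(l-1))) = l - 2`;
* `ord_disc2_zero` : `v_0(disc_{F2/F1}(1, θ₂, …, θ₂^(l-1))) = l`.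

Full families of embeddings (no fractional powers of `q`):
* `F1` over `base ∘ V ∘ Φ'`      : `base ∘ V ∘ Ψinf`, `tw ζ ∘ base ∘ Ψ0` (`ζ ∈ μ`);
* `F2` over `base ∘ Ψinf` (`al`)  : `base ∘ Φinf`, `τ i` (`i ∈ ι`);
* `F2` over `base ∘ V ∘ Ψ0` (`al`): `tw ζ ∘ base ∘ Φ0` (`ζ ∈ μ`).
-/

set_option autoImplicit false

open Finset

namespace Fermat.Agent.S36.Val

open Fermat.Agent.S36.Norm Fermat.Agent.S36.R

section abstract

variable {Ω O κ : Type*} [Field Ω] [CommRing O] [Field κ] {inc : O →+* Ω} {red : O →+* κ} {ϖ : O}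

theorem isOrd_sign (P : IsPlace inc red ϖ) {s : Ω} (hs : s = 1 ∨ s = -1) :
    IsOrd inc red ϖ 0 s := by
  rcases hs with rfl | rfl
  · exact isOrd_one P
  · exact (isRes_one.neg).isOrd (neg_ne_zero.mpr one_ne_zero)

/-- the order of the discriminant from the orders of the differences of the conjugates. -/
theorem isOrd_discrHom (P : IsPlace inc red ϖ) {F E T : Type*} [Field F] [Field E] [Fintype T]
    [DecidableEq T] [CharZero F] (φ : F →+* E) (hφ : FinHom φ) (β : F →+* Ω) (τ : T → E →+* Ω)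
    (hτ : ∀ i x, τ i (φ x) = β x) (n : ℕ) (hcard : Fintype.card T = n) (hdeg : degHom φ = n)
    (θ : E) (m : T → T → ℤ)
    (hm : ∀ i j, j ≠ i → IsOrd inc red ϖ (m i j) (τ j θ - τ i θ)) :
    IsOrd inc red ϖ (∑ i, ∑ j ∈ ({i}ᶜ : Finset T), m i j) (β (discrHom φ n θ)) := by
  have hinj : Function.Injective τ := by
    intro i j hij
    by_contra hne
    have h := (hm i j (fun h => hne h.symm)).ne_zero P
    rw [hij, sub_self] at h
    exact h rfl
  obtain ⟨s, hs, h⟩ := discrHom_eq_prod φ hφ β τ hτ hinj n hcard hdeg θ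
  rw [h]
  have h1 : IsOrd inc red ϖ (∑ i, ∑ j ∈ ({i}ᶜ : Finset T), m i j)
      (∏ i, ∏ j ∈ ({i}ᶜ : Finset T), (τ j θ - τ i θ)) :=
    IsOrd.prod P _ fun i _ => IsOrd.prod P _ fun j hj => hm i j (by simpa using hj)
  have h2 := (isOrd_sign P hs).mul P h1
  rwa [zero_add] at h2

end abstract

/-! ### counting -/

theorem sum_offdiag_one (T : Type*) [Fintype T] [DecidableEq T] :
    (∑ i : T, ∑ _j ∈ ({i}ᶜ : Finset T), (1 : ℤ)) = Fintype.card T * ((Fintype.card T - 1 : ℕ) : ℤ) := by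
  have h : ∀ i : T, (∑ _j ∈ ({i}ᶜ : Finset T), (1 : ℤ)) = ((Fintype.card T - 1 : ℕ) : ℤ) := by
    intro i
    rw [sum_const, card_compl, card_singleton]
    simp
  rw [sum_congr rfl fun i _ => h i, sum_const, card_univ]
  simp

/-- the weight: `1` on pairs of "twisted" embeddings. -/
def optW (T : Type*) : Option T → Option T → ℤ
  | some _, some _ => 1
  | _, _ => 0

theorem sum_offdiag_option (T : Type*) [Fintype T] [DecidableEq T] :
    (∑ i : Option T, ∑ j ∈ ({i}ᶜ : Finset (Option T)), optW T i j)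
      = Fintype.card T * ((Fintype.card T - 1 : ℕ) : ℤ) := by
  rw [← sum_offdiag_one T, Fintype.sum_option]
  have h0 : (∑ j ∈ ({none}ᶜ : Finset (Option T)), optW T none j) = 0 :=
    sum_eq_zero fun j _ => by cases j <;> rfl
  rw [h0, zero_add]
  refine sum_congr rfl fun i _ => ?_
  have h1 : ({some i}ᶜ : Finset (Option T)) = insertNone ({i}ᶜ : Finset T) := by
    ext j
    cases j <;> simp
  rw [h1, sum_insertNone]
  simp [optW]

/-! ### the three computations -/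

variable {l : ℕ} {K F0 F1 F2 Ω O κ Ω1 O1 ι μ : Type*} [Field K] [Field F0] [Field F1]
    [Field F2] [Field Ω] [CommRing O] [Field κ] [Field Ω1] [CommRing O1] [Fintype ι]
    [Fintype μ]

/-- the coordinate `x` (through `θ₁ = x(q^l)`, with expansion `X` of `x`), and the facts on degrees and twists which are used. -/
structure Setup.XData (S : Setup l K F0 F1 F2 Ω O κ Ω1 O1 ι μ) where
  /-- `x(q^l)` -/
  x1 : F1
  /-- the `q`-expansion of `x` -/
  X : O
  Ψinf_x1 : S.Ψinf x1 = S.inc (S.VO X)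
  Ψ0_x1 : S.Ψ0 x1 = S.inc X
  /-- series in `q^l` are invariant under `q ↦ ζ q` -/
  tw_V : ∀ ζ a, S.tw ζ (S.base (S.V a)) = S.base (S.V a)
  ζ_inj : Function.Injective S.ζ
  /-- `X(ζ q) - X(ζ' q) = lam * (unit)` -/
  tw_sub : ∀ ζ ζ', ζ ≠ ζ' →
    IsOrd S.inc1 S.red1 S.lam 1 (S.tw ζ (S.base (S.inc X)) - S.tw ζ' (S.base (S.inc X)))
  VV_ne : S.Vκ (S.Vκ (S.red X)) ≠ S.red X
  fin0 : FinHom S.a0
  deg0 : degHom S.a0 = l + 1
  finA : FinHom S.al
  degA : degHom S.al = l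

namespace Setup.XData

variable {S : Setup l K F0 F1 F2 Ω O κ Ω1 O1 ι μ} (D : S.XData)

theorem isRes_tw (ζ : μ) : IsRes S.inc1 S.red1 (S.tw ζ (S.base (S.inc D.X))) (S.red D.X) := by
  have h := (S.htw ζ).isRes (S.hbase.isRes (isRes_inc (inc := S.inc) (red := S.red) D.X))
  simpa using h

theorem isRes_VV : IsRes S.inc1 S.red1 (S.base (S.V (S.inc (S.VO D.X))))
    (S.Vκ (S.Vκ (S.red D.X))) := by
  have h := S.hbase.isRes (S.hV.isRes (isRes_inc (inc := S.inc) (red := S.red) (S.VO D.X)))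
  rw [S.hV.comm_red] at h
  simpa using h

theorem isOrd_tw_sub_VV (ζ : μ) : IsOrd S.inc1 S.red1 S.lam 0
    (S.tw ζ (S.base (S.inc D.X)) - S.base (S.V (S.inc (S.VO D.X)))) :=
  ((D.isRes_tw ζ).sub D.isRes_VV).isOrd (sub_ne_zero.mpr (Ne.symm D.VV_ne))

theorem isOrd_VV_sub_tw (ζ : μ) : IsOrd S.inc1 S.red1 S.lam 0
    (S.base (S.V (S.inc (S.VO D.X))) - S.tw ζ (S.base (S.inc D.X))) :=
  (D.isRes_VV.sub (D.isRes_tw ζ)).isOrd (sub_ne_zero.mpr D.VV_ne)

/-- descent of the order along `base`. -/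
theorem isOrd_of_base (hl : 2 ≤ l) {a : Ω} (ha : IsFrac S.inc a) {n : ℤ}
    (h : IsOrd S.inc1 S.red1 S.lam (((l - 1 : ℕ) : ℤ) * n) (S.base a)) :
    IsOrd S.inc S.red S.ϖ n a :=
  S.hbase.isOrd_of_map S.P S.P1 (l - 1) (by omega) S.u S.hu S.hϖ ha h

/-- descent of the order along `V`. -/
theorem isOrd_of_V {a : Ω} (ha : IsFrac S.inc a) {n : ℤ}
    (h : IsOrd S.inc S.red S.ϖ n (S.V a)) : IsOrd S.inc S.red S.ϖ n a := by
  refine S.hV.isOrd_of_map S.P S.P 1 one_pos 1 (by rw [map_one]; exact one_ne_zero)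
    (by rw [S.hVϖ, one_mul, pow_one]) ha ?_
  simpa using h

/-- **`v(disc_{F1/F0}(θ₁)) = l`.** -/
theorem ord_disc1 [CharZero F0] (hl : 2 ≤ l) : S.R.Ord l (discrHom S.a0 (l + 1) D.x1) := by
  classical
  show IsOrd S.inc S.red S.ϖ l (S.Φ' _)
  let τ : Option μ → F1 →+* Ω1 := fun o => match o with
    | none => (S.base.comp S.V).comp S.Ψinf
    | some ζ => ((S.tw ζ).comp S.base).comp S.Ψ0
  have hτ : ∀ i x, τ i (S.a0 x) = ((S.base.comp S.V).comp S.Φ') x := by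
    intro i x
    cases i with
    | none => show S.base (S.V (S.Ψinf (S.a0 x))) = _; rw [S.Ψinf_a0]; rfl
    | some ζ => show S.tw ζ (S.base (S.Ψ0 (S.a0 x))) = _; rw [S.Ψ0_a0, D.tw_V]; rfl
  have hnone : τ none D.x1 = S.base (S.V (S.inc (S.VO D.X))) := by
    show S.base (S.V (S.Ψinf D.x1)) = _; rw [D.Ψinf_x1]
  have hsome : ∀ ζ, τ (some ζ) D.x1 = S.tw ζ (S.base (S.inc D.X)) := by
    intro ζ
    show S.tw ζ (S.base (S.Ψ0 D.x1)) = _; rw [D.Ψ0_x1]
  have key := isOrd_discrHom S.P1 S.a0 D.fin0 ((S.base.comp S.V).comp S.Φ') τ hτ (l + 1)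
    (by rw [Fintype.card_option, S.card_μ]) D.deg0 D.x1 (optW μ) (by
      intro i j hij
      cases i with
      | none =>
        cases j with
        | none => exact absurd rfl hij
        | some ζ => rw [hnone, hsome]; exact D.isOrd_tw_sub_VV ζ
      | some ζ =>
        cases j with
        | none => rw [hnone, hsome]; exact D.isOrd_VV_sub_tw ζ
        | some ζ' =>
          rw [hsome, hsome]
          exact D.tw_sub ζ' ζ (fun h => hij (by rw [h])))
  rw [sum_offdiag_option, S.card_μ] at key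
  apply isOrd_of_V (S.frac' _)
  apply isOrd_of_base hl (S.hV.isFrac S.P.inj S.P.inj (S.frac' _))
  rw [mul_comm]
  exact key

/-- **`v_∞(disc_{F2/F1}(θ₂)) = l - 2`.** -/
theorem ord_disc2_inf [CharZero F1] (hl : 2 ≤ l) :
    S.Qinf.Ord ((l - 2 : ℕ) : ℤ) (discrHom S.al l (S.be D.x1)) := by
  classical
  show IsOrd S.inc S.red S.ϖ _ (S.Ψinf _)
  let τ : Option ι → F2 →+* Ω1 := fun o => match o with
    | none => S.base.comp S.Φinf
    | some i => S.τ i
  have hτ : ∀ i x, τ i (S.al x) = (S.base.comp S.Ψinf) x := by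
    intro i x
    cases i with
    | none => show S.base (S.Φinf (S.al x)) = _; rw [S.Φinf_al]; rfl
    | some i => show S.τ i (S.al x) = _; rw [S.τ_al]; rfl
  have hnone : τ none (S.be D.x1) = S.base (S.V (S.inc (S.VO D.X))) := by
    show S.base (S.Φinf (S.be D.x1)) = _; rw [S.Φinf_be, D.Ψinf_x1]
  have hsome : ∀ i, τ (some i) (S.be D.x1) = S.tw (S.ζ i) (S.base (S.inc D.X)) := by
    intro i
    show S.τ i (S.be D.x1) = _; rw [S.τ_be, D.Ψ0_x1]
  have key := isOrd_discrHom S.P1 S.al D.finA (S.base.comp S.Ψinf) τ hτ l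
    (by rw [Fintype.card_option, S.card_ι]; omega) D.degA (S.be D.x1) (optW ι) (by
      intro i j hij
      cases i with
      | none =>
        cases j with
        | none => exact absurd rfl hij
        | some i => rw [hnone, hsome]; exact D.isOrd_tw_sub_VV _
      | some i =>
        cases j with
        | none => rw [hnone, hsome]; exact D.isOrd_VV_sub_tw _
        | some j =>
          rw [hsome, hsome]
          exact D.tw_sub _ _ (fun h => hij (by rw [D.ζ_inj h])))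
  rw [sum_offdiag_option, S.card_ι] at key
  apply isOrd_of_base hl (S.fracΨinf _)
  have e : l - 1 - 1 = l - 2 := by omega
  rw [e] at key
  exact key

/-- **`v_0(disc_{F2/F1}(θ₂)) = l`.** -/
theorem ord_disc2_zero [CharZero F1] (hl : 2 ≤ l) :
    S.Q0.Ord l (discrHom S.al l (S.be D.x1)) := by
  classical
  show IsOrd S.inc S.red S.ϖ l (S.Ψ0 _)
  let τ : μ → F2 →+* Ω1 := fun ζ => ((S.tw ζ).comp S.base).comp S.Φ0
  have hτ : ∀ i x, τ i (S.al x) = ((S.base.comp S.V).comp S.Ψ0) x := by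
    intro ζ x
    show S.tw ζ (S.base (S.Φ0 (S.al x))) = _; rw [S.Φ0_al, D.tw_V]; rfl
  have hval : ∀ ζ, τ ζ (S.be D.x1) = S.tw ζ (S.base (S.inc D.X)) := by
    intro ζ
    show S.tw ζ (S.base (S.Φ0 (S.be D.x1))) = _; rw [S.Φ0_be, D.Ψ0_x1]
  have key := isOrd_discrHom S.P1 S.al D.finA ((S.base.comp S.V).comp S.Ψ0) τ hτ l
    S.card_μ D.degA (S.be D.x1) (fun _ _ => 1) (by
      intro i j hij
      rw [hval, hval]
      exact D.tw_sub j i hij)
  rw [sum_offdiag_one, S.card_μ] at key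
  apply isOrd_of_V (S.fracΨ0 _)
  apply isOrd_of_base hl (S.hV.isFrac S.P.inj S.P.inj (S.fracΨ0 _))
  rw [mul_comm]
  exact key

/-! ### the form used by `R.TowerF` -/

theorem ord_pi0 : S.R.Ord 1 (S.cst S.π) := by
  show IsOrd S.inc S.red S.ϖ 1 (S.Φ' _)
  rw [S.Φ'_π]
  exact isOrd_unif S.P

theorem ord_pi_inf : S.Qinf.Ord 1 (S.a0 (S.cst S.π)) := by
  show IsOrd S.inc S.red S.ϖ 1 (S.Ψinf _)
  rw [S.Ψinf_a0, S.Φ'_π]
  exact isOrd_unif S.P

theorem ord_pi_zero : S.Q0.Ord 1 (S.a0 (S.cst S.π)) := by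
  show IsOrd S.inc S.red S.ϖ 1 (S.Ψ0 _)
  rw [S.Ψ0_a0, S.Φ'_π, S.hV.comm_inc, S.hVϖ]
  exact isOrd_unif S.P

/-- **(db1)** -/
theorem exists_delta1 [CharZero F0] (hl : 2 ≤ l) :
    ∃ δ : F0, discrHom S.a0 (l + 1) D.x1 = S.cst S.π ^ l * δ ∧ S.R.Ord 0 δ := by
  have h0 : S.cst S.π ^ l ≠ 0 := pow_ne_zero _ (S.R.ord_ne_zero (ord_pi0 (S := S)))
  refine ⟨discrHom S.a0 (l + 1) D.x1 / S.cst S.π ^ l, by field_simp, ?_⟩
  have h := S.R.ord_div (D.ord_disc1 hl) (S.R.ord_pow (ord_pi0 (S := S)) l)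
  simpa using h

/-- **(db2)** -/
theorem exists_delta2 [CharZero F1] (hl : 2 ≤ l) :
    ∃ δ : F1, discrHom S.al l (S.be D.x1) = S.a0 (S.cst S.π) ^ (l - 2) * δ ∧
      S.Qinf.Ord 0 δ ∧ S.Q0.Ord 2 δ := by
  have h0 : S.a0 (S.cst S.π) ^ (l - 2) ≠ 0 :=
    pow_ne_zero _ (S.Qinf.ord_ne_zero (ord_pi_inf (S := S)))
  refine ⟨discrHom S.al l (S.be D.x1) / S.a0 (S.cst S.π) ^ (l - 2), by field_simp, ?_, ?_⟩
  · have h := S.Qinf.ord_div (D.ord_disc2_inf hl) (S.Qinf.ord_pow (ord_pi_inf (S := S)) (l - 2))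
    simpa using h
  · have h := S.Q0.ord_div (D.ord_disc2_zero hl) (S.Q0.ord_pow (ord_pi_zero (S := S)) (l - 2))
    have e : (l : ℤ) - ((l - 2 : ℕ) : ℤ) * 1 = 2 := by
      rw [Nat.cast_sub hl]; push_cast; ring
    rwa [e] at h

end Setup.XData

end Fermat.Agent.S36.Val
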