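import Fermat.Agent.SS.GM2.Frob
import Fermat.Agent.Crux.GM.CoordJ
import Fermat.Agent.ES.Defs

/-!
# S36 / Val / JFormal : formal facts on `J̄ ∈ k((q))` and on `J(zq) - J(q)`   (task `S36/V-JFormal`)

* `indep_of_order` : `κ = k((q))`, `W = V_L : q ↦ q^L`, `Jb` of order `-1`.  `1, Jb, …, Jb^(L-1)` are linearly
  independent over `W κ`: the nonzero terms `W(r_s) Jb^s` have pairwise distinct orders `L ord(r_s) - s`
  (distinct mod `L`); take the term of minimal order `o`: the coefficient of `q^o` of the sum is its leading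
  coefficient (`HahnSeries.coeff_eq_zero_of_lt_order`, `HahnSeries.order_mul`, `HahnSeries.order_pow`,
  order of `qExpand`: `(qExpand k L g).order = L * g.order`).
* `pow_ne_self` : orders.
* `V_J` : `SS.GM2.V_castS` (`J k = castS k (J ℤ)`: `Crux.GM.castS_VJ` / `S28.coeffMap_J`-type lemma).
* `exists_twist_sub` : `z^n - 1 = (z - 1) [n]_z` for `n : ℤ`, `[n]_z ∈ B`, `r1 [n]_z = n` when `r1 z = 1`.
  `D := ∑ [n]_z g_n q^n` (same support as `g`).  For `g = J`: the coefficient of `q^(-1)` of `red D` is `-1`.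
-/

set_option autoImplicit false

open Polynomial ModularCurve

namespace Fermat.Agent.S36.Val

open Fermat.Agent.ES (twist)
open Fermat.Agent.S28 (J)

theorem indep_of_order {k : Type*} [Field k] (L : ℕ) [NeZero L] (Jb : LaurentSeries k)
    (hJ : Jb.order = -1) (R : (LaurentSeries k)[X]) (hR : R.natDegree < L)
    (h0 : (R.map (qExpand k L)).eval Jb = 0) : R = 0 := by
  by_contra hR0
  have hJ0 : Jb ≠ 0 := by
    rintro rfl
    rw [HahnSeries.order_zero] at hJ
    omega
  have hsupp : R.support.Nonempty := by rwa [Polynomial.support_nonempty]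
  set term : ℕ → LaurentSeries k := fun i => qExpand k L (R.coeff i) * Jb ^ i with hterm
  have hV0 : ∀ i ∈ R.support, qExpand k L (R.coeff i) ≠ 0 := fun i hi =>
    Fermat.Agent.S28.V_ne_zero L (Polynomial.mem_support_iff.mp hi)
  have hne : ∀ i ∈ R.support, term i ≠ 0 := fun i hi =>
    mul_ne_zero (hV0 i hi) (pow_ne_zero _ hJ0)
  have hord : ∀ i ∈ R.support, (term i).order = L * (R.coeff i).order - i := by
    intro i hi
    rw [hterm]
    simp only
    rw [HahnSeries.order_mul (hV0 i hi) (pow_ne_zero _ hJ0), HahnSeries.order_pow, hJ,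
      Fermat.Agent.S28.order_V L (Polynomial.mem_support_iff.mp hi)]
    simp
    ring
  obtain ⟨i₀, hi₀, hmin⟩ := Finset.exists_min_image R.support (fun i => (term i).order) hsupp
  have hlt' : ∀ i ∈ R.support, i < L := fun i hi =>
    lt_of_le_of_lt (Polynomial.le_natDegree_of_mem_supp i hi) hR
  have hstrict : ∀ i ∈ R.support, i ≠ i₀ → (term i₀).order < (term i).order := by
    intro i hi hne'
    refine lt_of_le_of_ne (hmin i hi) ?_
    intro heq
    rw [hord i hi, hord i₀ hi₀] at heq
    have h1 := hlt' i hi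
    have h2 := hlt' i₀ hi₀
    have hdvd : (L : ℤ) ∣ (i : ℤ) - i₀ :=
      ⟨(R.coeff i).order - (R.coeff i₀).order, by linarith⟩
    apply hne'
    have h3 : ((i : ℤ) - i₀) = 0 := by
      apply Int.eq_zero_of_abs_lt_dvd hdvd
      rw [abs_lt]
      constructor <;> omega
    omega
  have hsum : (R.map (qExpand k L)).eval Jb = ∑ i ∈ R.support, term i := by
    rw [Polynomial.eval_map, Polynomial.eval₂_eq_sum, Polynomial.sum_def]
  have hcoeff := congrArg (fun z => z.coeff (term i₀).order) (hsum.symm.trans h0)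
  simp only [HahnSeries.coeff_sum, HahnSeries.coeff_zero] at hcoeff
  rw [Finset.sum_eq_single i₀ (fun i hi hne' =>
    HahnSeries.coeff_eq_zero_of_lt_order (hstrict i hi hne')) (fun h => absurd hi₀ h)] at hcoeff
  exact (HahnSeries.coeff_order_eq_zero.not.mpr (hne i₀ hi₀)) hcoeff

theorem pow_ne_self {k : Type*} [Field k] (Jb : LaurentSeries k) (hJ : Jb.order = -1) (n : ℕ)
    (hn : 1 < n) : Jb ^ n ≠ Jb := by
  intro h
  have h1 := congrArg HahnSeries.order h
  rw [HahnSeries.order_pow, hJ] at h1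
  simp at h1
  omega

theorem order_J (k : Type*) [Field k] : (J k).order = -1 := Fermat.Agent.S28.order_J

theorem coeffMap_J {R S : Type*} [CommRing R] [CommRing S] (f : R →+* S) :
    coeffMap f (J R) = J S := map_jqModC f

theorem V_J (k : Type*) [Field k] (l : ℕ) [Fact l.Prime] [NeZero l] [CharP k l] :
    qExpand k l (J k) = J k ^ l := by
  rw [Fermat.Agent.ES.pow_char_eq l (J k), coeffMap_J]

theorem JFormal_bracket {B k : Type*} [CommRing B] [Field k] (r1 : B →+* k) (z : Bˣ)
    (hz : r1 z = 1) (n : ℤ) :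
    ∃ b : B, ((z ^ n : Bˣ) : B) - 1 = ((z : B) - 1) * b ∧ r1 b = (n : k) := by
  have hr : ∀ m : ℤ, r1 ((z ^ m : Bˣ) : B) = 1 := by
    intro m
    have h1 : Units.map (r1 : B →* k) z = 1 := Units.ext hz
    have h2 : r1 ((z ^ m : Bˣ) : B) = ((Units.map (r1 : B →* k) (z ^ m) : kˣ) : k) := rfl
    rw [h2, map_zpow, h1, one_zpow, Units.val_one]
  induction n using Int.induction_on with
  | zero => exact ⟨0, by simp, by simp⟩
  | succ i ih =>
    obtain ⟨b, hb, hrb⟩ := ih
    refine ⟨((z ^ (i : ℤ) : Bˣ) : B) + b, ?_, ?_⟩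
    · rw [zpow_add_one, Units.val_mul, mul_add, ← hb]
      ring
    · rw [map_add, hr, hrb]
      push_cast
      ring
  | pred i ih =>
    obtain ⟨b, hb, hrb⟩ := ih
    refine ⟨b - ((z ^ (-(i : ℤ) - 1) : Bˣ) : B), ?_, ?_⟩
    · have h1 : ((z ^ (-(i : ℤ)) : Bˣ) : B) = ((z ^ (-(i : ℤ) - 1) : Bˣ) : B) * (z : B) := by
        rw [← Units.val_mul, ← zpow_add_one, sub_add_cancel]
      rw [mul_sub, ← hb, h1]
      ring
    · rw [map_sub, hr, hrb]
      push_cast
      ring

/-- `g(zq) = g(q) + (z - 1) D`, and `red D = θ (red g)`. -/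
theorem exists_twist_sub {B k : Type*} [CommRing B] [Field k] (r1 : B →+* k) (z : Bˣ)
    (hz : r1 z = 1) (g : LaurentSeries B) :
    ∃ D : LaurentSeries B, twist z g = g + HahnSeries.C ((z : B) - 1) * D ∧
      ∀ n : ℤ, (coeffMap r1 D).coeff n = (n : k) * r1 (g.coeff n) := by
  choose br hbr hrbr using JFormal_bracket r1 z hz
  let D : LaurentSeries B :=
    { coeff := fun n => br n * g.coeff n
      isPWO_support' := g.isPWO_support.mono fun n hn => by
        simp only [Function.mem_support, ne_eq] at hn ⊢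
        intro h
        exact hn (by rw [h, mul_zero]) }
  refine ⟨D, ?_, fun n => ?_⟩
  · ext n
    have h1 : (twist z g).coeff n = ((z ^ n : Bˣ) : B) * g.coeff n := rfl
    rw [h1, HahnSeries.coeff_add, HahnSeries.C_mul_eq_smul, HahnSeries.coeff_smul]
    show _ = g.coeff n + ((z : B) - 1) • (br n * g.coeff n)
    rw [smul_eq_mul, ← mul_assoc, ← hbr n]
    ring
  · show r1 (br n * g.coeff n) = _
    rw [map_mul, hrbr]

theorem exists_twist_J {B k : Type*} [CommRing B] [Field k] (r1 : B →+* k) (z : Bˣ)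
    (hz : r1 z = 1) :
    ∃ D : LaurentSeries B, twist z (J B) = J B + HahnSeries.C ((z : B) - 1) * D ∧
      coeffMap r1 D ≠ 0 := by
  obtain ⟨D, hD, hc⟩ := exists_twist_sub r1 z hz (J B)
  refine ⟨D, hD, fun h0 => ?_⟩
  have h1 := hc (-1)
  rw [h0, HahnSeries.coeff_zero, coeff_jqModC_neg_one, map_one] at h1
  simp at h1

end Fermat.Agent.S36.Val
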