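import Fermat.Agent.S36.Val.Gauss
import Fermat.Agent.S36.Val.JFormal
import Fermat.Agent.ES.B.Formal

/-!
# S36 / Val / DiscTw : the concrete facts on Laurent series needed by `Setup.XData` (`Val/Disc.lean`)

`B` a DVR with uniformiser `lam`, `φ1 : B ↪ Kb`, `r1 : B ↠ k`; Gauss place `(coeffMap φ1, coeffMap r1, C lam)`.
* `isOrd_twist_sub` : `g(w q) - g(w' q)` has order exactly `1` if `w ≡ w' ≡ 1`, `w - w' ~ lam` and `θ ḡ ≠ 0` (`XData.tw_sub`);
* `associated_sub_of_primitiveRoot` : `w - w' ~ z - 1` for `l`-th roots of unity `w ≠ w'`, `l` prime;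
* `theta_ne_zero_of_order` : `θ ḡ ≠ 0` if the order of `ḡ` is prime to the characteristic;
* `VV_ne_of_order` : `ḡ(q^(l²)) ≠ ḡ(q)` if `ḡ` has nonzero order (`XData.VV_ne`);
* `twist_V` : `XData.tw_V`.
-/

set_option autoImplicit false
set_option linter.unusedSectionVars false

open ModularCurve

namespace Fermat.Agent.S36.Val

open Fermat.Agent.ES (twist twist_twist twist_coeff coeffMap_twist)

variable {B k Kb : Type*} [CommRing B] [IsDomain B] [IsDiscreteValuationRing B] [Field k] [Field Kb]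
  (φ1 : B →+* Kb) (r1 : B →+* k)

/-- an element `C lam * E` with `red E ≠ 0` has order `1`. -/
theorem isOrd_one_of_eq {Ω O κ : Type*} [Field Ω] [CommRing O] [Field κ] {inc : O →+* Ω}
    {red : O →+* κ} {ϖ : O} (P : IsPlace inc red ϖ) (E : O) (hE : red E ≠ 0) :
    IsOrd inc red ϖ 1 (inc (ϖ * E)) := by
  have h := (isOrd_unif P).mul P ((isRes_inc (inc := inc) (red := red) E).isOrd (ϖ := ϖ) hE)
  rw [map_mul]
  simpa using h

theorem isOrd_twist_sub (hφ1 : Function.Injective φ1) (hr1 : Function.Surjective r1) {lam : B}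
    (hlam : Irreducible lam) (w w' : Bˣ) (hw : r1 w = 1) (hw' : r1 w' = 1)
    (hass : Associated ((w : B) - w') lam) (g : LaurentSeries B)
    (hg : ∃ n : ℤ, (n : k) * r1 (g.coeff n) ≠ 0) :
    IsOrd (coeffMap φ1) (coeffMap r1) (HahnSeries.C lam) 1
      (twist (Units.map φ1.toMonoidHom w) (coeffMap φ1 g)
        - twist (Units.map φ1.toMonoidHom w') (coeffMap φ1 g)) := by
  have P := isPlace_gauss φ1 r1 hφ1 hr1 hlam
  -- `v = w / w'`
  set v : Bˣ := w'⁻¹ * w with hv
  have hv1 : r1 v = 1 := by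
    have h1 : r1 ((w'⁻¹ : Bˣ) : B) = 1 := by
      have h2 : r1 ((w'⁻¹ : Bˣ) : B) * r1 (w' : B) = 1 := by
        rw [← map_mul, Units.inv_mul, map_one]
      rwa [hw', mul_one] at h2
    rw [hv, Units.val_mul, map_mul, h1, hw, one_mul]
  obtain ⟨D, hD, hDc⟩ := exists_twist_sub r1 v hv1 g
  obtain ⟨u, hu⟩ := hass
  -- `v - 1 = lam * c`, `c` a unit
  have hvl : (v : B) - 1 = lam * (((u⁻¹ * w'⁻¹ : Bˣ)) : B) := by
    have h1 : (v : B) - 1 = ((w'⁻¹ : Bˣ) : B) * ((w : B) - w') := by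
      rw [hv, Units.val_mul, mul_sub, Units.inv_mul]
    have h2 : (w : B) - w' = lam * ((u⁻¹ : Bˣ) : B) := by
      rw [← hu, mul_assoc, Units.mul_inv, mul_one]
    rw [h1, h2, Units.val_mul]
    ring
  have hkey : twist w g - twist w' g
      = HahnSeries.C lam * (HahnSeries.C (((u⁻¹ * w'⁻¹ : Bˣ)) : B) * twist w' D) := by
    have h1 : twist w g = twist w' (twist v g) := by
      rw [twist_twist, hv, mul_inv_cancel_left]
    rw [h1, hD, map_add, add_sub_cancel_left, map_mul, twist_C, hvl, map_mul]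
    ring
  have hE : coeffMap r1 (HahnSeries.C (((u⁻¹ * w'⁻¹ : Bˣ)) : B) * twist w' D) ≠ 0 := by
    rw [map_mul]
    apply mul_ne_zero
    · rw [HahnSeries.C_apply, coeffMap_single, Ne, HahnSeries.single_eq_zero_iff]
      intro h0
      have h2 : r1 (((u⁻¹ * w'⁻¹ : Bˣ)) : B) * r1 ((((u⁻¹ * w'⁻¹ : Bˣ))⁻¹ : Bˣ) : B) = 1 := by
        rw [← map_mul, Units.mul_inv, map_one]
      rw [h0, zero_mul] at h2
      exact zero_ne_one h2
    · have h3 := (placeHom_twist φ1 r1 w' hw').comm_red D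
      rw [h3, RingHom.id_apply]
      obtain ⟨n, hn⟩ := hg
      intro h0
      apply hn
      rw [← hDc n, h0, HahnSeries.coeff_zero]
  have hfin := isOrd_one_of_eq P _ hE
  rw [← hkey, map_sub, coeffMap_twist, coeffMap_twist] at hfin
  exact hfin

/-- differences of distinct `l`-th roots of unity are associated to `z - 1`. -/
theorem associated_sub_of_primitiveRoot {l : ℕ} (hl : l.Prime) {z : B} (hz : IsPrimitiveRoot z l)
    {w w' : B} (hw : w ^ l = 1) (hw' : w' ^ l = 1) (hne : w ≠ w') :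
    Associated (w - w') (z - 1) := by
  have : NeZero l := ⟨hl.ne_zero⟩
  obtain ⟨a, ha, rfl⟩ := hz.eq_pow_of_pow_eq_one hw
  obtain ⟨b, hb, rfl⟩ := hz.eq_pow_of_pow_eq_one hw'
  have hzu : IsUnit z := hz.isUnit hl.ne_zero
  -- wlog `b < a`
  have key : ∀ a b : ℕ, a < l → b < a → Associated (z ^ a - z ^ b) (z - 1) := by
    intro a b ha hab
    have h1 : z ^ a - z ^ b = z ^ b * (z ^ (a - b) - 1) := by
      rw [mul_sub, ← pow_add, Nat.add_sub_cancel' hab.le, mul_one]
    have hcop : (a - b).Coprime l := by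
      rw [Nat.coprime_comm, Nat.Prime.coprime_iff_not_dvd hl]
      intro hd
      have := Nat.le_of_dvd (by omega) hd
      omega
    have h2 := hz.associated_sub_one_pow_sub_one_of_coprime hcop
    rw [h1]
    exact (associated_isUnit_mul_left_iff (hzu.pow b)).mpr h2.symm
  rcases lt_trichotomy a b with h | h | h
  · have := key b a hb h
    rw [← neg_sub]
    exact this.neg_left
  · exact absurd (by rw [h]) hne
  · exact key a b ha h

/-- `θ ḡ ≠ 0` from the leading term. -/
theorem theta_ne_zero_of_order (g : LaurentSeries B) (hg : coeffMap r1 g ≠ 0)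
    (hn : (((coeffMap r1 g).order : ℤ) : k) ≠ 0) :
    ∃ n : ℤ, (n : k) * r1 (g.coeff n) ≠ 0 := by
  refine ⟨(coeffMap r1 g).order, mul_ne_zero hn ?_⟩
  have h : ((coeffMap r1 g).coeff (coeffMap r1 g).order) ≠ 0 := fun h0 => hg (HahnSeries.coeff_order_eq_zero.mp h0)
  rwa [coeffMap_coeff] at h

/-- `ḡ(q^L) ≠ ḡ(q)` if `ḡ` has nonzero order, `L ≥ 2`. -/
theorem V_ne_of_order (L : ℕ) [NeZero L] (hL : 2 ≤ L) (g : LaurentSeries k) (hg : g.order ≠ 0) :
    qExpand k L g ≠ g := by
  intro h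
  have hg0 : g ≠ 0 := by
    rintro rfl
    exact hg HahnSeries.order_zero
  -- compare the coefficients at `L * order` and at `order`
  set o := g.order with ho
  have h1 : g.coeff ((L : ℤ) * o) = g.coeff o := by
    conv_lhs => rw [← h]
    rw [qExpand_coeff_mul]
  have h2 : g.coeff o ≠ 0 := fun h0 => hg0 (HahnSeries.coeff_order_eq_zero.mp h0)
  rcases lt_or_gt_of_ne hg with hneg | hpos
  · -- `L * o < o`
    have hlt : (L : ℤ) * o < o := by
      have : (2 : ℤ) ≤ L := by exact_mod_cast hL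
      nlinarith
    exact h2 (h1 ▸ HahnSeries.coeff_eq_zero_of_lt_order hlt)
  · -- `o` is not divisible by `L`, or `o / L < o`
    by_cases hd : (L : ℤ) ∣ o
    · obtain ⟨c, hc⟩ := hd
      have h3 : g.coeff o = g.coeff c := by
        conv_lhs => rw [← h, hc]
        rw [qExpand_coeff_mul]
      have hlt : c < o := by
        have : (2 : ℤ) ≤ L := by exact_mod_cast hL
        have hc0 : 0 < c := by
          by_contra hcn
          have : (L : ℤ) * c ≤ 0 := mul_nonpos_of_nonneg_of_nonpos (by positivity) (by omega)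
          omega
        nlinarith
      exact h2 (h3 ▸ HahnSeries.coeff_eq_zero_of_lt_order hlt)
    · apply h2
      conv_lhs => rw [← h]
      exact qExpand_coeff_of_not_dvd _ _ hd

theorem VV_ne_of_order (l : ℕ) [NeZero l] (hl : 2 ≤ l) (g : LaurentSeries k) (hg : g.order ≠ 0) :
    qExpand k l (qExpand k l g) ≠ g := by
  intro h
  have hg0 : g ≠ 0 := by
    rintro rfl
    exact hg HahnSeries.order_zero
  have : NeZero (l * l) := ⟨mul_ne_zero (NeZero.ne l) (NeZero.ne l)⟩
  apply V_ne_of_order (l * l) (by nlinarith) g hg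
  rw [← h]
  ext n
  by_cases hn : ((l * l : ℕ) : ℤ) ∣ n
  · obtain ⟨c, rfl⟩ := hn
    rw [qExpand_coeff_mul, h]
    have e : ((l * l : ℕ) : ℤ) * c = (l : ℤ) * ((l : ℤ) * c) := by push_cast; ring
    conv_rhs => rw [← h, e]
    rw [qExpand_coeff_mul, qExpand_coeff_mul]
  · rw [qExpand_coeff_of_not_dvd _ _ hn]
    by_cases h1 : (l : ℤ) ∣ n
    · obtain ⟨c, rfl⟩ := h1
      rw [qExpand_coeff_mul, qExpand_coeff_of_not_dvd]
      intro h2
      apply hn
      obtain ⟨d, rfl⟩ := h2
      exact ⟨d, by push_cast; ring⟩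
    · rw [qExpand_coeff_of_not_dvd _ _ h1]

/-- series in `q^l` are invariant under `q ↦ w q`, `w^l = 1`. -/
theorem twist_V (l : ℕ) [NeZero l] (w : Kbˣ) (hw : w ^ l = 1) (a : LaurentSeries Kb) :
    twist w (qExpand Kb l a) = qExpand Kb l a :=
  Fermat.Agent.ES.twist_Vq l w hw a

end Fermat.Agent.S36.Val
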