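import Fermat.Agent.S36.Val.Main

/-!
# S36 / Val / Main2 : the full output of STEP C for `R.chart_main`   (tasks `S36/V-W2`, `S36/V-Lam`)

`exists_W2`.  Take `c0, g` from `exists_W`, `W = c2 c0 * f^E * g^m`, `E = (l+1)(l-1)l`.  `Int3 i ((W-1)/π)` gives
`Res3 W 1 1 1` (`W = 1 + π * y`, `π` has residue `0` at the three places: `ord_π`, `res_of_pos`).
`NmA W = a0 (cst (c0^l * k1^E)) * (h1^E * NmA g)^m` (`map_mul`, `map_pow`, `c2 c = al (a0 (cst c))`, `NmA_al`, `hfA`).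
`hK1`: `c0^l k1^E = π^n e^m`, so `NmA W = π^n G^m`, `G = a0 (cst e) * h1^E * NmA g ≠ 0`.
Orders at `Qinf`: `ordAinf` gives `Qinf.Ord 0 (NmA W)`; `Qinf.Ord 1 π`; if `Qinf.Ord o G` then `n + m o = 0` (`ord_unique`), so
`H1 := π^(-o) * G` satisfies `H1^m = NmA W` and `Qinf.Ord 0 H1`.  `Q0.Ord 0 (NmA W)` (`ordA0`) ⟹ `Q0.Ord 0 H1` (`m * ord = 0`).
Residues `γ∞, γ0 ≠ 0` of `H1`: `γ∞^m = 1 * 1^(l-1)` (`resAinf`, `res_unique`);  `Vκ (γ0^m) = 1^l` (`resA0`), `Vκ` injective: `γ0^m = 1`.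
`hμ` gives `ua, ub`; the residue of `a0 (cst ub)` at `Q0` is `Vκ γ0' ` where `V (Φ' (cst ub)) = Φ' (cst ub)` (`V_cst`): so it is `γ0` again
(`Ψ0_a0`).  `H1 - a0 (cst ua)` has residue `0` at `Qinf`, so it is `ϖ * (integral)` (`IsRes.exists_eq_unif_mul`), `Ψinf (a0 (cst π)) = inc ϖ`.
Same for `NmB` (`be_cst`, `NmB_be`, `ordBinf`, `ordB0`, `resBinf`, `resB0`).

`exists_lam`.  `N = l - 1`, `E∞ = A^N/(A^N + B^N)` with `(A, B) = (Z T0, Tinf)`, `Em`: `(Tinf T0, Z)`, `E0`: `(Tinf Z, T0)`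
(`ord_Z, ord_Tinf, ord_T0`).  At a place where `A` is a unit and `B` has order `b ≥ 1`: `E - 1 = -(B/A)^N / (1 + (B/A)^N)` has order `N b`;
where `A` has order `a ≥ 1` and `B` is a unit: `E` has order `N a`.  In all cases the order is `≥ l - 1 ≥ v(π)`.
`lam = c2 a * E∞ + c2 b * Em + c2 c * E0`;  `lam - c2 a = c2 a (E∞ - 1) + c2 b Em + c2 c E0` etc.
`lam ≠ 0` because its residue at `∞` is that of `a`.
-/

set_option autoImplicit false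

open Polynomial

namespace Fermat.Agent.S36.Val

open Fermat.Agent.Crux.G.QLink

namespace Setup

variable {l : ℕ} {K F0 F1 F2 Ω O κ Ω1 O1 ι μ : Type*} [Field K] [Field F0] [Field F1]
    [Field F2] [Field Ω] [CommRing O] [Field κ] [Field Ω1] [CommRing O1] [Fintype ι]
    [Fintype μ] (S : Setup l K F0 F1 F2 Ω O κ Ω1 O1 ι μ)

/-- `K → F1`. -/
def c1 : K →+* F1 := S.a0.comp S.cst

theorem W2_Ψinf_c1 (c : K) : S.Ψinf (S.c1 c) = S.Φ' (S.cst c) := by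
  change S.Ψinf (S.a0 (S.cst c)) = _
  rw [S.Ψinf_a0]

theorem W2_Ψ0_c1 (c : K) : S.Ψ0 (S.c1 c) = S.Φ' (S.cst c) := by
  change S.Ψ0 (S.a0 (S.cst c)) = _
  rw [S.Ψ0_a0, S.V_cst]

theorem W2_inV_div {Ψ : F1 →+* Ω} (hπ : Ψ (S.c1 S.π) = S.inc S.ϖ) {H : F1} {u : K} {γ : κ}
    (hH : IsRes S.inc S.red (Ψ H) γ) (hu : IsRes S.inc S.red (Ψ (S.c1 u)) γ) :
    InV S.inc S.red (Ψ ((H - S.c1 u) / S.c1 S.π)) := by
  have h0 : IsRes S.inc S.red (Ψ H - Ψ (S.c1 u)) 0 := by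
    have := hH.sub hu
    rwa [sub_self] at this
  obtain ⟨a', ha', he⟩ := h0.exists_eq_unif_mul S.P
  rw [map_div₀, map_sub, hπ, he, mul_div_cancel_left₀ _ S.P.unif_ne_zero]
  exact ha'

/-- common core for the two norms. -/
theorem W2_core (m : ℕ) (hm : 0 < m) (hlm : l.Coprime m) (X G0 : F1) (C : K) (hC : C ≠ 0)
    (hX : X = S.c1 C * G0 ^ m) (hinf : S.Qinf.Res X 1) (h0 : S.Q0.Res X 1) :
    ∃ (H : F1) (ua ub : K), X = H ^ m ∧ ua ^ m = 1 ∧ ub ^ m = 1 ∧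
      InV S.inc S.red (S.Ψinf ((H - S.c1 ua) / S.c1 S.π)) ∧
      InV S.inc S.red (S.Ψ0 ((H - S.c1 ub) / S.c1 S.π)) := by
  obtain ⟨n, e, hCe⟩ := S.hK1 m hm hlm C hC
  have hXinf : S.Qinf.Ord 0 X := S.Qinf.ord_of_res hinf one_ne_zero
  have hX0 : S.Q0.Ord 0 X := S.Q0.ord_of_res h0 one_ne_zero
  have hXne : X ≠ 0 := S.Qinf.ord_ne_zero hXinf
  have hπinf : S.Ψinf (S.c1 S.π) = S.inc S.ϖ := by rw [S.W2_Ψinf_c1, S.Φ'_π]
  have hπ0 : S.Ψ0 (S.c1 S.π) = S.inc S.ϖ := by rw [S.W2_Ψ0_c1, S.Φ'_π]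
  have hπQinf : S.Qinf.Ord 1 (S.c1 S.π) := by
    change IsOrd S.inc S.red S.ϖ 1 (S.Ψinf (S.c1 S.π))
    rw [hπinf]; exact isOrd_unif S.P
  have hπne : S.c1 S.π ≠ 0 := S.Qinf.ord_ne_zero hπQinf
  set G : F1 := S.c1 e * G0 with hG
  have hXG : X = S.c1 S.π ^ n * G ^ m := by
    rw [hX, hCe, map_mul, map_zpow₀, map_pow, hG, mul_pow]; ring
  have hGne : G ≠ 0 := by
    intro h
    rw [h, zero_pow hm.ne', mul_zero] at hXG
    exact hXne hXG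
  obtain ⟨o, ho⟩ := S.Qinf.ord_exists G hGne
  have hno : n + m * o = 0 := by
    have h1 := S.Qinf.ord_mul (S.Qinf.ord_zpow hπQinf n) (S.Qinf.ord_pow ho m)
    rw [← hXG] at h1
    have := S.Qinf.ord_unique h1 hXinf
    linarith
  set H : F1 := S.c1 S.π ^ (-o) * G with hH
  have hHm : X = H ^ m := by
    have e1 : (S.c1 S.π ^ (-o)) ^ m = S.c1 S.π ^ n := by
      rw [← zpow_natCast, ← zpow_mul]
      congr 1
      linarith
    rw [hXG, hH, mul_pow (S.c1 S.π ^ (-o)) G m, e1]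
  have hHne : H ≠ 0 := by
    intro h
    rw [h, zero_pow hm.ne'] at hHm
    exact hXne hHm
  have hord : ∀ Q : APlace F1 κ, Q.Ord 0 X → Q.Ord 0 H := by
    intro Q hQ
    obtain ⟨o', ho'⟩ := Q.ord_exists H hHne
    have h1 := Q.ord_pow ho' m
    rw [← hHm] at h1
    have h2 := Q.ord_unique h1 hQ
    have h3 : o' = 0 := by
      rcases mul_eq_zero.1 h2 with h | h
      · exact absurd (by exact_mod_cast h) hm.ne'
      · exact h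
    rwa [h3] at ho'
  have hroot : ∀ Q : APlace F1 κ, Q.Res X 1 → ∃ γ : κ, γ ^ m = 1 ∧ Q.Res H γ := by
    intro Q hQ
    obtain ⟨γ, -, hγ⟩ := Q.ord_zero_iff.1 (hord Q (Q.ord_of_res hQ one_ne_zero))
    refine ⟨γ, ?_, hγ⟩
    have h1 := Q.res_pow hγ m
    rw [← hHm] at h1
    exact Q.res_unique h1 hQ
  obtain ⟨γa, hγa, hHa⟩ := hroot S.Qinf hinf
  obtain ⟨γb, hγb, hHb⟩ := hroot S.Q0 h0
  obtain ⟨ua, hua, hra⟩ := S.hμ m hm hlm γa hγa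
  obtain ⟨ub, hub, hrb⟩ := S.hμ m hm hlm γb hγb
  refine ⟨H, ua, ub, hHm, hua, hub, ?_, ?_⟩
  · exact S.W2_inV_div hπinf hHa (by rw [S.W2_Ψinf_c1]; exact hra)
  · exact S.W2_inV_div hπ0 hHb (by rw [S.W2_Ψ0_c1]; exact hrb)

theorem W2_res_one {F : Type*} [Field F] (P : APlace F κ) {W ϖ' : F} {n : ℤ} (hn : 0 < n)
    (hϖ : P.Ord n ϖ') {c : κ} (hy : P.Res ((W - 1) / ϖ') c) : P.Res W 1 := by
  have h1 := P.res_add P.res_one (P.res_mul (P.res_of_pos hϖ hn) hy)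
  rw [mul_div_cancel₀ _ (P.ord_ne_zero hϖ), zero_mul, add_zero] at h1
  simpa using h1

theorem exists_W2 (hl : l.Prime) (m : ℕ) (hm : 0 < m) (hlm : l.Coprime m) (f : F2) (hf : f ≠ 0)
    (k1 k2 : K) (hk1 : k1 ≠ 0) (hk2 : k2 ≠ 0) (h1 h2 : F1)
    (hfA : S.NmA f = S.a0 (S.cst k1) * h1 ^ m) (hfB : S.NmB f = S.a0 (S.cst k2) * h2 ^ m) :
    ∃ (c0 : K) (g W : F2) (H1 H2 : F1) (ua ub uc ud : K),
      c0 ≠ 0 ∧ g ≠ 0 ∧ W = S.c2 c0 * f ^ ((l + 1) * (l - 1) * l) * g ^ m ∧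
      (∀ i, S.Int3 i ((W - 1) / S.c2 S.π)) ∧
      S.NmA W = H1 ^ m ∧ S.NmB W = H2 ^ m ∧
      ua ^ m = 1 ∧ ub ^ m = 1 ∧ uc ^ m = 1 ∧ ud ^ m = 1 ∧
      InV S.inc S.red (S.Ψinf ((H1 - S.c1 ua) / S.c1 S.π)) ∧
      InV S.inc S.red (S.Ψ0 ((H1 - S.c1 ub) / S.c1 S.π)) ∧
      InV S.inc S.red (S.Ψinf ((H2 - S.c1 uc) / S.c1 S.π)) ∧
      InV S.inc S.red (S.Ψ0 ((H2 - S.c1 ud) / S.c1 S.π)) := by
  have hl2 : 2 ≤ l := hl.two_le
  obtain ⟨i₀⟩ : Nonempty ι := by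
    rw [← Fintype.card_pos_iff, S.card_ι]
    omega
  obtain ⟨c0, g, hc0, hg, hint⟩ := S.exists_W hl m hm hlm f hf k1 k2 hk1 hk2 h1 h2 hfA hfB
  set E : ℕ := (l + 1) * (l - 1) * l with hE
  set W : F2 := S.c2 c0 * f ^ E * g ^ m with hW
  obtain ⟨hπ1, hπ2, hπ3⟩ := S.ord_π hl2 i₀
  obtain ⟨hi1, hi2, hi3⟩ := hint i₀
  obtain ⟨r1, hr1⟩ := inV_iff.1 hi1
  obtain ⟨r2, hr2⟩ := inV_iff.1 hi2
  obtain ⟨r3, hr3⟩ := inV_iff.1 hi3
  have hres : Res3 S.Pinf (S.Pm i₀) S.P0 W 1 1 1 :=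
    ⟨W2_res_one S.Pinf one_pos hπ1 hr1,
      W2_res_one (S.Pm i₀) (by have : (2 : ℤ) ≤ l := by exact_mod_cast hl2
                               omega) hπ2 hr2,
      W2_res_one S.P0 one_pos hπ3 hr3⟩
  have hVinj : ∀ d : κ, S.Vκ d = 1 → d = 1 := by
    intro d hd
    exact S.Vκ.injective (by rw [hd, map_one])
  -- the norm `A`
  have hA : S.NmA W = S.c1 (c0 ^ l * k1 ^ E) * (h1 ^ E * S.NmA g) ^ m := by
    have e1 : S.c2 c0 = S.al (S.a0 (S.cst c0)) := rfl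
    have e2 : ∀ c, S.c1 c = S.a0 (S.cst c) := fun _ => rfl
    rw [hW, map_mul, map_mul, map_pow, map_pow, e1, S.NmA_al, hfA, map_mul, map_pow, map_pow,
      e2, e2]
    ring
  have hB : S.NmB W = S.c1 (c0 ^ l * k2 ^ E) * (h2 ^ E * S.NmB g) ^ m := by
    have e1 : S.c2 c0 = S.be (S.a0 (S.cst c0)) := (S.be_cst c0).symm
    have e2 : ∀ c, S.c1 c = S.a0 (S.cst c) := fun _ => rfl
    rw [hW, map_mul, map_mul, map_pow, map_pow, e1, S.NmB_be, hfB, map_mul, map_pow, map_pow,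
      e2, e2]
    ring
  have hAinf : S.Qinf.Res (S.NmA W) 1 := by
    have := S.resAinf hl2 i₀ W 1 1 1 hres
    simpa using this
  have hA0 : S.Q0.Res (S.NmA W) 1 := by
    have h := S.ordA0 hl2 W 0 (S.P0.ord_of_res hres.2.2 one_ne_zero)
    rw [mul_zero] at h
    obtain ⟨d, -, hd⟩ := S.Q0.ord_zero_iff.1 h
    have := S.resA0 hl2 i₀ W 1 1 1 d hres hd
    rw [one_pow] at this
    rwa [hVinj d this] at hd
  have hB0 : S.Q0.Res (S.NmB W) 1 := by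
    have := S.resB0 hl2 i₀ W 1 1 1 hres
    simpa using this
  have hBinf : S.Qinf.Res (S.NmB W) 1 := by
    have h := S.ordBinf hl2 W 0 (S.Pinf.ord_of_res hres.1 one_ne_zero)
    rw [mul_zero] at h
    obtain ⟨d, -, hd⟩ := S.Qinf.ord_zero_iff.1 h
    have := S.resBinf hl2 i₀ W 1 1 1 d hres hd
    rw [one_pow] at this
    rwa [hVinj d this] at hd
  obtain ⟨H1, ua, ub, hH1, hua, hub, hia, hib⟩ := S.W2_core m hm hlm _ _ _
    (mul_ne_zero (pow_ne_zero _ hc0) (pow_ne_zero _ hk1)) hA hAinf hA0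
  obtain ⟨H2, uc, ud, hH2, huc, hud, hic, hid⟩ := S.W2_core m hm hlm _ _ _
    (mul_ne_zero (pow_ne_zero _ hc0) (pow_ne_zero _ hk2)) hB hBinf hB0
  exact ⟨c0, g, W, H1, H2, ua, ub, uc, ud, hc0, hg, rfl, hint, hH1, hH2, hua, hub, huc, hud,
    hia, hib, hic, hid⟩

theorem Lam_int_of_ord {F κ : Type*} [Field F] [Field κ] (P : APlace F κ) {n : ℤ} {y : F}
    (h : P.Ord n y) (hn : 0 ≤ n) : ∃ c, P.Res y c := by
  rcases hn.eq_or_lt with rfl | hn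
  · obtain ⟨c, -, hc⟩ := P.ord_zero_iff.1 h
    exact ⟨c, hc⟩
  · exact ⟨0, P.res_of_pos h hn⟩

/-- the denominator `A^N + B^N` is a unit when one of `A`, `B` is a unit and the other one has positive order. -/
theorem Lam_den {F κ : Type*} [Field F] [Field κ] (P : APlace F κ) {A B : F} {b : ℤ} {N : ℕ}
    (hN : 1 ≤ N) (hb : 1 ≤ b) (hA : P.Ord 0 A) (hB : P.Ord b B) :
    ∃ d, d ≠ 0 ∧ P.Res (A ^ N + B ^ N) d := by
  obtain ⟨c, hc, hAc⟩ := P.ord_zero_iff.1 hA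
  have hB0 : P.Res (B ^ N) 0 := by
    have := P.res_pow (P.res_of_pos hB (by omega)) N
    rwa [zero_pow (by omega)] at this
  have := P.res_add (P.res_pow hAc N) hB0
  rw [add_zero] at this
  exact ⟨c ^ N, pow_ne_zero _ hc, this⟩

theorem Lam_num {F κ : Type*} [Field F] [Field κ] (P : APlace F κ) {B ϖ : F} {b v : ℤ} {N : ℕ}
    (hb : 1 ≤ b) (hv : v ≤ N) (hB : P.Ord b B) (hϖ : P.Ord v ϖ) :
    ∃ c, P.Res (B ^ N / ϖ) c := by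
  apply Lam_int_of_ord P (P.ord_div (P.ord_pow hB N) hϖ)
  have : (N : ℤ) * 1 ≤ N * b := by
    apply mul_le_mul_of_nonneg_left hb
    positivity
  omega

/-- `A` a unit, `B` of positive order: `E - 1 ∈ ϖ V`. -/
theorem Lam_one {F κ : Type*} [Field F] [Field κ] (P : APlace F κ) {A B ϖ : F} {b v : ℤ} {N : ℕ}
    (hN : 1 ≤ N) (hb : 1 ≤ b) (hv : v ≤ N) (hA : P.Ord 0 A) (hB : P.Ord b B) (hϖ : P.Ord v ϖ) :
    ∃ c, P.Res ((A ^ N / (A ^ N + B ^ N) - 1) / ϖ) c := by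
  obtain ⟨d, hd, hden⟩ := Lam_den P hN hb hA hB
  obtain ⟨c, hc⟩ := Lam_num P hb hv hB hϖ
  have hd0 : A ^ N + B ^ N ≠ 0 := P.ord_ne_zero (P.ord_of_res hden hd)
  have hϖ0 : ϖ ≠ 0 := P.ord_ne_zero hϖ
  refine ⟨-(c / d), ?_⟩
  have e : (A ^ N / (A ^ N + B ^ N) - 1) / ϖ = -(B ^ N / ϖ / (A ^ N + B ^ N)) := by
    field_simp
    ring
  rw [e]
  exact P.res_neg (P.res_div hc hden hd)

/-- `A` of positive order, `B` a unit: `E ∈ ϖ V`. -/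
theorem Lam_zero {F κ : Type*} [Field F] [Field κ] (P : APlace F κ) {A B ϖ : F} {a v : ℤ} {N : ℕ}
    (hN : 1 ≤ N) (ha : 1 ≤ a) (hv : v ≤ N) (hA : P.Ord a A) (hB : P.Ord 0 B) (hϖ : P.Ord v ϖ) :
    ∃ c, P.Res (A ^ N / (A ^ N + B ^ N) / ϖ) c := by
  obtain ⟨d, hd, hden⟩ := Lam_den P hN ha hB hA
  rw [add_comm] at hden
  obtain ⟨c, hc⟩ := Lam_num P ha hv hA hϖ
  have hd0 : A ^ N + B ^ N ≠ 0 := P.ord_ne_zero (P.ord_of_res hden hd)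
  have hϖ0 : ϖ ≠ 0 := P.ord_ne_zero hϖ
  refine ⟨c / d, ?_⟩
  have e : A ^ N / (A ^ N + B ^ N) / ϖ = A ^ N / ϖ / (A ^ N + B ^ N) := by
    field_simp
  rw [e]
  exact P.res_div hc hden hd

/-- the combination at one place. -/
theorem Lam_comb {F κ : Type*} [Field F] [Field κ] (P : APlace F κ) {x y z E1 E2 E3 ϖ : F}
    (hϖ0 : ϖ ≠ 0)
    (hx : ∃ c, P.Res x c) (hy : ∃ c, P.Res y c) (hz : ∃ c, P.Res z c)
    (h1 : ∃ c, P.Res ((E1 - 1) / ϖ) c) (h2 : ∃ c, P.Res (E2 / ϖ) c) (h3 : ∃ c, P.Res (E3 / ϖ) c) :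
    ∃ c, P.Res ((x * E1 + y * E2 + z * E3 - x) / ϖ) c := by
  obtain ⟨cx, hx⟩ := hx
  obtain ⟨cy, hy⟩ := hy
  obtain ⟨cz, hz⟩ := hz
  obtain ⟨c1, h1⟩ := h1
  obtain ⟨c2, h2⟩ := h2
  obtain ⟨c3, h3⟩ := h3
  refine ⟨cx * c1 + cy * c2 + cz * c3, ?_⟩
  have e : (x * E1 + y * E2 + z * E3 - x) / ϖ =
      x * ((E1 - 1) / ϖ) + y * (E2 / ϖ) + z * (E3 / ϖ) := by
    field_simp
    ring
  rw [e]
  exact P.res_add (P.res_add (P.res_mul hx h1) (P.res_mul hy h2)) (P.res_mul hz h3)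

theorem exists_lam (hl : 2 ≤ l) (a b c : K)
    (ha : ∃ r, r ≠ 0 ∧ IsRes S.inc S.red (S.Φ' (S.cst a)) r)
    (hb : InV S.inc S.red (S.Φ' (S.cst b))) (hc : InV S.inc S.red (S.Φ' (S.cst c))) :
    ∃ lam : F2, lam ≠ 0 ∧ ∀ i,
      InV S.inc S.red (S.Φinf ((lam - S.c2 a) / S.c2 S.π)) ∧
      InV S.inc1 S.red1 (S.τ i ((lam - S.c2 b) / S.c2 S.π)) ∧
      InV S.inc S.red (S.Φ0 ((lam - S.c2 c) / S.c2 S.π)) := by
  obtain ⟨r, hr, har⟩ := ha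
  have haV : InV S.inc S.red (S.Φ' (S.cst a)) := har.inV
  set N := l - 1 with hN
  have hN1 : 1 ≤ N := by omega
  -- constants are integral at the three places
  have cinf : ∀ x : K, InV S.inc S.red (S.Φ' (S.cst x)) → ∃ d, S.Pinf.Res (S.c2 x) d := by
    intro x hx
    obtain ⟨d, hd⟩ := inV_iff.1 hx
    refine ⟨d, ?_⟩
    change IsRes S.inc S.red (S.Φinf (S.i0 (S.cst x))) d
    rwa [S.Φinf_i0]
  have cm : ∀ (i : ι) (x : K), InV S.inc S.red (S.Φ' (S.cst x)) → ∃ d, (S.Pm i).Res (S.c2 x) d := by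
    intro i x hx
    obtain ⟨d, hd⟩ := inV_iff.1 (S.hbase.inV hx)
    refine ⟨d, ?_⟩
    change IsRes S.inc1 S.red1 (S.τ i (S.i0 (S.cst x))) d
    rwa [S.τ_i0]
  have c0 : ∀ x : K, InV S.inc S.red (S.Φ' (S.cst x)) → ∃ d, S.P0.Res (S.c2 x) d := by
    intro x hx
    obtain ⟨d, hd⟩ := inV_iff.1 (S.hV.inV (S.hV.inV hx))
    refine ⟨d, ?_⟩
    change IsRes S.inc S.red (S.Φ0 (S.i0 (S.cst x))) d
    rwa [S.Φ0_i0]
  set Einf : F2 := (S.Z * S.T0) ^ N / ((S.Z * S.T0) ^ N + S.Tinf ^ N) with hEinf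
  set Em : F2 := (S.Tinf * S.T0) ^ N / ((S.Tinf * S.T0) ^ N + S.Z ^ N) with hEm
  set E0 : F2 := (S.Tinf * S.Z) ^ N / ((S.Tinf * S.Z) ^ N + S.T0 ^ N) with hE0
  set lam : F2 := S.c2 a * Einf + S.c2 b * Em + S.c2 c * E0 with hlam
  have main : ∀ i,
      (∃ d, S.Pinf.Res ((lam - S.c2 a) / S.c2 S.π) d) ∧
      (∃ d, (S.Pm i).Res ((lam - S.c2 b) / S.c2 S.π) d) ∧
      (∃ d, S.P0.Res ((lam - S.c2 c) / S.c2 S.π) d) := by
    intro i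
    obtain ⟨z1, z2, z3⟩ := S.ord_Z hl i
    obtain ⟨t1, t2, t3⟩ := S.ord_Tinf hl i
    obtain ⟨u1, u2, u3⟩ := S.ord_T0 hl i
    obtain ⟨p1, p2, p3⟩ := S.ord_π hl i
    have hπ0 : S.c2 S.π ≠ 0 := S.Pinf.ord_ne_zero p1
    have hv1 : (1 : ℤ) ≤ N := by exact_mod_cast hN1
    have hvm : (l : ℤ) - 1 ≤ N := by
      rw [hN]; push_cast [Nat.cast_sub (by omega : 1 ≤ l)]; exact le_refl _
    -- orders of the products
    have A1inf : S.Pinf.Ord 0 (S.Z * S.T0) := by simpa using S.Pinf.ord_mul z1 u1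
    have A1m : (S.Pm i).Ord 1 (S.Z * S.T0) := by simpa using (S.Pm i).ord_mul z2 u2
    have A10 : S.P0.Ord 1 (S.Z * S.T0) := by simpa using S.P0.ord_mul z3 u3
    have A2inf : S.Pinf.Ord 1 (S.Tinf * S.T0) := by simpa using S.Pinf.ord_mul t1 u1
    have A2m : (S.Pm i).Ord 0 (S.Tinf * S.T0) := by simpa using (S.Pm i).ord_mul t2 u2
    have A20 : S.P0.Ord 1 (S.Tinf * S.T0) := by simpa using S.P0.ord_mul t3 u3
    have A3inf : S.Pinf.Ord 1 (S.Tinf * S.Z) := by simpa using S.Pinf.ord_mul t1 z1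
    have A3m : (S.Pm i).Ord 1 (S.Tinf * S.Z) := by simpa using (S.Pm i).ord_mul t2 z2
    have A30 : S.P0.Ord 0 (S.Tinf * S.Z) := by simpa using S.P0.ord_mul t3 z3
    refine ⟨?_, ?_, ?_⟩
    · exact Lam_comb S.Pinf hπ0 (cinf a haV) (cinf b hb) (cinf c hc)
        (Lam_one S.Pinf hN1 le_rfl hv1 A1inf t1 p1)
        (Lam_zero S.Pinf hN1 le_rfl hv1 A2inf z1 p1)
        (Lam_zero S.Pinf hN1 le_rfl hv1 A3inf u1 p1)
    · have := Lam_comb (S.Pm i) hπ0 (cm i b hb) (cm i a haV) (cm i c hc)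
        (Lam_one (S.Pm i) hN1 le_rfl hvm A2m z2 p2)
        (Lam_zero (S.Pm i) hN1 le_rfl hvm A1m t2 p2)
        (Lam_zero (S.Pm i) hN1 le_rfl hvm A3m u2 p2)
      have e : lam = S.c2 b * Em + S.c2 a * Einf + S.c2 c * E0 := by rw [hlam]; ring
      rw [e]
      exact this
    · have := Lam_comb S.P0 hπ0 (c0 c hc) (c0 a haV) (c0 b hb)
        (Lam_one S.P0 hN1 le_rfl hv1 A30 u3 p3)
        (Lam_zero S.P0 hN1 le_rfl hv1 A10 t3 p3)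
        (Lam_zero S.P0 hN1 le_rfl hv1 A20 z3 p3)
      have e : lam = S.c2 c * E0 + S.c2 a * Einf + S.c2 b * Em := by rw [hlam]; ring
      rw [e]
      exact this
  refine ⟨lam, ?_, fun i => ?_⟩
  · have hι : 0 < Fintype.card ι := by rw [S.card_ι]; omega
    obtain ⟨i⟩ := Fintype.card_pos_iff.1 hι
    obtain ⟨⟨d, hd⟩, -, -⟩ := main i
    obtain ⟨p1, -, -⟩ := S.ord_π hl i
    have hπ0 : S.c2 S.π ≠ 0 := S.Pinf.ord_ne_zero p1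
    have har' : S.Pinf.Res (S.c2 a) r := by
      change IsRes S.inc S.red (S.Φinf (S.i0 (S.cst a))) r
      rwa [S.Φinf_i0]
    have h1 := S.Pinf.res_add har' (S.Pinf.res_mul (S.Pinf.res_of_pos p1 one_pos) hd)
    have e : S.c2 a + S.c2 S.π * ((lam - S.c2 a) / S.c2 S.π) = lam := by
      field_simp
      ring
    rw [e, zero_mul, add_zero] at h1
    exact S.Pinf.ord_ne_zero (S.Pinf.ord_of_res h1 hr)
  · obtain ⟨⟨d1, h1⟩, ⟨d2, h2⟩, ⟨d3, h3⟩⟩ := main i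
    exact ⟨IsRes.inV h1, IsRes.inV h2, IsRes.inV h3⟩

end Setup

end Fermat.Agent.S36.Val
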