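import Fermat.Agent.S36.Val.Place

/-!
# S36 / Val / Abs : the arithmetic of "#1240 (2)", on abstract places   (task `S36/V-Abs`)

`F1 ⊆ F2` via `al` and via `be`, norms `NmA`, `NmB`.  Places `P∞, Pm, P0` of `F2`, `Q∞, Q0` of `F1`
(all with residue maps to the same field `κ`), `v(π) = (1, l-1, 1)` resp. `(1, 1)`.

PROOF of `exists_res_one` (pure bookkeeping, nothing else is needed).
Let `(n∞, nm, n0)` be the orders of `f`.  Write `k_i = π^{s_i} e_i^m u_i` (`hK`), `H_i = c1 e_i * h_i`.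
(1) `ordA∞, ordA0, ordB∞, ordB0` + uniqueness of orders:
    `n∞ + nm = s1 + m o∞`, `l n0 = s1 + m o0`, `l n∞ = s2 + m p∞`, `n0 + nm = s2 + m p0`.
    Hence `(l+1)(n∞ - n0) = m a`, `(l+1)(nm - (l-1) n0) = m b` with `a = o∞-o0+p∞-p0`,
    `b = (l+1)(o∞-o0) - a`.
(2) `t = (l+1) n0`, `h0 = T∞^(-a) Z^(-b)`, `f1 = π^(-t) f^(l+1) h0^m` has orders `(0,0,0)`.
(3) `NmA f1 = π^{S1} u1^(l+1) G1^m`; the order at `Q∞` is `0`, so `S1 = -m g`; with `G1' = π^(-g) G1`: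
    `NmA f1 = u1^(l+1) G1'^m`, `G1'` has order `0` at `Q∞` and (order of `NmA f1` at `Q0` is `0`) at `Q0`.
    Same for `NmB f1 = u2^(l+1) G2'^m`.
(4) residues `(a∞, am, a0)` of `f1`, `γ1∞, γ10` of `G1'`, `γ2∞, γ20` of `G2'`:
    `a∞ am^(l-1) = γ1∞^m`, `a0^l = (V γ10)^m`, `a∞^l = (V γ2∞)^m`.
(5) Bezout `u m + v l = 1`:  `g∞ = f1^u (be G2')^v` has residues `(β∞, *, *)`, `β∞^m = a∞`;
    `g0 = f1^u (al G1')^v` has residues `(*, *, β0)`, `β0^m = a0`;  `hdeg1` gives `g'` with residues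
    `(β∞, β∞, V V β∞)`; `gm = al G1' / g'` has residues `(*, βm, *)`, `βm^m = am^(l-1)`
    (all `*` are nonzero).
(6) `h = e∞ g∞^(-(l-1)) + em gm^(-1) + e0 g0^(-(l-1))`, and `f1^(l-1) h^m` has residues `(1,1,1)`.
    `c0 = π^(-t(l-1))`, `h_final = h0^(l-1) h`.
-/

set_option autoImplicit false

namespace Fermat.Agent.S36.Val

/-- `y` is integral at the three places, with residues `(a, b, c)`. -/
def Res3 {F κ : Type*} [Field F] [Field κ] (Pinf Pm P0 : APlace F κ) (y : F) (a b c : κ) : Prop :=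
  Pinf.Res y a ∧ Pm.Res y b ∧ P0.Res y c

section helpers

variable {F κ : Type*} [Field F] [Field κ] {Pinf Pm P0 : APlace F κ}

theorem Res3.mul {y y' : F} {a b c a' b' c' : κ} (h : Res3 Pinf Pm P0 y a b c)
    (h' : Res3 Pinf Pm P0 y' a' b' c') : Res3 Pinf Pm P0 (y * y') (a * a') (b * b') (c * c') :=
  ⟨Pinf.res_mul h.1 h'.1, Pm.res_mul h.2.1 h'.2.1, P0.res_mul h.2.2 h'.2.2⟩

theorem Res3.add {y y' : F} {a b c a' b' c' : κ} (h : Res3 Pinf Pm P0 y a b c)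
    (h' : Res3 Pinf Pm P0 y' a' b' c') : Res3 Pinf Pm P0 (y + y') (a + a') (b + b') (c + c') :=
  ⟨Pinf.res_add h.1 h'.1, Pm.res_add h.2.1 h'.2.1, P0.res_add h.2.2 h'.2.2⟩

theorem Res3.pow {y : F} {a b c : κ} (h : Res3 Pinf Pm P0 y a b c) (n : ℕ) :
    Res3 Pinf Pm P0 (y ^ n) (a ^ n) (b ^ n) (c ^ n) :=
  ⟨Pinf.res_pow h.1 n, Pm.res_pow h.2.1 n, P0.res_pow h.2.2 n⟩

theorem Res3.zpow {y : F} {a b c : κ} (h : Res3 Pinf Pm P0 y a b c) (ha : a ≠ 0) (hb : b ≠ 0)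
    (hc : c ≠ 0) (n : ℤ) : Res3 Pinf Pm P0 (y ^ n) (a ^ n) (b ^ n) (c ^ n) :=
  ⟨Pinf.res_zpow h.1 ha n, Pm.res_zpow h.2.1 hb n, P0.res_zpow h.2.2 hc n⟩

theorem Res3.inv {y : F} {a b c : κ} (h : Res3 Pinf Pm P0 y a b c) (ha : a ≠ 0) (hb : b ≠ 0)
    (hc : c ≠ 0) : Res3 Pinf Pm P0 y⁻¹ a⁻¹ b⁻¹ c⁻¹ :=
  ⟨Pinf.res_inv h.1 ha, Pm.res_inv h.2.1 hb, P0.res_inv h.2.2 hc⟩

/-- the order of `y = ϖ ^ s * w * H ^ m`, `w` a unit. -/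
theorem Abs_ord_decomp (Q : APlace F κ) {ϖ w H y : F} {s N : ℤ} {m : ℕ}
    (hϖ : Q.Ord 1 ϖ) (hw : Q.Res w 1) (hH : H ≠ 0) (hy : y = ϖ ^ s * w * H ^ m)
    (hN : Q.Ord N y) : ∃ o : ℤ, Q.Ord o H ∧ N = s + m * o := by
  obtain ⟨o, ho⟩ := Q.ord_exists H hH
  refine ⟨o, ho, ?_⟩
  have h1 := Q.ord_mul (Q.ord_mul (Q.ord_zpow hϖ s) (Q.ord_of_res hw one_ne_zero))
    (Q.ord_pow ho m)
  rw [← hy] at h1
  rw [Q.ord_unique hN h1]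
  ring

/-- absorb the power of the uniformiser into the `m`-th power. -/
theorem Abs_normalise (Qinf Q0 : APlace F κ) {ϖ w G y : F} {S : ℤ} {m : ℕ} (hm : 0 < m)
    (hϖinf : Qinf.Ord 1 ϖ) (hϖ0 : Q0.Ord 1 ϖ) (hwinf : Qinf.Res w 1) (hw0 : Q0.Res w 1)
    (hG : G ≠ 0) (hy : y = ϖ ^ S * w * G ^ m) (hyinf : Qinf.Ord 0 y) (hy0 : Q0.Ord 0 y) :
    ∃ G' : F, y = w * G' ^ m ∧ Qinf.Ord 0 G' ∧ Q0.Ord 0 G' := by
  have hϖne : ϖ ≠ 0 := Qinf.ord_ne_zero hϖinf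
  obtain ⟨g, hg, hS⟩ := Abs_ord_decomp Qinf hϖinf hwinf hG hy hyinf
  have hG' : ϖ ^ (-g) * G ≠ 0 := mul_ne_zero (zpow_ne_zero _ hϖne) hG
  have hy' : y = w * (ϖ ^ (-g) * G) ^ m := by
    have hS' : S = -g * m := by linear_combination -hS
    rw [hy, mul_pow, ← zpow_natCast (ϖ ^ (-g)) m, ← zpow_mul, hS']
    ring
  refine ⟨ϖ ^ (-g) * G, hy', ?_, ?_⟩
  · have := Qinf.ord_mul (Qinf.ord_zpow hϖinf (-g)) hg
    convert this using 1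
    ring
  · have hy'' : y = ϖ ^ (0 : ℤ) * w * (ϖ ^ (-g) * G) ^ m := by
      rw [zpow_zero, one_mul]
      exact hy'
    obtain ⟨o, ho, h0⟩ := Abs_ord_decomp Q0 hϖ0 hw0 hG' hy'' hy0
    have hm' : (m : ℤ) ≠ 0 := by exact_mod_cast hm.ne'
    have h1 : (m : ℤ) * o = 0 := by linear_combination -h0
    rwa [(mul_eq_zero.1 h1).resolve_left hm'] at ho

/-- Bezout in the residue field. -/
theorem Abs_bezout {x y : κ} (hx : x ≠ 0) {l m : ℕ} {u v : ℤ} (huv : u * m + v * l = 1)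
    (hxy : y ^ m = x ^ l) : (x ^ u * y ^ v) ^ m = x := by
  have h1 : (y ^ v) ^ m = (x ^ l) ^ v := by
    rw [← hxy, ← zpow_natCast (y ^ v) m, ← zpow_mul, mul_comm, zpow_mul, zpow_natCast]
  rw [mul_pow, h1, ← zpow_natCast (x ^ u) m, ← zpow_mul, ← zpow_natCast x l, ← zpow_mul,
    ← zpow_add₀ hx]
  have : u * (m : ℤ) + (l : ℤ) * v = 1 := by linear_combination huv
  rw [this, zpow_one]

end helpers

/-- the norm of `f1 = ϖ ^ (-t) f ^ (l+1) h0 ^ m`. -/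
theorem Abs_normStep {F1 F2 κ : Type*} [Field F1] [Field F2] [Field κ] (Qinf Q0 : APlace F1 κ)
    (Nm : F2 →*₀ F1) {l m : ℕ} (hm : 0 < m) {ϖ2 f h0 : F2} {ϖ1 w H : F1} {s t : ℤ}
    (hNϖ : Nm ϖ2 = ϖ1 ^ l) (hϖinf : Qinf.Ord 1 ϖ1) (hϖ0 : Q0.Ord 1 ϖ1)
    (hwinf : Qinf.Res w 1) (hw0 : Q0.Res w 1)
    (hNf : Nm f = ϖ1 ^ s * w * H ^ m) (hf : f ≠ 0) (hh0 : h0 ≠ 0)
    (hinf : Qinf.Ord 0 (Nm (ϖ2 ^ (-t) * f ^ (l + 1) * h0 ^ m)))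
    (h0' : Q0.Ord 0 (Nm (ϖ2 ^ (-t) * f ^ (l + 1) * h0 ^ m))) :
    ∃ G' : F1, Nm (ϖ2 ^ (-t) * f ^ (l + 1) * h0 ^ m) = w ^ (l + 1) * G' ^ m ∧
      Qinf.Ord 0 G' ∧ Q0.Ord 0 G' := by
  have hϖne : ϖ1 ≠ 0 := Qinf.ord_ne_zero hϖinf
  have hH : H ≠ 0 := by
    rintro rfl
    have h1 : Nm f ≠ 0 := (map_ne_zero Nm).2 hf
    rw [hNf, zero_pow hm.ne', mul_zero] at h1
    exact h1 rfl
  have hG : H ^ (l + 1) * Nm h0 ≠ 0 := mul_ne_zero (pow_ne_zero _ hH) ((map_ne_zero Nm).2 hh0)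
  have hy : Nm (ϖ2 ^ (-t) * f ^ (l + 1) * h0 ^ m) =
      ϖ1 ^ (-(l * t) + s * (l + 1) : ℤ) * w ^ (l + 1) * (H ^ (l + 1) * Nm h0) ^ m := by
    have e1 : (ϖ1 ^ l) ^ (-t) = ϖ1 ^ (-(l * t) : ℤ) := by
      rw [← zpow_natCast ϖ1 l, ← zpow_mul]
      congr 1
      ring
    have e2 : (ϖ1 ^ s) ^ (l + 1) = ϖ1 ^ (s * (l + 1) : ℤ) := by
      rw [← zpow_natCast (ϖ1 ^ s) (l + 1), ← zpow_mul]
      push_cast
      rfl
    rw [map_mul, map_mul, map_zpow₀, map_pow, map_pow, hNϖ, hNf, e1, zpow_add₀ hϖne, ← e2]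
    ring
  have hw1 : ∀ Q : APlace F1 κ, Q.Res w 1 → Q.Res (w ^ (l + 1)) 1 := by
    intro Q hQ
    have := Q.res_pow hQ (l + 1)
    rwa [one_pow] at this
  exact Abs_normalise Qinf Q0 hm hϖinf hϖ0 (hw1 _ hwinf) (hw1 _ hw0) hG hy hinf h0'

theorem Abs_final_identity {F : Type*} [Field F] (X f h0 h : F) (r k m : ℕ) :
    X ^ k * f ^ (r * k) * (h0 ^ k * h) ^ m = (X * f ^ r * h0 ^ m) ^ k * h ^ m := by
  rw [mul_pow, mul_pow, mul_pow, pow_mul, ← pow_mul h0 m, ← pow_mul h0 k, mul_comm m k]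
  ring

theorem exists_res_one
    {K F1 F2 κ : Type*} [Field K] [Field F1] [Field F2] [Field κ]
    (l m : ℕ) (hl : 2 ≤ l) (hm : 0 < m) (hlm : Nat.Coprime l m)
    (Pinf Pm P0 : APlace F2 κ) (Qinf Q0 : APlace F1 κ)
    (c1 : K →+* F1) (al be : F1 →+* F2) (NmA NmB : F2 →*₀ F1) (V : κ →+* κ) (π : K)
    -- constants
    (hK : ∀ c : K, c ≠ 0 → ∃ (n : ℤ) (e u : K), c = π ^ n * e ^ m * u ∧
      Qinf.Res (c1 u) 1 ∧ Q0.Res (c1 u) 1)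
    (hbe : ∀ c, be (c1 c) = al (c1 c))
    (hπQinf : Qinf.Ord 1 (c1 π)) (hπQ0 : Q0.Ord 1 (c1 π))
    (hπPinf : Pinf.Ord 1 (al (c1 π))) (hπPm : Pm.Ord ((l : ℤ) - 1) (al (c1 π)))
    (hπP0 : P0.Ord 1 (al (c1 π)))
    -- norms
    (hNA : ∀ y, NmA (al y) = y ^ l) (hNB : ∀ y, NmB (be y) = y ^ l)
    (ordAinf : ∀ y a b, Pinf.Ord a y → Pm.Ord b y → Qinf.Ord (a + b) (NmA y))
    (ordA0 : ∀ y a, P0.Ord a y → Q0.Ord (l * a) (NmA y))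
    (ordBinf : ∀ y a, Pinf.Ord a y → Qinf.Ord (l * a) (NmB y))
    (ordB0 : ∀ y a b, P0.Ord a y → Pm.Ord b y → Q0.Ord (a + b) (NmB y))
    (resAinf : ∀ y a b c, Res3 Pinf Pm P0 y a b c → Qinf.Res (NmA y) (a * b ^ (l - 1)))
    (resA0 : ∀ y a b c d, Res3 Pinf Pm P0 y a b c → Q0.Res (NmA y) d → V d = c ^ l)
    (resBinf : ∀ y a b c d, Res3 Pinf Pm P0 y a b c → Qinf.Res (NmB y) d → V d = a ^ l)
    -- the places of `F2` over those of `F1`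
    (hal : ∀ h c d, Qinf.Res h c → Q0.Res h d → Res3 Pinf Pm P0 (al h) c c (V d))
    (hbe3 : ∀ h c d, Qinf.Res h c → Q0.Res h d → Res3 Pinf Pm P0 (be h) (V c) d d)
    -- residue degree one
    (hdeg1 : ∀ y a b c, Res3 Pinf Pm P0 y a b c → ∃ g, Res3 Pinf Pm P0 g a a (V (V a)))
    -- uniformisers and idempotents
    (Tinf Z : F2)
    (hTinf : Pinf.Ord 1 Tinf ∧ Pm.Ord 0 Tinf ∧ P0.Ord 0 Tinf)
    (hZ : Pinf.Ord 0 Z ∧ Pm.Ord 1 Z ∧ P0.Ord 0 Z)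
    (einf em e0 : F2) (heinf : Res3 Pinf Pm P0 einf 1 0 0) (hem : Res3 Pinf Pm P0 em 0 1 0)
    (he0 : Res3 Pinf Pm P0 e0 0 0 1)
    -- the element
    (f : F2) (hf : f ≠ 0) (k1 k2 : K) (hk1 : k1 ≠ 0) (hk2 : k2 ≠ 0) (h1 h2 : F1)
    (hfA : NmA f = c1 k1 * h1 ^ m) (hfB : NmB f = c1 k2 * h2 ^ m) :
    ∃ (c0 : K) (h : F2), c0 ≠ 0 ∧ h ≠ 0 ∧
      Res3 Pinf Pm P0 (al (c1 c0) * f ^ ((l + 1) * (l - 1)) * h ^ m) 1 1 1 := by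
  -- notation
  set ϖ1 : F1 := c1 π with hϖ1
  set ϖ2 : F2 := al ϖ1 with hϖ2
  have hϖ1ne : ϖ1 ≠ 0 := Qinf.ord_ne_zero hπQinf
  have hπne : π ≠ 0 := by
    rintro rfl
    exact hϖ1ne (map_zero c1)
  -- the orders of `f`
  obtain ⟨ninf, hninf⟩ := Pinf.ord_exists f hf
  obtain ⟨nm, hnm⟩ := Pm.ord_exists f hf
  obtain ⟨n0, hn0⟩ := P0.ord_exists f hf
  -- the constants
  obtain ⟨s1, e1, u1, hk1eq, hu1inf, hu10⟩ := hK k1 hk1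
  obtain ⟨s2, e2, u2, hk2eq, hu2inf, hu20⟩ := hK k2 hk2
  have hfA' : NmA f = ϖ1 ^ s1 * c1 u1 * (c1 e1 * h1) ^ m := by
    rw [hfA, hk1eq, map_mul, map_mul, map_zpow₀, map_pow]
    ring
  have hfB' : NmB f = ϖ1 ^ s2 * c1 u2 * (c1 e2 * h2) ^ m := by
    rw [hfB, hk2eq, map_mul, map_mul, map_zpow₀, map_pow]
    ring
  have hH1 : c1 e1 * h1 ≠ 0 := by
    intro h
    have h1' : NmA f ≠ 0 := (map_ne_zero NmA).2 hf
    rw [hfA', h, zero_pow hm.ne', mul_zero] at h1'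
    exact h1' rfl
  have hH2 : c1 e2 * h2 ≠ 0 := by
    intro h
    have h1' : NmB f ≠ 0 := (map_ne_zero NmB).2 hf
    rw [hfB', h, zero_pow hm.ne', mul_zero] at h1'
    exact h1' rfl
  -- (1)
  obtain ⟨oinf, -, E1⟩ := Abs_ord_decomp Qinf hπQinf hu1inf hH1 hfA' (ordAinf f _ _ hninf hnm)
  obtain ⟨o0, -, E2⟩ := Abs_ord_decomp Q0 hπQ0 hu10 hH1 hfA' (ordA0 f _ hn0)
  obtain ⟨pinf, -, E3⟩ := Abs_ord_decomp Qinf hπQinf hu2inf hH2 hfB' (ordBinf f _ hninf)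
  obtain ⟨p0, -, E4⟩ := Abs_ord_decomp Q0 hπQ0 hu20 hH2 hfB' (ordB0 f _ _ hn0 hnm)
  set a : ℤ := oinf - o0 + pinf - p0 with ha
  set b : ℤ := ((l : ℤ) + 1) * (oinf - o0) - a with hb
  have Ea : ((l : ℤ) + 1) * (ninf - n0) = m * a := by
    rw [ha]
    linear_combination E1 - E2 + E3 - E4
  have Eb : ((l : ℤ) + 1) * (nm - ((l : ℤ) - 1) * n0) = m * b := by
    rw [hb, ha]
    linear_combination ((l : ℤ) + 1) * (E1 - E2) - (E1 - E2 + E3 - E4)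
  -- (2)
  set t : ℤ := ((l : ℤ) + 1) * n0 with ht
  set h0 : F2 := Tinf ^ (-a) * Z ^ (-b) with hh0
  have hh0ne : h0 ≠ 0 :=
    mul_ne_zero (zpow_ne_zero _ (Pinf.ord_ne_zero hTinf.1)) (zpow_ne_zero _ (Pinf.ord_ne_zero hZ.1))
  set f1 : F2 := ϖ2 ^ (-t) * f ^ (l + 1) * h0 ^ m with hf1
  have hord : ∀ (P : APlace F2 κ) (eπ n eT eZ : ℤ), P.Ord eπ ϖ2 → P.Ord n f → P.Ord eT Tinf →
      P.Ord eZ Z → P.Ord ((-t) * eπ + ((l + 1 : ℕ) : ℤ) * n + (m : ℤ) * ((-a) * eT + (-b) * eZ)) f1 :=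
    fun P eπ n eT eZ h1 h2 h3 h4 =>
      P.ord_mul (P.ord_mul (P.ord_zpow h1 (-t)) (P.ord_pow h2 (l + 1)))
        (P.ord_pow (P.ord_mul (P.ord_zpow h3 (-a)) (P.ord_zpow h4 (-b))) m)
  have hf1inf : Pinf.Ord 0 f1 := by
    have := hord Pinf _ _ _ _ hπPinf hninf hTinf.1 hZ.1
    convert this using 1
    push_cast
    rw [ht]
    linear_combination -Ea
  have hf1m : Pm.Ord 0 f1 := by
    have := hord Pm _ _ _ _ hπPm hnm hTinf.2.1 hZ.2.1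
    convert this using 1
    push_cast
    rw [ht]
    linear_combination -Eb
  have hf10 : P0.Ord 0 f1 := by
    have := hord P0 _ _ _ _ hπP0 hn0 hTinf.2.2 hZ.2.2
    convert this using 1
    push_cast
    rw [ht]
    ring
  -- (3)
  have hNAϖ : NmA ϖ2 = ϖ1 ^ l := hNA ϖ1
  have hNBϖ : NmB ϖ2 = ϖ1 ^ l := by
    rw [hϖ2, hϖ1, ← hbe π]
    exact hNB _
  have oA1 : Qinf.Ord 0 (NmA f1) := by simpa using ordAinf f1 0 0 hf1inf hf1m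
  have oA2 : Q0.Ord 0 (NmA f1) := by simpa using ordA0 f1 0 hf10
  have oB1 : Qinf.Ord 0 (NmB f1) := by simpa using ordBinf f1 0 hf1inf
  have oB2 : Q0.Ord 0 (NmB f1) := by simpa using ordB0 f1 0 0 hf10 hf1m
  obtain ⟨G1, hG1, hG1inf, hG10⟩ : ∃ G' : F1, NmA f1 = c1 u1 ^ (l + 1) * G' ^ m ∧
      Qinf.Ord 0 G' ∧ Q0.Ord 0 G' :=
    Abs_normStep Qinf Q0 NmA (t := t) hm hNAϖ hπQinf hπQ0 hu1inf hu10 hfA' hf hh0ne oA1 oA2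
  obtain ⟨G2, hG2, hG2inf, hG20⟩ : ∃ G' : F1, NmB f1 = c1 u2 ^ (l + 1) * G' ^ m ∧
      Qinf.Ord 0 G' ∧ Q0.Ord 0 G' :=
    Abs_normStep Qinf Q0 NmB (t := t) hm hNBϖ hπQinf hπQ0 hu2inf hu20 hfB' hf hh0ne oB1 oB2
  -- (4)
  obtain ⟨ainf, hainf0, hainf⟩ := Pinf.ord_zero_iff.1 hf1inf
  obtain ⟨am, ham0, ham⟩ := Pm.ord_zero_iff.1 hf1m
  obtain ⟨a0, ha00, ha0⟩ := P0.ord_zero_iff.1 hf10
  have R3f1 : Res3 Pinf Pm P0 f1 ainf am a0 := ⟨hainf, ham, ha0⟩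
  obtain ⟨γ1inf, hγ1inf0, hγ1inf⟩ := Qinf.ord_zero_iff.1 hG1inf
  obtain ⟨γ10, hγ100, hγ10⟩ := Q0.ord_zero_iff.1 hG10
  obtain ⟨γ2inf, hγ2inf0, hγ2inf⟩ := Qinf.ord_zero_iff.1 hG2inf
  obtain ⟨γ20, hγ200, hγ20⟩ := Q0.ord_zero_iff.1 hG20
  have hres : ∀ (Q : APlace F1 κ) (w G : F1) (γ : κ), Q.Res w 1 → Q.Res G γ →
      Q.Res (w ^ (l + 1) * G ^ m) (γ ^ m) := by
    intro Q w G γ hw hG
    have := Q.res_mul (Q.res_pow hw (l + 1)) (Q.res_pow hG m)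
    rwa [one_pow, one_mul] at this
  have EqAinf : ainf * am ^ (l - 1) = γ1inf ^ m := by
    have h1 := resAinf f1 _ _ _ R3f1
    rw [hG1] at h1
    exact Qinf.res_unique h1 (hres Qinf _ _ _ hu1inf hγ1inf)
  have EqA0 : (V γ10) ^ m = a0 ^ l := by
    have h1 := hres Q0 _ _ _ hu10 hγ10
    rw [← hG1] at h1
    rw [← map_pow]
    exact resA0 f1 _ _ _ _ R3f1 h1
  have EqBinf : (V γ2inf) ^ m = ainf ^ l := by
    have h1 := hres Qinf _ _ _ hu2inf hγ2inf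
    rw [← hG2] at h1
    rw [← map_pow]
    exact resBinf f1 _ _ _ _ R3f1 h1
  -- (5)
  obtain ⟨u, v, huv⟩ : ∃ u v : ℤ, u * m + v * l = 1 := by
    refine ⟨Nat.gcdB l m, Nat.gcdA l m, ?_⟩
    have := Nat.gcd_eq_gcd_ab l m
    rw [hlm] at this
    push_cast at this
    linear_combination -this
  have hV : ∀ x : κ, x ≠ 0 → V x ≠ 0 := fun x hx => (map_ne_zero V).2 hx
  have R3be : Res3 Pinf Pm P0 (be G2) (V γ2inf) γ20 γ20 := hbe3 G2 _ _ hγ2inf hγ20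
  have R3al : Res3 Pinf Pm P0 (al G1) γ1inf γ1inf (V γ10) := hal G1 _ _ hγ1inf hγ10
  have R3ginf := (R3f1.zpow hainf0 ham0 ha00 u).mul
    (R3be.zpow (hV _ hγ2inf0) hγ200 hγ200 v)
  have R3g0 := (R3f1.zpow hainf0 ham0 ha00 u).mul
    (R3al.zpow hγ1inf0 hγ1inf0 (hV _ hγ100) v)
  set βinf : κ := ainf ^ u * V γ2inf ^ v with hβinf
  set β0 : κ := a0 ^ u * V γ10 ^ v with hβ0
  have hβinfm : βinf ^ m = ainf := Abs_bezout hainf0 huv EqBinf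
  have hβ0m : β0 ^ m = a0 := Abs_bezout ha00 huv EqA0
  have hβinf0 : βinf ≠ 0 := mul_ne_zero (zpow_ne_zero _ hainf0) (zpow_ne_zero _ (hV _ hγ2inf0))
  have hβ00 : β0 ≠ 0 := mul_ne_zero (zpow_ne_zero _ ha00) (zpow_ne_zero _ (hV _ hγ100))
  obtain ⟨g', hg'⟩ := hdeg1 _ _ _ _ R3ginf
  have R3gm := R3al.mul (hg'.inv hβinf0 hβinf0 (hV _ (hV _ hβinf0)))
  -- (6)
  have R3a := heinf.mul ((R3ginf.pow (l - 1)).inv (pow_ne_zero _ hβinf0)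
    (pow_ne_zero _ (mul_ne_zero (zpow_ne_zero _ ham0) (zpow_ne_zero _ hγ200)))
    (pow_ne_zero _ (mul_ne_zero (zpow_ne_zero _ ha00) (zpow_ne_zero _ hγ200))))
  have R3b := hem.mul (R3gm.inv (mul_ne_zero hγ1inf0 (inv_ne_zero hβinf0))
    (mul_ne_zero hγ1inf0 (inv_ne_zero hβinf0))
    (mul_ne_zero (hV _ hγ100) (inv_ne_zero (hV _ (hV _ hβinf0)))))
  have R3c := he0.mul ((R3g0.pow (l - 1)).inv
    (pow_ne_zero _ (mul_ne_zero (zpow_ne_zero _ hainf0) (zpow_ne_zero _ hγ1inf0)))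
    (pow_ne_zero _ (mul_ne_zero (zpow_ne_zero _ ham0) (zpow_ne_zero _ hγ1inf0)))
    (pow_ne_zero _ hβ00))
  have R3h := (R3a.add R3b).add R3c
  simp only [one_mul, zero_mul, add_zero, zero_add] at R3h
  set h : F2 := einf * ((f1 ^ u * be G2 ^ v) ^ (l - 1))⁻¹ + em * (al G1 * g'⁻¹)⁻¹ +
    e0 * ((f1 ^ u * al G1 ^ v) ^ (l - 1))⁻¹ with hh
  have hhne : h ≠ 0 := by
    intro h0'
    rw [h0'] at R3h
    exact inv_ne_zero (pow_ne_zero (l - 1) hβinf0) (Pinf.res_unique R3h.1 Pinf.res_zero)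
  have R3fin := (R3f1.pow (l - 1)).mul (R3h.pow m)
  have F1' : ainf ^ (l - 1) * ((βinf ^ (l - 1))⁻¹) ^ m = 1 := by
    rw [inv_pow, ← pow_mul, mul_comm (l - 1) m, pow_mul, hβinfm,
      mul_inv_cancel₀ (pow_ne_zero _ hainf0)]
  have F2' : am ^ (l - 1) * ((γ1inf * βinf⁻¹)⁻¹) ^ m = 1 := by
    rw [inv_pow, mul_pow, inv_pow, hβinfm, ← EqAinf]
    field_simp
  have F3' : a0 ^ (l - 1) * ((β0 ^ (l - 1))⁻¹) ^ m = 1 := by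
    rw [inv_pow, ← pow_mul, mul_comm (l - 1) m, pow_mul, hβ0m,
      mul_inv_cancel₀ (pow_ne_zero _ ha00)]
  rw [F1', F2', F3'] at R3fin
  refine ⟨(π ^ (-t)) ^ (l - 1), h0 ^ (l - 1) * h, pow_ne_zero _ (zpow_ne_zero _ hπne),
    mul_ne_zero (pow_ne_zero _ hh0ne) hhne, ?_⟩
  have hfin : al (c1 ((π ^ (-t)) ^ (l - 1))) * f ^ ((l + 1) * (l - 1)) * (h0 ^ (l - 1) * h) ^ m
      = f1 ^ (l - 1) * h ^ m := by
    have e0 : al (c1 π) = ϖ2 := rfl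
    rw [map_pow, map_pow, map_zpow₀, map_zpow₀, hf1, e0]
    exact Abs_final_identity _ _ _ _ _ _ _
  rw [hfin]
  exact R3fin

end Fermat.Agent.S36.Val
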