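import Fermat.Agent.S36.Val.Setup
import Fermat.Agent.S36.Val.Abs

/-!
# S36 / Val / Elems : explicit uniformisers and idempotents   (task `S36/V-Elems`)

`Z = j2 - j0`, `Tinf = π + (j2 - j0^(l²))²`, `T0 = π + (j2^(l²) - j0)²`.
Expansions (use `Φinf_i0, Φ0_i0, τ_i0, Φ'_j0, Φinf_j2, Φ0_j2, τ_j2, hV.comm_inc, hbase.comm_inc`, so that
every expansion is `inc (..)` resp. `inc1 (..)`, then `isRes_inc` and `hV.comm_red, hbase.comm_red, hJJ`):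
* `Z`    : `inc (VO (VO J) - J)` [residue `Jb^(l²) - Jb ≠ 0`, `S.hne`], `inc1 (lam * D i)` [order 1],
           `inc (J - VO (VO J))`.
* `j2 - j0^(l²)` : residue `0` at `∞`; `Jb - Jb^(l²) ≠ 0` at `mid`; `Jb - (Jb^(l²))^(l²) ≠ 0` at `0`.
  So `Tinf = ϖ (1 + ϖ a²)` at `∞` (`IsRes.exists_eq_unif_mul`), a unit at `mid` (`π` has residue `0` there
  since `l - 1 ≥ 1`) and at `0`.
* `j2^(l²) - j0` : residues `(Jb^(l²))^(l²) - Jb`, `Jb^(l²) - Jb`, `0`.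
WARNING: `j2 - j0^(l²)` itself is NOT a uniformiser at `∞` in general (`l = 2`).
`res3_idem`: at a place where `A` is a unit and `B` has positive order, `A/(A+B)` has residue `1`; where
`A` has positive order and `B` is a unit it has residue `0`.  `exists_idem`: `(A, B) = (Z T0, Tinf)`,
`(Tinf T0, Z)`, `(Tinf Z, T0)`.
-/

set_option autoImplicit false

open Polynomial

namespace Fermat.Agent.S36.Val

open Fermat.Agent.Crux.G.QLink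

/-- `A` a unit, `B` of positive order: `A / (A + B)` has residue `1`. -/
theorem Elems_res_one {F κ : Type*} [Field F] [Field κ] (P : APlace F κ) {A B : F} {b : ℤ}
    (hb : 0 < b) (hA : P.Ord 0 A) (hB : P.Ord b B) : P.Res (A / (A + B)) 1 := by
  obtain ⟨c, hc, hAc⟩ := P.ord_zero_iff.1 hA
  have h1 := P.res_add hAc (P.res_of_pos hB hb)
  rw [add_zero] at h1
  have h2 := P.res_div hAc h1 hc
  rwa [div_self hc] at h2

/-- `A` of positive order, `B` a unit: `A / (A + B)` has residue `0`. -/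
theorem Elems_res_zero {F κ : Type*} [Field F] [Field κ] (P : APlace F κ) {A B : F} {a : ℤ}
    (ha : 0 < a) (hA : P.Ord a A) (hB : P.Ord 0 B) : P.Res (A / (A + B)) 0 := by
  obtain ⟨d, hd, hBd⟩ := P.ord_zero_iff.1 hB
  have h1 := P.res_add (P.res_of_pos hA ha) hBd
  rw [zero_add] at h1
  have h2 := P.res_div (P.res_of_pos hA ha) h1 hd
  rwa [zero_div] at h2

theorem res3_idem {F κ : Type*} [Field F] [Field κ] (P1 P2 P3 : APlace F κ) (A B : F)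
    (a2 a3 b1 : ℤ) (ha2 : 0 < a2) (ha3 : 0 < a3) (hb1 : 0 < b1)
    (hA : P1.Ord 0 A ∧ P2.Ord a2 A ∧ P3.Ord a3 A) (hB : P1.Ord b1 B ∧ P2.Ord 0 B ∧ P3.Ord 0 B) :
    Res3 P1 P2 P3 (A / (A + B)) 1 0 0 :=
  ⟨Elems_res_one P1 hb1 hA.1 hB.1, Elems_res_zero P2 ha2 hA.2.1 hB.2.1,
    Elems_res_zero P3 ha3 hA.2.2 hB.2.2⟩

/-- `ϖ + X²` is a uniformiser when `X` has residue `0`. -/
theorem Elems_isOrd_unif_add_sq {Ω O κ : Type*} [Field Ω] [CommRing O] [Field κ] {inc : O →+* Ω}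
    {red : O →+* κ} {ϖ : O} (P : IsPlace inc red ϖ) (X : O) (hX : red X = 0) :
    IsOrd inc red ϖ 1 (inc ϖ + inc X ^ 2) := by
  have h0 : IsRes inc red (inc X) 0 := by
    have := isRes_inc (inc := inc) (red := red) X
    rwa [hX] at this
  obtain ⟨a', ha', hXa⟩ := h0.exists_eq_unif_mul P
  obtain ⟨c, hc⟩ := inV_iff.1 ha'
  have hϖ0 : IsRes inc red (inc ϖ) 0 := by
    have := isRes_inc (inc := inc) (red := red) ϖ
    rwa [P.red_unif] at this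
  have h1 : IsRes inc red (1 + inc ϖ * a' ^ 2) 1 := by
    have := isRes_one.add (hϖ0.mul (hc.pow 2))
    rwa [zero_mul, add_zero] at this
  have h2 := (isOrd_unif P).mul P (h1.isOrd (ϖ := ϖ) one_ne_zero)
  have e : inc ϖ + inc X ^ 2 = inc ϖ * (1 + inc ϖ * a' ^ 2) := by
    rw [hXa]; ring
  rw [e]
  simpa using h2

namespace Setup

variable {l : ℕ} {K F0 F1 F2 Ω O κ Ω1 O1 ι μ : Type*} [Field K] [Field F0] [Field F1]
    [Field F2] [Field Ω] [CommRing O] [Field κ] [Field Ω1] [CommRing O1] [Fintype ι]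
    [Fintype μ] (S : Setup l K F0 F1 F2 Ω O κ Ω1 O1 ι μ)

/-- a uniformiser at `v_mid`, unit at `v_∞`, `v_0`. -/
def Z : F2 := S.j2 - S.i0 S.j0
/-- a uniformiser at `v_∞`, unit at `v_mid`, `v_0`. -/
def Tinf : F2 := S.c2 S.π + (S.j2 - S.i0 S.j0 ^ (l ^ 2)) ^ 2
/-- a uniformiser at `v_0`, unit at `v_∞`, `v_mid`. -/
def T0 : F2 := S.c2 S.π + (S.j2 ^ (l ^ 2) - S.i0 S.j0) ^ 2

theorem ord_π (hl : 2 ≤ l) (i : ι) : S.Pinf.Ord 1 (S.c2 S.π) ∧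
    (S.Pm i).Ord ((l : ℤ) - 1) (S.c2 S.π) ∧ S.P0.Ord 1 (S.c2 S.π) := by
  refine ⟨?_, ?_, ?_⟩
  · change IsOrd S.inc S.red S.ϖ 1 (S.Φinf (S.i0 (S.cst S.π)))
    rw [S.Φinf_i0, S.Φ'_π]
    exact isOrd_unif S.P
  · change IsOrd S.inc1 S.red1 S.lam ((l : ℤ) - 1) (S.τ i (S.i0 (S.cst S.π)))
    rw [S.τ_i0, S.Φ'_π]
    have := S.hbase.isOrd S.P S.P1 (l - 1) S.u S.hu S.hϖ (isOrd_unif S.P)
    convert this using 1
    rw [mul_one]
    push_cast [Nat.cast_sub (by omega : 1 ≤ l)]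
    ring
  · change IsOrd S.inc S.red S.ϖ 1 (S.Φ0 (S.i0 (S.cst S.π)))
    rw [S.Φ0_i0, S.Φ'_π, S.hV.comm_inc, S.hV.comm_inc, S.hVϖ, S.hVϖ]
    exact isOrd_unif S.P

theorem ord_Z (hl : 2 ≤ l) (i : ι) :
    S.Pinf.Ord 0 S.Z ∧ (S.Pm i).Ord 1 S.Z ∧ S.P0.Ord 0 S.Z := by
  have hl2 : 1 < l ^ 2 := by nlinarith
  refine ⟨?_, ?_, ?_⟩
  · change IsOrd S.inc S.red S.ϖ 0 (S.Φinf (S.j2 - S.i0 S.j0))
    rw [map_sub, S.Φinf_i0, S.Φinf_j2, S.Φ'_j0, ← map_sub]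
    refine (isRes_inc _).isOrd ?_
    rw [map_sub, S.hV.comm_red, S.hV.comm_red, S.hJJ]
    exact sub_ne_zero.2 (S.hne _ hl2)
  · change IsOrd S.inc1 S.red1 S.lam 1 (S.τ i (S.j2 - S.i0 S.j0))
    rw [map_sub, S.τ_i0, S.τ_j2, S.Φ'_j0, S.hbase.comm_inc, ← map_sub, add_sub_cancel_left, map_mul]
    have := (isOrd_unif S.P1).mul S.P1 ((isRes_inc (S.D i)).isOrd (ϖ := S.lam) (S.hD i))
    simpa using this
  · change IsOrd S.inc S.red S.ϖ 0 (S.Φ0 (S.j2 - S.i0 S.j0))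
    rw [map_sub, S.Φ0_i0, S.Φ0_j2, S.Φ'_j0, S.hV.comm_inc, S.hV.comm_inc, ← map_sub]
    refine (isRes_inc _).isOrd ?_
    rw [map_sub, S.hV.comm_red, S.hV.comm_red, S.hJJ]
    exact sub_ne_zero.2 (S.hne _ hl2).symm

theorem ord_Tinf (hl : 2 ≤ l) (i : ι) :
    S.Pinf.Ord 1 S.Tinf ∧ (S.Pm i).Ord 0 S.Tinf ∧ S.P0.Ord 0 S.Tinf := by
  have hl2 : 1 < l ^ 2 := by nlinarith
  have hl4 : 1 < l ^ 2 * l ^ 2 := by nlinarith
  refine ⟨?_, ?_, ?_⟩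
  · change IsOrd S.inc S.red S.ϖ 1
      (S.Φinf (S.i0 (S.cst S.π) + (S.j2 - S.i0 S.j0 ^ (l ^ 2)) ^ 2))
    rw [map_add, map_pow, map_sub, map_pow, S.Φinf_i0, S.Φinf_i0, S.Φinf_j2, S.Φ'_j0, S.Φ'_π,
      ← map_pow, ← map_sub]
    apply Elems_isOrd_unif_add_sq S.P
    rw [map_sub, S.hV.comm_red, S.hV.comm_red, S.hJJ, map_pow, sub_self]
  · change IsOrd S.inc1 S.red1 S.lam 0
      (S.τ i (S.i0 (S.cst S.π) + (S.j2 - S.i0 S.j0 ^ (l ^ 2)) ^ 2))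
    rw [map_add, map_pow, map_sub, map_pow, S.τ_i0, S.τ_i0, S.τ_j2, S.Φ'_j0, S.Φ'_π,
      S.hbase.comm_inc, S.hbase.comm_inc, ← map_pow, ← map_sub, ← map_pow, ← map_add]
    refine (isRes_inc _).isOrd ?_
    rw [map_add, map_pow, map_sub, map_add, map_mul, map_pow, S.hbase.comm_red, S.hbase.comm_red,
      S.P1.red_unif, S.P.red_unif]
    simp only [RingHom.id_apply, zero_mul, add_zero, zero_add]
    exact pow_ne_zero 2 (sub_ne_zero.2 (S.hne _ hl2).symm)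
  · change IsOrd S.inc S.red S.ϖ 0
      (S.Φ0 (S.i0 (S.cst S.π) + (S.j2 - S.i0 S.j0 ^ (l ^ 2)) ^ 2))
    rw [map_add, map_pow, map_sub, map_pow, S.Φ0_i0, S.Φ0_i0, S.Φ0_j2, S.Φ'_j0, S.Φ'_π,
      S.hV.comm_inc, S.hV.comm_inc, S.hV.comm_inc, S.hV.comm_inc, S.hVϖ, S.hVϖ,
      ← map_pow, ← map_sub, ← map_pow, ← map_add]
    refine (isRes_inc _).isOrd ?_
    rw [map_add, map_pow, map_sub, map_pow, S.hV.comm_red, S.hV.comm_red, S.hJJ, S.P.red_unif,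
      zero_add, ← pow_mul]
    exact pow_ne_zero 2 (sub_ne_zero.2 (S.hne _ hl4).symm)

theorem ord_T0 (hl : 2 ≤ l) (i : ι) :
    S.Pinf.Ord 0 S.T0 ∧ (S.Pm i).Ord 0 S.T0 ∧ S.P0.Ord 1 S.T0 := by
  have hl2 : 1 < l ^ 2 := by nlinarith
  have hl4 : 1 < l ^ 2 * l ^ 2 := by nlinarith
  refine ⟨?_, ?_, ?_⟩
  · change IsOrd S.inc S.red S.ϖ 0
      (S.Φinf (S.i0 (S.cst S.π) + (S.j2 ^ (l ^ 2) - S.i0 S.j0) ^ 2))
    rw [map_add, map_pow, map_sub, map_pow, S.Φinf_i0, S.Φinf_i0, S.Φinf_j2, S.Φ'_j0, S.Φ'_π,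
      ← map_pow, ← map_sub, ← map_pow, ← map_add]
    refine (isRes_inc _).isOrd ?_
    rw [map_add, map_pow, map_sub, map_pow, S.hV.comm_red, S.hV.comm_red, S.hJJ, S.P.red_unif,
      zero_add, ← pow_mul]
    exact pow_ne_zero 2 (sub_ne_zero.2 (S.hne _ hl4))
  · change IsOrd S.inc1 S.red1 S.lam 0
      (S.τ i (S.i0 (S.cst S.π) + (S.j2 ^ (l ^ 2) - S.i0 S.j0) ^ 2))
    rw [map_add, map_pow, map_sub, map_pow, S.τ_i0, S.τ_i0, S.τ_j2, S.Φ'_j0, S.Φ'_π,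
      S.hbase.comm_inc, S.hbase.comm_inc, ← map_pow, ← map_sub, ← map_pow, ← map_add]
    refine (isRes_inc _).isOrd ?_
    rw [map_add, map_pow, map_sub, map_pow, map_add, map_mul, S.hbase.comm_red, S.hbase.comm_red,
      S.P1.red_unif, S.P.red_unif]
    simp only [RingHom.id_apply, zero_mul, add_zero, zero_add]
    exact pow_ne_zero 2 (sub_ne_zero.2 (S.hne _ hl2))
  · change IsOrd S.inc S.red S.ϖ 1
      (S.Φ0 (S.i0 (S.cst S.π) + (S.j2 ^ (l ^ 2) - S.i0 S.j0) ^ 2))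
    rw [map_add, map_pow, map_sub, map_pow, S.Φ0_i0, S.Φ0_i0, S.Φ0_j2, S.Φ'_j0, S.Φ'_π,
      S.hV.comm_inc, S.hV.comm_inc, S.hV.comm_inc, S.hV.comm_inc, S.hVϖ, S.hVϖ,
      ← map_pow, ← map_sub]
    apply Elems_isOrd_unif_add_sq S.P
    rw [map_sub, S.hV.comm_red, S.hV.comm_red, S.hJJ, map_pow, sub_self]

theorem exists_idem (hl : 2 ≤ l) (i : ι) : ∃ einf em e0 : F2,
    Res3 S.Pinf (S.Pm i) S.P0 einf 1 0 0 ∧ Res3 S.Pinf (S.Pm i) S.P0 em 0 1 0 ∧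
    Res3 S.Pinf (S.Pm i) S.P0 e0 0 0 1 := by
  obtain ⟨z1, z2, z3⟩ := S.ord_Z hl i
  obtain ⟨t1, t2, t3⟩ := S.ord_Tinf hl i
  obtain ⟨u1, u2, u3⟩ := S.ord_T0 hl i
  have A := res3_idem S.Pinf (S.Pm i) S.P0 (S.Z * S.T0) S.Tinf 1 1 1 one_pos one_pos one_pos
    ⟨by simpa using S.Pinf.ord_mul z1 u1, by simpa using (S.Pm i).ord_mul z2 u2,
      by simpa using S.P0.ord_mul z3 u3⟩ ⟨t1, t2, t3⟩
  have B := res3_idem (S.Pm i) S.Pinf S.P0 (S.Tinf * S.T0) S.Z 1 1 1 one_pos one_pos one_pos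
    ⟨by simpa using (S.Pm i).ord_mul t2 u2, by simpa using S.Pinf.ord_mul t1 u1,
      by simpa using S.P0.ord_mul t3 u3⟩ ⟨z2, z1, z3⟩
  have C := res3_idem S.P0 S.Pinf (S.Pm i) (S.Tinf * S.Z) S.T0 1 1 1 one_pos one_pos one_pos
    ⟨by simpa using S.P0.ord_mul t3 z3, by simpa using S.Pinf.ord_mul t1 z1,
      by simpa using (S.Pm i).ord_mul t2 z2⟩ ⟨u3, u1, u2⟩
  exact ⟨_, _, _, A, ⟨B.2.1, B.1, B.2.2⟩, ⟨C.2.1, C.2.2, C.1⟩⟩

end Setup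

end Fermat.Agent.S36.Val
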