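import Mathlib

/-!
# S36 / Val / Eis : `A1 = A[z]`, `z` a primitive `l`-th root of unity, over an unramified DVR `A`
(task `S36/V-Eis`)

`A` a DVR with uniformiser `l` (a prime number), `φ : A ↪ Kb` a field, `r : A ↠ k`, `z ∈ Kb` a primitive `l`-th root
of unity.  `B = φ(A)[z] ⊆ Kb` (`Subring.closure (range φ ∪ {z})`), `lam = z - 1`.

PROOF.  `E(X) = ((X+1)^l - 1)/X = X^(l-1) + l G(X)`, `G ∈ ℤ[X]`, `G(0) = 1`, `E(lam) = 0`
(`z ≠ 1`, `z^l = 1`; `Commute.add_pow`, `Nat.Prime.dvd_choose_self`).  So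
(a) `lam^(l-1) = - l G(lam)`, `G(lam) = 1 + lam h`, `h ∈ B`; hence `l ∈ lam B`.
(b) `B` is integral over `φ(A)` and finite as an `A`-module (generated by `lam^i`, `i < l-1`), so noetherian.
(c) `lam` is not a unit of `B`: otherwise `l⁻¹ = - G(lam) lam^(-(l-1)) ∈ B` is integral over `A` and lies in
    `Frac A`; `A` is integrally closed, so `l` would be a unit of `A`.
(d) `A → B/(lam)` is surjective (`B = φ(A) + lam B` by induction on the closure), its kernel is a proper ideal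
    containing `l`, so `= (l) = ker r`: `B/(lam) ≅ k` compatible with `r`; this gives `r1`, `(lam)` is maximal.
(e) every maximal ideal `n` of `B` contains `l` (`n ∩ A` is maximal: `Ideal.isMaximal_comap_of_isIntegral_of_isMaximal`), so
    `lam^(l-1) ∈ n`, `lam ∈ n`, `n = (lam)`: `B` is local with principal maximal ideal, not a field:
    DVR (`IsDiscreteValuationRing` TFAE `((IsDiscreteValuationRing.TFAE B h).out 0 4)` / or
    `Fermat.Agent.S36.Alg.isDiscreteValuationRing_of_principal` in `S36/Alg/Reg2Gen.lean`).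
(f) `G(lam)` is a unit (`r1 (G(lam)) = 1`), `u = - G(lam)⁻¹ ...`: `l = u lam^(l-1)` with `u = -(G(lam))⁻¹`.
-/

set_option autoImplicit false

namespace Fermat.Agent.S36.Val

open IsLocalRing Polynomial

/-- `l = u (ζ - 1)^(l-1)` in any domain containing a primitive `l`-th root of unity. -/
theorem Eis_associated {B : Type*} [CommRing B] [IsDomain B] {l : ℕ} (hl : l.Prime) {ζ : B}
    (hζ : IsPrimitiveRoot ζ l) : Associated ((ζ - 1) ^ (l - 1)) (l : B) := by
  have : Fact l.Prime := ⟨hl⟩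
  have : NeZero l := ⟨hl.ne_zero⟩
  have h1 : (l : B) = ∏ μ ∈ primitiveRoots l B, (1 - μ) := by
    rw [← eval_one_cyclotomic_prime (R := B) (p := l), cyclotomic_eq_prod_X_sub_primitiveRoots hζ,
      eval_prod]
    simp
  rw [h1, ← Nat.totient_prime hl, ← hζ.card_primitiveRoots, ← Finset.prod_const]
  refine Associated.prod _ _ _ (fun μ hμ => ?_)
  rw [mem_primitiveRoots hl.pos] at hμ
  obtain ⟨i, -, hi, rfl⟩ := (hζ.isPrimitiveRoot_iff).1 hμ
  have h2 := hζ.associated_sub_one_pow_sub_one_of_coprime hi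
  refine h2.trans ?_
  rw [← neg_sub]
  exact (Associated.refl _).neg_left

/-- the abstract core. -/
theorem Eis_core {A B k : Type*} [CommRing A] [IsDomain A] [IsDiscreteValuationRing A]
    [CommRing B] [IsDomain B] [Algebra A B] [Module.Finite A B] [Field k]
    (r : A →+* k) (hr : Function.Surjective r)
    (l : ℕ) (hl : l.Prime) (hπ : Irreducible (l : A)) (ζ : B) (hζ : IsPrimitiveRoot ζ l)
    (hgen : ∀ b : B, ∃ (a : A) (b' : B), b = algebraMap A B a + (ζ - 1) * b') :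
    ∃ (_ : IsDiscreteValuationRing B) (r1 : B →+* k), Function.Surjective r1 ∧
      (∀ a, r1 (algebraMap A B a) = r a) ∧ r1 ζ = 1 ∧ Irreducible (ζ - 1) := by
  have hint : Algebra.IsIntegral A B := Algebra.IsIntegral.of_finite A B
  have hnoeth : IsNoetherianRing B := IsNoetherianRing.of_finite A B
  obtain ⟨u, hu⟩ := Eis_associated hl hζ
  have hl1 : l - 1 ≠ 0 := by have := hl.two_le; omega
  have hdvd : (ζ - 1) ∣ (l : B) := by
    rw [← hu]
    exact Dvd.dvd.mul_right (dvd_pow_self _ hl1) _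
  have hmaxA : maximalIdeal A = Ideal.span {(l : A)} := hπ.maximalIdeal_eq
  -- every maximal ideal is `(ζ - 1)`
  have hmax : ∀ 𝔫 : Ideal B, 𝔫.IsMaximal → 𝔫 = Ideal.span {ζ - 1} := by
    intro 𝔫 h𝔫
    have hc : (𝔫.comap (algebraMap A B)).IsMaximal :=
      Ideal.isMaximal_comap_of_isIntegral_of_isMaximal 𝔫
    have hc' : 𝔫.comap (algebraMap A B) = Ideal.span {(l : A)} := by
      rw [← hmaxA]; exact eq_maximalIdeal hc
    have hl𝔫 : (l : B) ∈ 𝔫 := by
      have : (l : A) ∈ 𝔫.comap (algebraMap A B) := by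
        rw [hc']; exact Ideal.mem_span_singleton_self _
      simpa using this
    have hlam : ζ - 1 ∈ 𝔫 := by
      rw [← hu] at hl𝔫
      have h1 : (ζ - 1) ^ (l - 1) ∈ 𝔫 := by
        rcases h𝔫.isPrime.mem_or_mem hl𝔫 with h | h
        · exact h
        · exact absurd (Ideal.eq_top_of_isUnit_mem _ h u.isUnit) h𝔫.ne_top
      exact h𝔫.isPrime.mem_of_pow_mem _ h1
    apply le_antisymm
    · intro b hb
      obtain ⟨a, b', rfl⟩ := hgen b
      have ha : algebraMap A B a ∈ 𝔫 := by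
        have := 𝔫.sub_mem hb (𝔫.mul_mem_right b' hlam)
        simpa using this
      have ha' : a ∈ Ideal.span {(l : A)} := by rw [← hc']; exact ha
      rw [Ideal.mem_span_singleton] at ha' ⊢
      obtain ⟨c, rfl⟩ := ha'
      refine dvd_add ?_ (dvd_mul_right _ _)
      rw [map_mul, map_natCast]
      exact Dvd.dvd.mul_right hdvd _
    · rw [Ideal.span_singleton_le_iff_mem]; exact hlam
  obtain ⟨𝔫₀, h𝔫₀⟩ := Ideal.exists_maximal B
  have hloc : IsLocalRing B :=
    IsLocalRing.of_unique_max_ideal ⟨𝔫₀, h𝔫₀, fun 𝔫 h𝔫 => by rw [hmax 𝔫 h𝔫, hmax 𝔫₀ h𝔫₀]⟩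
  have hmB : maximalIdeal B = Ideal.span {ζ - 1} := hmax _ (maximalIdeal.isMaximal B)
  have hlam0 : ζ - 1 ≠ 0 := sub_ne_zero.2 (hζ.ne_one hl.one_lt)
  have hnf : ¬ IsField B := by
    rw [isField_iff_maximalIdeal_eq, hmB, Ideal.span_singleton_eq_bot]
    exact hlam0
  have hprin : (maximalIdeal B).IsPrincipal := ⟨⟨ζ - 1, hmB⟩⟩
  have hdvr : IsDiscreteValuationRing B :=
    ((IsDiscreteValuationRing.TFAE B hnf).out 0 4).2 hprin
  have hirr : Irreducible (ζ - 1) := (IsDiscreteValuationRing.irreducible_iff_uniformizer _).2 hmB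
  -- the residue map
  let q : A →+* B ⧸ Ideal.span {ζ - 1} := (Ideal.Quotient.mk _).comp (algebraMap A B)
  have hq : Function.Surjective q := by
    intro x
    obtain ⟨b, rfl⟩ := Ideal.Quotient.mk_surjective x
    obtain ⟨a, b', rfl⟩ := hgen b
    refine ⟨a, ?_⟩
    rw [map_add, RingHom.comp_apply, left_eq_add, Ideal.Quotient.eq_zero_iff_mem]
    exact Ideal.mul_mem_right _ _ (Ideal.mem_span_singleton_self _)
  have hker : RingHom.ker q ≤ RingHom.ker r := by
    intro a ha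
    rw [RingHom.mem_ker, RingHom.comp_apply, Ideal.Quotient.eq_zero_iff_mem, ← hmB] at ha
    have hkr : RingHom.ker r = maximalIdeal A :=
      eq_maximalIdeal (RingHom.ker_isMaximal_of_surjective r hr)
    rw [hkr, mem_maximalIdeal, mem_nonunits_iff]
    intro hua
    exact ((mem_maximalIdeal _).1 ha) (hua.map (algebraMap A B))
  let r0 : B ⧸ Ideal.span {ζ - 1} →+* k := q.liftOfSurjective hq ⟨r, hker⟩
  have hr0 : ∀ a, r0 (q a) = r a := fun a =>
    RingHom.liftOfRightInverse_comp_apply q _ _ ⟨r, hker⟩ a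
  refine ⟨hdvr, r0.comp (Ideal.Quotient.mk _), ?_, fun a => hr0 a, ?_, hirr⟩
  · intro x
    obtain ⟨a, rfl⟩ := hr x
    exact ⟨algebraMap A B a, hr0 a⟩
  · have h1 : Ideal.Quotient.mk (Ideal.span {ζ - 1}) ζ = 1 := by
      rw [← sub_eq_zero, ← map_one (Ideal.Quotient.mk (Ideal.span {ζ - 1})), ← map_sub,
        Ideal.Quotient.eq_zero_iff_mem]
      exact Ideal.mem_span_singleton_self _
    rw [RingHom.comp_apply, h1, map_one]

theorem exists_cycExt {A k Kb : Type*} [CommRing A] [IsDomain A] [IsDiscreteValuationRing A]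
    [Field k] [Field Kb] (φ : A →+* Kb) (hφ : Function.Injective φ) (r : A →+* k)
    (hr : Function.Surjective r) (l : ℕ) (hl : l.Prime) (hπ : Irreducible (l : A))
    (z : Kb) (hz : IsPrimitiveRoot z l) :
    ∃ (B : Subring Kb) (_ : IsDiscreteValuationRing B) (ψ : A →+* B) (r1 : B →+* k) (zz u : Bˣ),
      (∀ a, (ψ a : Kb) = φ a) ∧ ((zz : B) : Kb) = z ∧ Function.Surjective r1 ∧
      (∀ a, r1 (ψ a) = r a) ∧ r1 zz = 1 ∧ Irreducible ((zz : B) - 1) ∧
      (l : B) = u * ((zz : B) - 1) ^ (l - 1) := by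
  let _ : Algebra A Kb := φ.toAlgebra
  let S : Subalgebra A Kb := Algebra.adjoin A {z}
  have hzint : IsIntegral A z :=
    IsIntegral.of_pow hl.pos (by rw [hz.pow_eq_one]; exact isIntegral_one)
  have hfin : Module.Finite A S := Algebra.finite_adjoin_simple_of_isIntegral hzint
  let ζ : S := ⟨z, Algebra.subset_adjoin rfl⟩
  have hζ : IsPrimitiveRoot ζ l := IsPrimitiveRoot.of_map_of_injective (f := S.val)
    hz Subtype.val_injective
  have hgen : ∀ b : S, ∃ (a : A) (b' : S), b = algebraMap A S a + (ζ - 1) * b' := by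
    rintro ⟨b, hb⟩
    induction hb using Algebra.adjoin_induction with
    | mem x hx =>
      obtain rfl : x = z := hx
      exact ⟨1, 1, by apply Subtype.ext; simp [ζ]⟩
    | algebraMap a => exact ⟨a, 0, by apply Subtype.ext; simp⟩
    | add x y hx hy ihx ihy =>
      obtain ⟨a, b', h1⟩ := ihx
      obtain ⟨c, d', h2⟩ := ihy
      refine ⟨a + c, b' + d', ?_⟩
      have : (⟨x + y, S.add_mem hx hy⟩ : S) = ⟨x, hx⟩ + ⟨y, hy⟩ := rfl
      rw [this, h1, h2, map_add]; ring
    | mul x y hx hy ihx ihy =>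
      obtain ⟨a, b', h1⟩ := ihx
      obtain ⟨c, d', h2⟩ := ihy
      refine ⟨a * c, algebraMap A S a * d' + b' * algebraMap A S c + (ζ - 1) * b' * d', ?_⟩
      have : (⟨x * y, S.mul_mem hx hy⟩ : S) = ⟨x, hx⟩ * ⟨y, hy⟩ := rfl
      rw [this, h1, h2, map_mul]; ring
  obtain ⟨hdvr, r1, hr1s, hr1, hr1ζ, hirr⟩ := Eis_core r hr l hl hπ ζ hζ hgen
  obtain ⟨u, hu⟩ := Eis_associated hl hζ
  refine ⟨S.toSubring, hdvr, algebraMap A S, r1, (hζ.isUnit hl.ne_zero).unit, u, fun a => rfl, rfl,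
    hr1s, hr1, hr1ζ, hirr, ?_⟩
  rw [mul_comm]
  exact hu.symm

end Fermat.Agent.S36.Val
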