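import Mathlib

/-!
# S36 / Val / Formal : the polynomial lemma behind the orthogonal basis

`κ` a field (`= k((q))`), `W : κ → κ` (`= V_L`, `q ↦ q^L`), `Jb ∈ κ` (`= J mod l`), `W Jb = Jb ^ L`,
`1, Jb, …, Jb^(L-1)` independent over `W κ`.  A polynomial `p` of degree `< L + e + 1` with
`p(W Jb) = 0`, `p^{[k]}(Jb) = 0` (`k < e`), `(W p)(Jb) = 0` vanishes:
it is divisible by `(Y - Jb^L) (Y - Jb)^e (Y^L - Jb)`.
-/

set_option autoImplicit false

open Polynomial

namespace Fermat.Agent.S36.Val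

theorem poly_eq_zero {κ : Type*} [Field κ] (L e : ℕ) (hL : 0 < L) (W : κ →+* κ) (Jb : κ)
    (hJ : W Jb = Jb ^ L)
    (hind : ∀ R : κ[X], R.natDegree < L → (R.map W).eval Jb = 0 → R = 0)
    (hne1 : Jb ^ L ≠ Jb) (hne2 : (Jb ^ L) ^ L ≠ Jb)
    (p : κ[X]) (hdeg : p.natDegree < L + e + 1)
    (hinf : p.eval (W Jb) = 0)
    (hm : ∀ k < e, (hasseDeriv k p).eval Jb = 0)
    (h0 : (p.map W).eval Jb = 0) : p = 0 := by
  have d1 : (X - C (W Jb)) ∣ p := dvd_iff_isRoot.2 hinf
  have d2 : (X - C Jb) ^ e ∣ p := by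
    rw [X_sub_C_pow_dvd_iff, X_pow_dvd_iff]
    intro d hd
    rw [← taylor_apply, taylor_coeff]
    exact hm d hd
  set Q : κ[X] := X ^ L - C Jb with hQ
  have hQm : Q.Monic := monic_X_pow_sub_C _ hL.ne'
  have hQd : Q.natDegree = L := natDegree_X_pow_sub_C
  have d3 : Q ∣ p := by
    rw [← modByMonic_eq_zero_iff_dvd hQm]
    apply hind
    · have := natDegree_modByMonic_lt p hQm (by
        intro h1
        have := congrArg natDegree h1
        rw [hQd, natDegree_one] at this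
        omega)
      rwa [hQd] at this
    · have e1 : p %ₘ Q = p - Q * (p /ₘ Q) := by
        have := modByMonic_add_div p Q
        linear_combination this
      rw [e1, Polynomial.map_sub, Polynomial.map_mul, eval_sub, eval_mul, h0, hQ]
      simp [hJ]
  have c12 : IsCoprime (X - C (W Jb)) ((X - C Jb) ^ e) := by
    apply IsCoprime.pow_right
    apply isCoprime_X_sub_C_of_isUnit_sub
    rw [hJ]
    exact (sub_ne_zero.2 hne1).isUnit
  have hcop : ∀ a : κ, Q.eval a ≠ 0 → IsCoprime (X - C a) Q := by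
    intro a ha
    rw [(irreducible_X_sub_C a).coprime_iff_not_dvd, dvd_iff_isRoot]
    exact ha
  have c13 : IsCoprime (X - C (W Jb)) Q := by
    apply hcop
    rw [hQ, hJ]
    simpa [sub_eq_zero] using hne2
  have c23 : IsCoprime ((X - C Jb) ^ e) Q := by
    apply IsCoprime.pow_left
    apply hcop
    rw [hQ]
    simpa [sub_eq_zero] using hne1
  have d12 : (X - C (W Jb)) * (X - C Jb) ^ e ∣ p := c12.mul_dvd d1 d2
  have d123 : (X - C (W Jb)) * (X - C Jb) ^ e * Q ∣ p := (c13.mul_left c23).mul_dvd d12 d3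
  apply eq_zero_of_dvd_of_natDegree_lt d123
  have hm1 : ((X - C (W Jb)) * (X - C Jb) ^ e * Q).natDegree = 1 + e + L := by
    rw [((monic_X_sub_C _).mul ((monic_X_sub_C _).pow e)).natDegree_mul hQm,
      (monic_X_sub_C _).natDegree_mul ((monic_X_sub_C _).pow e), natDegree_X_sub_C,
      natDegree_pow, natDegree_X_sub_C, hQd, mul_one]
  rw [hm1]; omega

end Fermat.Agent.S36.Val
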