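import Fermat.Agent.S36.Val.Place

/-!
# S36 / Val / Mid : the ramified place `v_mid` sees the Hasse derivatives   (task `S36/V-Mid`)

Two places `(Ω, O, κ, ϖ)`, `(Ω1, O1, κ, lam)` with the same residue field, `base : Ω → Ω1` with
`ϖ = u lam^e` (totally ramified of index `e`).  `J ∈ V'` with residue `Jb`, `D ∈ V'_1` with residue
`Db ≠ 0`, `a_s ∈ V'` with residues `ab_s`.  If `∑_s a_s (J + lam D)^s ∈ lam^e V'_1` then the polynomial
`p = ∑ ab_s Y^s` satisfies `p^{[k]}(Jb) = 0` for all `k < e`.

PROOF.  `G k := ∑_{s<n} a_s * choose s k * J^(s-k) ∈ V'`, with residue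
`gb k = ∑ ab_s * choose s k * Jb^(s-k) = (hasseDeriv k p).eval Jb`
(`map_sum`, `C_mul_X_pow_eq_monomial`, `hasseDeriv_monomial`, `eval_monomial`).
Binomial theorem (`add_pow`, `Finset.sum_comm`, `Nat.choose_eq_zero_of_lt`):
`∑_s base (a_s) (base J + x)^s = ∑_{k<n} base (G k) x^k`, `x = lam D`.
Strong induction on `k < e`: if `gb i = 0` for `i < k` then `G i = ϖ g_i`, `g_i ∈ V'`
(`IsRes.exists_eq_unif_mul`), so `base (G i) ∈ lam^e V'_1`; the terms `i > k` are in `lam^(k+1) V'_1`,
the total is in `lam^e V'_1 ⊆ lam^(k+1) V'_1`.  Hence `base (G k) D^k ∈ lam V'_1`, its residue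
`gb k * Db^k` is `0` (`IsRes.unique`).
-/

set_option autoImplicit false

open Polynomial

namespace Fermat.Agent.S36.Val

open Fermat.Agent.Crux.G.QLink

/-- binomial expansion of `∑ A_s (j + x)^s` in powers of `x`. -/
theorem Mid_binom {R : Type*} [CommRing R] (n : ℕ) (A : ℕ → R) (j x : R) :
    ∑ s ∈ Finset.range n, A s * (j + x) ^ s
      = ∑ k ∈ Finset.range n, (∑ s ∈ Finset.range n, A s * (s.choose k : R) * j ^ (s - k)) * x ^ k := by
  have h1 : ∀ s ∈ Finset.range n, A s * (j + x) ^ s
      = ∑ k ∈ Finset.range n, A s * (s.choose k : R) * j ^ (s - k) * x ^ k := by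
    intro s hs
    rw [Finset.mem_range] at hs
    rw [add_comm j x, add_pow, Finset.mul_sum]
    have hsub : Finset.range (s + 1) ⊆ Finset.range n := Finset.range_subset_range.mpr (by omega)
    rw [← Finset.sum_subset hsub]
    · refine Finset.sum_congr rfl fun k _ => ?_
      ring
    · intro k _ hk
      rw [Finset.mem_range, not_lt] at hk
      rw [Nat.choose_eq_zero_of_lt (by omega)]
      simp
  rw [Finset.sum_congr rfl h1, Finset.sum_comm]
  refine Finset.sum_congr rfl fun k _ => ?_
  rw [Finset.sum_mul]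

/-- the value of the Hasse derivative. -/
theorem Mid_hasse {κ : Type*} [Field κ] (n k : ℕ) (ab : ℕ → κ) (Jb : κ) :
    (hasseDeriv k (∑ s ∈ Finset.range n, C (ab s) * X ^ s)).eval Jb
      = ∑ s ∈ Finset.range n, ab s * (s.choose k : κ) * Jb ^ (s - k) := by
  rw [map_sum, eval_finsetSum]
  refine Finset.sum_congr rfl fun s _ => ?_
  rw [C_mul_X_pow_eq_monomial, hasseDeriv_monomial, eval_monomial]
  ring

theorem hasse_eq_zero_of_mid
    {Ω O κ Ω1 O1 : Type*} [Field Ω] [CommRing O] [Field κ] [Field Ω1] [CommRing O1]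
    {inc : O →+* Ω} {red : O →+* κ} {ϖ : O} {inc1 : O1 →+* Ω1} {red1 : O1 →+* κ} {lam : O1}
    (P : IsPlace inc red ϖ) (P1 : IsPlace inc1 red1 lam)
    {base : Ω →+* Ω1} {baseO : O →+* O1}
    (hbase : PlaceHom inc red inc1 red1 base baseO (RingHom.id κ))
    (e : ℕ) (u : O1) (hϖ : baseO ϖ = u * lam ^ e)
    (J : Ω) (Jb : κ) (hJ : IsRes inc red J Jb)
    (D : Ω1) (Db : κ) (hD : IsRes inc1 red1 D Db) (hDb : Db ≠ 0)
    (n : ℕ) (a : ℕ → Ω) (ab : ℕ → κ) (ha : ∀ s < n, IsRes inc red (a s) (ab s))
    (hint : InV inc1 red1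
      ((∑ s ∈ Finset.range n, base (a s) * (base J + inc1 lam * D) ^ s) / inc1 lam ^ e)) :
    ∀ k < e, (hasseDeriv k (∑ s ∈ Finset.range n, C (ab s) * X ^ s)).eval Jb = 0 := by
  set L : Ω1 := inc1 lam with hL
  have hL0 : L ≠ 0 := P1.unif_ne_zero
  set G : ℕ → Ω := fun k => ∑ s ∈ Finset.range n, a s * (s.choose k : Ω) * J ^ (s - k) with hG
  set gb : ℕ → κ := fun k => ∑ s ∈ Finset.range n, ab s * (s.choose k : κ) * Jb ^ (s - k) with hgb
  have hGres : ∀ k, IsRes inc red (G k) (gb k) := fun k =>
    IsRes.sum _ fun s hs => ((ha s (Finset.mem_range.mp hs)).mul (IsRes.natCast _)).mul (hJ.pow _)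
  have hbG : ∀ k, IsRes inc1 red1 (base (G k)) (gb k) := fun k => hbase.isRes (hGres k)
  have hmulL : ∀ (m : ℕ) (z : Ω1), 0 < m → InV inc1 red1 z → IsRes inc1 red1 (L ^ m * z) 0 := by
    intro m z hm hz
    obtain ⟨c, hc⟩ := inV_iff.1 hz
    have := (P1.isRes_unif_pow hm).mul hc
    rwa [zero_mul] at this
  set f : ℕ → Ω1 := fun i => base (G i) * (L * D) ^ i with hf
  have hT : ∑ s ∈ Finset.range n, base (a s) * (base J + L * D) ^ s
      = ∑ i ∈ Finset.range n, f i := by
    rw [Mid_binom]
    refine Finset.sum_congr rfl fun i _ => ?_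
    simp only [hf, hG, map_sum, map_mul, map_pow, map_natCast]
  rw [hT] at hint
  have key : ∀ k, k < e → gb k = 0 := by
    intro k
    induction k using Nat.strong_induction_on with
    | _ k ih =>
      intro hke
      by_cases hkn : k < n
      · -- the total
        have h1 : IsRes inc1 red1 ((∑ i ∈ Finset.range n, f i) / L ^ k) 0 := by
          have e1 : (∑ i ∈ Finset.range n, f i) / L ^ k
              = L ^ (e - k) * ((∑ i ∈ Finset.range n, f i) / L ^ e) := by
            have : L ^ e = L ^ (e - k) * L ^ k := by rw [← pow_add, Nat.sub_add_cancel hke.le]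
            rw [this]
            field_simp
          rw [e1]
          exact hmulL _ _ (by omega) hint
        -- the other terms
        have h2 : ∀ i ∈ (Finset.range n).erase k, IsRes inc1 red1 (f i / L ^ k) 0 := by
          intro i hi
          rw [Finset.mem_erase, Finset.mem_range] at hi
          rcases lt_or_gt_of_ne hi.1 with hik | hik
          · have h0 := hGres i
            rw [ih i hik (hik.trans hke)] at h0
            obtain ⟨g, hg, hGi⟩ := h0.exists_eq_unif_mul P
            have e1 : f i / L ^ k = L ^ (e - k) * (inc1 u * base g * (L * D) ^ i) := by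
              have h3 : L ^ e = L ^ (e - k) * L ^ k := by
                rw [← pow_add, Nat.sub_add_cancel hke.le]
              simp only [hf]
              rw [hGi, map_mul, hbase.comm_inc, hϖ, map_mul, map_pow, ← hL, h3]
              field_simp
            rw [e1]
            refine hmulL _ _ (by omega) ?_
            exact (((isRes_inc u).mul (inV_iff.1 (hbase.inV hg)).choose_spec).mul
              (((isRes_inc lam).mul hD).pow i)).inV
          · have e1 : f i / L ^ k = L ^ (i - k) * (base (G i) * D ^ i) := by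
              have h3 : L ^ i = L ^ (i - k) * L ^ k := by
                rw [← pow_add, Nat.sub_add_cancel hik.le]
              simp only [hf]
              rw [mul_pow, h3]
              field_simp
            rw [e1]
            exact hmulL _ _ (by omega) ((hbG i).mul (hD.pow i)).inV
        have h3 : base (G k) * D ^ k
            = (∑ i ∈ Finset.range n, f i) / L ^ k - ∑ i ∈ (Finset.range n).erase k, f i / L ^ k := by
          rw [← Finset.add_sum_erase _ f (Finset.mem_range.mpr hkn), add_div, Finset.sum_div,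
            add_sub_cancel_right]
          simp only [hf]
          rw [mul_pow]
          field_simp
        have h4 : IsRes inc1 red1 (base (G k) * D ^ k) 0 := by
          rw [h3]
          have := h1.sub (IsRes.sum _ h2)
          simpa using this
        have h5 := ((hbG k).mul (hD.pow k)).unique P1.inj h4
        rcases mul_eq_zero.mp h5 with h6 | h6
        · exact h6
        · exact absurd h6 (pow_ne_zero _ hDb)
      · simp only [hgb]
        refine Finset.sum_eq_zero fun s hs => ?_
        rw [Finset.mem_range] at hs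
        rw [Nat.choose_eq_zero_of_lt (by omega)]
        simp
  intro k hk
  rw [Mid_hasse]
  exact key k hk

end Fermat.Agent.S36.Val
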