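import Fermat.Agent.S36.Val.Orth
import Fermat.Agent.S36.Val.Mid
import Fermat.Agent.S36.Val.Formal

/-!
# S36 / Val / Orth3 : `1, θ, …, θ^(L+e)` is an orthogonal basis for `{v_∞, v_mid, v_0}`
(task `S36/V-Orth3`)

`F0 → F2` (levels `N`, `N l²`; `L = l²`, `e = l - 1`) or (levels `N`, `N l`; `L = l`, no `v_mid`).
`Φ' : F0 → Ω` the `q`-expansion at level `N`; `Φinf, Φ0 : F2 → Ω`, `τ : F2 → Ω1` with
`Φinf|F0 = Φ'`, `Φ0|F0 = W ∘ Φ'` (`W = V_L`), `τ|F0 = base ∘ Φ'`,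
`θ ↦ W J`, `J`, `J + lam D` respectively (`D` a unit).

PROOF of `orth_three`.  Choose residues `cb s` of `Φ' (c s)` (`inV_iff`), `p = ∑ C (cb s) X^s`,
`natDegree p < n`.  `S := ∑ i0 (c s) θ^s`.
* `Φinf S = ∑ Φ'(c s) (inc (WO J))^s` has residue `p.eval (Wκ Jb)` (`IsRes.sum/mul/pow`, `isRes_inc`,
  `hW.comm_red`), and `Φinf S = inc ϖ * Φinf (S / i0 p0)` has residue `0`; `IsRes.unique`.
* `Φ0 S = ∑ W (Φ' (c s)) (inc J)^s` has residue `(p.map Wκ).eval Jb` (`hW.isRes`);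
  `Φ0 (i0 p0) = W (inc ϖ) = inc (WO ϖ) = inc ϖ`.
* `τ S = ∑ base (Φ' (c s)) (base (inc J) + inc1 lam * inc1 D)^s`, `τ (i0 p0) = inc1 u * inc1 lam ^ e`:
  `hasse_eq_zero_of_mid`.
* `poly_eq_zero` gives `p = 0`, so `cb s = 0` (`finset_sum_coeff`, `coeff_C_mul_X_pow`).
`orth_two` : the same without `τ` (`e = 0`).
-/

set_option autoImplicit false

open Polynomial

namespace Fermat.Agent.S36.Val

open Fermat.Agent.Crux.G.QLink

variable {Ω O κ Ω1 O1 : Type*} [Field Ω] [CommRing O] [Field κ] [Field Ω1] [CommRing O1]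
  {inc : O →+* Ω} {red : O →+* κ} {ϖ : O} {inc1 : O1 →+* Ω1} {red1 : O1 →+* κ} {lam : O1}
variable {F0 F2 : Type*} [Field F0] [Field F2]

theorem orth_core (P : IsPlace inc red ϖ)
    (L e : ℕ) (hL : 0 < L)
    {W : Ω →+* Ω} {WO : O →+* O} {Wκ : κ →+* κ} (hW : PlaceHom inc red inc red W WO Wκ)
    (hWϖ : WO ϖ = ϖ)
    (i0 : F0 →+* F2) (Φ' : F0 →+* Ω) (Φinf Φ0 : F2 →+* Ω)
    (hinf : ∀ c, Φinf (i0 c) = Φ' c) (h0 : ∀ c, Φ0 (i0 c) = W (Φ' c))
    (p0 : F0) (hp0 : Φ' p0 = inc ϖ)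
    (J : O) (θ : F2)
    (hθinf : Φinf θ = inc (WO J)) (hθ0 : Φ0 θ = inc J)
    (hJ : Wκ (red J) = red J ^ L)
    (hind : ∀ R : κ[X], R.natDegree < L → (R.map Wκ).eval (red J) = 0 → R = 0)
    (hne1 : red J ^ L ≠ red J) (hne2 : (red J ^ L) ^ L ≠ red J)
    (c : ℕ → F0) (hc : ∀ s < L + e + 1, InV inc red (Φ' (c s)))
    (h1 : InV inc red (Φinf ((∑ s ∈ Finset.range (L + e + 1), i0 (c s) * θ ^ s) / i0 p0)))
    (h3 : InV inc red (Φ0 ((∑ s ∈ Finset.range (L + e + 1), i0 (c s) * θ ^ s) / i0 p0)))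
    (hm : ∀ cb : ℕ → κ, (∀ s < L + e + 1, IsRes inc red (Φ' (c s)) (cb s)) →
      ∀ k < e, (hasseDeriv k (∑ s ∈ Finset.range (L + e + 1), C (cb s) * X ^ s)).eval (red J) = 0) :
    ∀ s < L + e + 1, IsRes inc red (Φ' (c s)) 0 := by
  classical
  have hex : ∀ s, ∃ b : κ, s < L + e + 1 → IsRes inc red (Φ' (c s)) b := by
    intro s
    by_cases hs : s < L + e + 1
    · obtain ⟨b, hb⟩ := inV_iff.1 (hc s hs)
      exact ⟨b, fun _ => hb⟩
    · exact ⟨0, fun h => absurd h hs⟩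
  choose cb hcb using hex
  set S : F2 := ∑ s ∈ Finset.range (L + e + 1), i0 (c s) * θ ^ s with hS
  set p : κ[X] := ∑ s ∈ Finset.range (L + e + 1), C (cb s) * X ^ s with hp
  have hϖ0 : inc ϖ ≠ 0 := P.unif_ne_zero
  have hresϖ : IsRes inc red (inc ϖ) 0 := by
    have := isRes_inc (inc := inc) (red := red) ϖ
    rwa [P.red_unif] at this
  have hdeg : p.natDegree < L + e + 1 := by
    have : p.natDegree ≤ L + e := by
      apply natDegree_sum_le_of_forall_le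
      intro s hs
      have := Finset.mem_range.1 hs
      exact (natDegree_C_mul_X_pow_le _ _).trans (by omega)
    omega
  -- the place at infinity
  have e1 : p.eval (Wκ (red J)) = 0 := by
    have r1 : IsRes inc red (Φinf S) (p.eval (Wκ (red J))) := by
      have : IsRes inc red (∑ s ∈ Finset.range (L + e + 1), Φ' (c s) * inc (WO J) ^ s)
          (∑ s ∈ Finset.range (L + e + 1), cb s * red (WO J) ^ s) :=
        IsRes.sum _ fun s hs => (hcb s (Finset.mem_range.1 hs)).mul ((isRes_inc (WO J)).pow s)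
      have ea : Φinf S = ∑ s ∈ Finset.range (L + e + 1), Φ' (c s) * inc (WO J) ^ s := by
        rw [hS, map_sum]
        exact Finset.sum_congr rfl fun s _ => by rw [map_mul, map_pow, hinf, hθinf]
      have eb : p.eval (Wκ (red J)) = ∑ s ∈ Finset.range (L + e + 1), cb s * red (WO J) ^ s := by
        rw [hp, eval_finsetSum]
        exact Finset.sum_congr rfl fun s _ => by
          rw [eval_mul, eval_C, eval_pow, eval_X, hW.comm_red]
      rw [ea, eb]; exact this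
    obtain ⟨r, hr⟩ := inV_iff.1 h1
    have r2 : IsRes inc red (Φinf S) (0 * r) := by
      have := hresϖ.mul hr
      have ec : inc ϖ * Φinf (S / i0 p0) = Φinf S := by
        rw [map_div₀, hinf, hp0, mul_div_cancel₀ _ hϖ0]
      rwa [ec] at this
    rw [r1.unique P.inj r2, zero_mul]
  -- the place at zero
  have e3 : (p.map Wκ).eval (red J) = 0 := by
    have r1 : IsRes inc red (Φ0 S) ((p.map Wκ).eval (red J)) := by
      have : IsRes inc red (∑ s ∈ Finset.range (L + e + 1), W (Φ' (c s)) * inc J ^ s)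
          (∑ s ∈ Finset.range (L + e + 1), Wκ (cb s) * red J ^ s) :=
        IsRes.sum _ fun s hs =>
          (hW.isRes (hcb s (Finset.mem_range.1 hs))).mul ((isRes_inc J).pow s)
      have ea : Φ0 S = ∑ s ∈ Finset.range (L + e + 1), W (Φ' (c s)) * inc J ^ s := by
        rw [hS, map_sum]
        exact Finset.sum_congr rfl fun s _ => by rw [map_mul, map_pow, h0, hθ0]
      have eb : (p.map Wκ).eval (red J)
          = ∑ s ∈ Finset.range (L + e + 1), Wκ (cb s) * red J ^ s := by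
        rw [hp, Polynomial.map_sum, eval_finsetSum]
        exact Finset.sum_congr rfl fun s _ => by
          rw [Polynomial.map_mul, Polynomial.map_pow, map_C, map_X, eval_mul, eval_C, eval_pow,
            eval_X]
      rw [ea, eb]; exact this
    obtain ⟨r, hr⟩ := inV_iff.1 h3
    have r2 : IsRes inc red (Φ0 S) (0 * r) := by
      have := hresϖ.mul hr
      have ec : inc ϖ * Φ0 (S / i0 p0) = Φ0 S := by
        rw [map_div₀, h0, hp0, hW.comm_inc, hWϖ, mul_div_cancel₀ _ hϖ0]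
      rwa [ec] at this
    rw [r1.unique P.inj r2, zero_mul]
  have hp00 : p = 0 :=
    poly_eq_zero L e hL Wκ (red J) hJ hind hne1 hne2 p hdeg e1 (hm cb hcb) e3
  intro s hs
  have hcoef : p.coeff s = cb s := by
    rw [hp, finsetSum_coeff]
    simp only [coeff_C_mul_X_pow]
    rw [Finset.sum_ite_eq]
    simp [hs]
  have : cb s = 0 := by rw [← hcoef, hp00, coeff_zero]
  rw [← this]
  exact hcb s hs

theorem orth_three (P : IsPlace inc red ϖ) (P1 : IsPlace inc1 red1 lam)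
    {base : Ω →+* Ω1} {baseO : O →+* O1}
    (hbase : PlaceHom inc red inc1 red1 base baseO (RingHom.id κ))
    (L e : ℕ) (hL : 0 < L) (u : O1) (hϖ : baseO ϖ = u * lam ^ e)
    {W : Ω →+* Ω} {WO : O →+* O} {Wκ : κ →+* κ} (hW : PlaceHom inc red inc red W WO Wκ)
    (hWϖ : WO ϖ = ϖ)
    (i0 : F0 →+* F2) (Φ' : F0 →+* Ω) (Φinf Φ0 : F2 →+* Ω) (τ : F2 →+* Ω1)
    (hinf : ∀ c, Φinf (i0 c) = Φ' c) (h0 : ∀ c, Φ0 (i0 c) = W (Φ' c))
    (hτ : ∀ c, τ (i0 c) = base (Φ' c))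
    (p0 : F0) (hp0 : Φ' p0 = inc ϖ)
    (J : O) (D : O1) (hD : red1 D ≠ 0) (θ : F2)
    (hθinf : Φinf θ = inc (WO J)) (hθ0 : Φ0 θ = inc J) (hθτ : τ θ = inc1 (baseO J + lam * D))
    (hJ : Wκ (red J) = red J ^ L)
    (hind : ∀ R : κ[X], R.natDegree < L → (R.map Wκ).eval (red J) = 0 → R = 0)
    (hne1 : red J ^ L ≠ red J) (hne2 : (red J ^ L) ^ L ≠ red J)
    (c : ℕ → F0) (hc : ∀ s < L + e + 1, InV inc red (Φ' (c s)))
    (h1 : InV inc red (Φinf ((∑ s ∈ Finset.range (L + e + 1), i0 (c s) * θ ^ s) / i0 p0)))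
    (h2 : InV inc1 red1 (τ ((∑ s ∈ Finset.range (L + e + 1), i0 (c s) * θ ^ s) / i0 p0)))
    (h3 : InV inc red (Φ0 ((∑ s ∈ Finset.range (L + e + 1), i0 (c s) * θ ^ s) / i0 p0))) :
    ∀ s < L + e + 1, IsRes inc red (Φ' (c s)) 0 := by
  refine orth_core P L e hL hW hWϖ i0 Φ' Φinf Φ0 hinf h0 p0 hp0 J θ hθinf hθ0 hJ hind hne1 hne2
    c hc h1 h3 ?_
  intro cb hcb
  have hbϖ : base (inc ϖ) = inc1 u * inc1 lam ^ e := by
    rw [hbase.comm_inc, hϖ, map_mul, map_pow]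
  have hne : base (inc ϖ) ≠ 0 := (map_ne_zero base).2 P.unif_ne_zero
  have hu0 : inc1 u ≠ 0 := by
    intro h
    rw [hbϖ, h, zero_mul] at hne
    exact hne rfl
  have hl0 : inc1 lam ^ e ≠ 0 := by
    intro h
    rw [hbϖ, h, mul_zero] at hne
    exact hne rfl
  refine hasse_eq_zero_of_mid P P1 hbase e u hϖ (inc J) (red J) (isRes_inc J) (inc1 D) (red1 D)
    (isRes_inc D) hD (L + e + 1) (fun s => Φ' (c s)) cb hcb ?_
  obtain ⟨r, hr⟩ := inV_iff.1 h2
  have := ((isRes_inc (inc := inc1) (red := red1) u).mul hr).inV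
  have ea : inc1 u * τ ((∑ s ∈ Finset.range (L + e + 1), i0 (c s) * θ ^ s) / i0 p0)
      = (∑ s ∈ Finset.range (L + e + 1),
          base (Φ' (c s)) * (base (inc J) + inc1 lam * inc1 D) ^ s) / inc1 lam ^ e := by
    rw [map_div₀, hτ, hp0, hbϖ, map_sum]
    have : ∑ s ∈ Finset.range (L + e + 1), τ (i0 (c s) * θ ^ s)
        = ∑ s ∈ Finset.range (L + e + 1),
          base (Φ' (c s)) * (base (inc J) + inc1 lam * inc1 D) ^ s :=
      Finset.sum_congr rfl fun s _ => by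
        rw [map_mul, map_pow, hτ, hθτ, map_add, map_mul, hbase.comm_inc]
    rw [this]
    field_simp
  rwa [ea] at this

theorem orth_two (P : IsPlace inc red ϖ)
    (L : ℕ) (hL : 0 < L)
    {W : Ω →+* Ω} {WO : O →+* O} {Wκ : κ →+* κ} (hW : PlaceHom inc red inc red W WO Wκ)
    (hWϖ : WO ϖ = ϖ)
    (i0 : F0 →+* F2) (Φ' : F0 →+* Ω) (Φinf Φ0 : F2 →+* Ω)
    (hinf : ∀ c, Φinf (i0 c) = Φ' c) (h0 : ∀ c, Φ0 (i0 c) = W (Φ' c))
    (p0 : F0) (hp0 : Φ' p0 = inc ϖ)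
    (J : O) (θ : F2)
    (hθinf : Φinf θ = inc (WO J)) (hθ0 : Φ0 θ = inc J)
    (hJ : Wκ (red J) = red J ^ L)
    (hind : ∀ R : κ[X], R.natDegree < L → (R.map Wκ).eval (red J) = 0 → R = 0)
    (hne1 : red J ^ L ≠ red J) (hne2 : (red J ^ L) ^ L ≠ red J)
    (c : ℕ → F0) (hc : ∀ s < L + 1, InV inc red (Φ' (c s)))
    (h1 : InV inc red (Φinf ((∑ s ∈ Finset.range (L + 1), i0 (c s) * θ ^ s) / i0 p0)))
    (h3 : InV inc red (Φ0 ((∑ s ∈ Finset.range (L + 1), i0 (c s) * θ ^ s) / i0 p0))) :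
    ∀ s < L + 1, IsRes inc red (Φ' (c s)) 0 :=
  orth_core P L 0 hL hW hWϖ i0 Φ' Φinf Φ0 hinf h0 p0 hp0 J θ hθinf hθ0 hJ hind hne1 hne2
    c hc h1 h3 (fun _ _ k hk => absurd hk (Nat.not_lt_zero k))

end Fermat.Agent.S36.Val
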