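import Fermat.Agent.S36.Val.Setup
import Fermat.Agent.S36.Val.Orth3
import Fermat.Agent.S36.Val.Abs

/-!
# S36 / Val / Coords : `O_{F2} = ⊕_{s < l²+l} O_{F0} j2^s` and its consequences  (task `S36/V-Coords`)

* `coords`  : `span2` + `coords_of_orth` (with `Int = S.Int3 i`, `θ = j2`, `p0 = cst π`) + `orth_three`
  (`L = l²`, `e = l - 1`, `W = V ∘ V`, `S.hVV`, `S.hJJ`, `S.hind2`, `S.hne`).  Replace `c s` by `0` for
  `s ≥ n` to get integrality for all `s`.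
* `res_of_coords` : `IsRes.sum/mul/pow`, `isRes_inc`, `PlaceHom.isRes`, `Φinf_i0`, `Φ0_i0`, `τ_i0`,
  `Φinf_j2`, …  (`red1 (baseO J + lam * D) = red J`).
* `int3_indep`, `res_indep` : the place `v_mid` does not depend on the root of unity (on `O_{F2}`).
* `deg_one` : `g = i0 (∑ c_s j0^(l² s))`.
* level `l` : `coords1` from `span1`, `orth_two` (`L = l`, `W = V`).
-/

set_option autoImplicit false

open Polynomial

namespace Fermat.Agent.S36.Val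

open Fermat.Agent.Crux.G.QLink

namespace Setup

variable {l : ℕ} {K F0 F1 F2 Ω O κ Ω1 O1 ι μ : Type*} [Field K] [Field F0] [Field F1]
    [Field F2] [Field Ω] [CommRing O] [Field κ] [Field Ω1] [CommRing O1] [Fintype ι]
    [Fintype μ] (S : Setup l K F0 F1 F2 Ω O κ Ω1 O1 ι μ)

/-- truncate a coefficient family. -/
theorem Coords_truncate {F0' F2' : Type*} [Field F0'] [Field F2'] (f : F0' →+* F2') (θ : F2')
    (Pr : F0' → Prop) (h0 : Pr 0) (n : ℕ) (c : ℕ → F0') (hc : ∀ s < n, Pr (c s)) :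
    ∃ c' : ℕ → F0', (∀ s, Pr (c' s)) ∧
      ∑ s ∈ Finset.range n, f (c s) * θ ^ s = ∑ s ∈ Finset.range n, f (c' s) * θ ^ s := by
  classical
  refine ⟨fun s => if s < n then c s else 0, fun s => ?_, ?_⟩
  · by_cases hs : s < n
    · simp only [if_pos hs]; exact hc s hs
    · simp only [if_neg hs]; exact h0
  · refine Finset.sum_congr rfl fun s hs => ?_
    simp only [if_pos (Finset.mem_range.mp hs)]

theorem coords (hl : 2 ≤ l) (i : ι) (y : F2) (hy : S.Int3 i y) :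
    ∃ c : ℕ → F0, (∀ s, InV S.inc S.red (S.Φ' (c s))) ∧
      y = ∑ s ∈ Finset.range (l ^ 2 + (l - 1) + 1), S.i0 (c s) * S.j2 ^ s := by
  obtain ⟨c, hc⟩ := S.span2 y
  have hc' : y = ∑ s ∈ Finset.range (l ^ 2 + (l - 1) + 1), S.i0 (c s) * S.j2 ^ s := hc
  have hl2 : 1 < l ^ 2 := by nlinarith
  have hInt : ∀ y, S.Int3 i y → S.Int3 i (S.i0 (S.cst S.π) * y) := by
    rintro y ⟨h1, h2, h3⟩
    refine ⟨?_, ?_, ?_⟩
    · rw [map_mul, S.Φinf_i0, S.Φ'_π]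
      exact (inV_inc _).mul h1
    · rw [map_mul, S.τ_i0, S.Φ'_π, S.hbase.comm_inc]
      exact (inV_inc _).mul h2
    · rw [map_mul, S.Φ0_i0, S.Φ'_π, S.hV.comm_inc, S.hV.comm_inc]
      exact (inV_inc _).mul h3
  have horth : ∀ c : ℕ → F0, (∀ s < l ^ 2 + (l - 1) + 1, InV S.inc S.red (S.Φ' (c s))) →
      S.Int3 i ((∑ s ∈ Finset.range (l ^ 2 + (l - 1) + 1), S.i0 (c s) * S.j2 ^ s)
        / S.i0 (S.cst S.π)) →
      ∀ s < l ^ 2 + (l - 1) + 1, IsRes S.inc S.red (S.Φ' (c s)) 0 := by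
    intro c hc hI
    exact orth_three S.P S.P1 S.hbase (l ^ 2) (l - 1) (by omega) S.u S.hϖ S.hVV
      (by simp [S.hVϖ]) S.i0 S.Φ' S.Φinf S.Φ0 (S.τ i) S.Φinf_i0 S.Φ0_i0 (S.τ_i0 i)
      (S.cst S.π) S.Φ'_π S.J (S.D i) (S.hD i) S.j2 S.Φinf_j2 S.Φ0_j2 (S.τ_j2 i) S.hJJ S.hind2
      (S.hne _ hl2) (by rw [← pow_mul]; exact S.hne _ (by nlinarith)) c hc hI.1 hI.2.1 hI.2.2
  have h := coords_of_orth S.P S.i0 S.Φ' S.frac' (S.cst S.π) S.Φ'_π S.j2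
    (l ^ 2 + (l - 1) + 1) (S.Int3 i) hInt horth c (hc' ▸ hy)
  obtain ⟨c', h1, h2⟩ := Coords_truncate S.i0 S.j2 (fun x => InV S.inc S.red (S.Φ' x))
    (by rw [map_zero]; exact isRes_zero.inV) _ c h
  exact ⟨c', h1, hc'.trans h2⟩

theorem res_of_coords (c : ℕ → F0) (cb : ℕ → κ) (n : ℕ)
    (hc : ∀ s, IsRes S.inc S.red (S.Φ' (c s)) (cb s)) :
    IsRes S.inc S.red (S.Φinf (∑ s ∈ Finset.range n, S.i0 (c s) * S.j2 ^ s))
      (∑ s ∈ Finset.range n, cb s * (S.Jb ^ (l ^ 2)) ^ s) ∧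
    (∀ i, IsRes S.inc1 S.red1 (S.τ i (∑ s ∈ Finset.range n, S.i0 (c s) * S.j2 ^ s))
      (∑ s ∈ Finset.range n, cb s * S.Jb ^ s)) ∧
    IsRes S.inc S.red (S.Φ0 (∑ s ∈ Finset.range n, S.i0 (c s) * S.j2 ^ s))
      (∑ s ∈ Finset.range n, S.Vκ (S.Vκ (cb s)) * S.Jb ^ s) := by
  refine ⟨?_, fun i => ?_, ?_⟩
  · rw [map_sum]
    refine IsRes.sum _ fun s _ => ?_
    rw [map_mul, map_pow, S.Φinf_i0, S.Φinf_j2]
    have h1 : S.red (S.VO (S.VO S.J)) = S.Jb ^ (l ^ 2) := by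
      rw [S.hV.comm_red, S.hV.comm_red, S.hJJ]
      rfl
    rw [← h1]
    exact (hc s).mul ((isRes_inc _).pow s)
  · rw [map_sum]
    refine IsRes.sum _ fun s _ => ?_
    rw [map_mul, map_pow, S.τ_i0, S.τ_j2]
    have h1 : S.red1 (S.baseO S.J + S.lam * S.D i) = S.Jb := by
      rw [map_add, map_mul, S.P1.red_unif, zero_mul, add_zero, S.hbase.comm_red]
      rfl
    rw [← h1]
    exact (S.hbase.isRes (hc s)).mul ((isRes_inc _).pow s)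
  · rw [map_sum]
    refine IsRes.sum _ fun s _ => ?_
    rw [map_mul, map_pow, S.Φ0_i0, S.Φ0_j2]
    exact (S.hV.isRes (S.hV.isRes (hc s))).mul ((isRes_inc _).pow s)

theorem int3_indep (hl : 2 ≤ l) (i i' : ι) (y : F2) (hy : S.Int3 i y) : S.Int3 i' y := by
  obtain ⟨c, hc, rfl⟩ := S.coords hl i y hy
  choose cb hcb using fun s => inV_iff.1 (hc s)
  exact ⟨hy.1, ((S.res_of_coords c cb _ hcb).2.1 i').inV, hy.2.2⟩

theorem res_indep (hl : 2 ≤ l) (i i' : ι) (y : F2) (hy : S.Int3 i y) (b : κ)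
    (hb : (S.Pm i).Res y b) : (S.Pm i').Res y b := by
  obtain ⟨c, hc, rfl⟩ := S.coords hl i y hy
  choose cb hcb using fun s => inV_iff.1 (hc s)
  have h1 := (S.res_of_coords c cb (l ^ 2 + (l - 1) + 1) hcb).2.1
  have hb' : IsRes S.inc1 S.red1
      (S.τ i (∑ s ∈ Finset.range (l ^ 2 + (l - 1) + 1), S.i0 (c s) * S.j2 ^ s)) b := hb
  rw [hb'.unique S.P1.inj (h1 i)]
  exact h1 i'

theorem deg_one (hl : 2 ≤ l) (i : ι) (y : F2) (a b c : κ)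
    (hy : Res3 S.Pinf (S.Pm i) S.P0 y a b c) :
    ∃ g, Res3 S.Pinf (S.Pm i) S.P0 g a a (S.Vκ (S.Vκ a)) := by
  have h1 : IsRes S.inc S.red (S.Φinf y) a := hy.1
  have h2 : IsRes S.inc1 S.red1 (S.τ i y) b := hy.2.1
  have h3 : IsRes S.inc S.red (S.Φ0 y) c := hy.2.2
  obtain ⟨d, hd, rfl⟩ := S.coords hl i y ⟨h1.inV, h2.inV, h3.inV⟩
  choose db hdb using fun s => inV_iff.1 (hd s)
  have ha := h1.unique S.P.inj (S.res_of_coords d db _ hdb).1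
  have hx : IsRes S.inc S.red
      (S.Φ' (∑ s ∈ Finset.range (l ^ 2 + (l - 1) + 1), d s * (S.j0 ^ (l ^ 2)) ^ s)) a := by
    rw [ha, map_sum]
    refine IsRes.sum _ fun s _ => ?_
    rw [map_mul, map_pow, map_pow, S.Φ'_j0]
    exact (hdb s).mul (((isRes_inc _).pow _).pow s)
  refine ⟨S.i0 (∑ s ∈ Finset.range (l ^ 2 + (l - 1) + 1), d s * (S.j0 ^ (l ^ 2)) ^ s),
    ?_, ?_, ?_⟩
  · show IsRes S.inc S.red (S.Φinf _) a
    rw [S.Φinf_i0]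
    exact hx
  · show IsRes S.inc1 S.red1 (S.τ i _) a
    rw [S.τ_i0]
    exact S.hbase.isRes hx
  · show IsRes S.inc S.red (S.Φ0 _) _
    rw [S.Φ0_i0]
    exact S.hV.isRes (S.hV.isRes hx)

/-- level `l`. -/
theorem coords1 (hl : 2 ≤ l) (y : F1) (hy : S.Int2 y) :
    ∃ c : ℕ → F0, (∀ s, InV S.inc S.red (S.Φ' (c s))) ∧
      y = ∑ s ∈ Finset.range (l + 1), S.a0 (c s) * S.j1 ^ s := by
  obtain ⟨c, hc⟩ := S.span1 y
  have hInt : ∀ y, S.Int2 y → S.Int2 (S.a0 (S.cst S.π) * y) := by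
    rintro y ⟨h1, h3⟩
    refine ⟨?_, ?_⟩
    · rw [map_mul, S.Ψinf_a0, S.Φ'_π]
      exact (inV_inc _).mul h1
    · rw [map_mul, S.Ψ0_a0, S.Φ'_π, S.hV.comm_inc]
      exact (inV_inc _).mul h3
  have horth : ∀ c : ℕ → F0, (∀ s < l + 1, InV S.inc S.red (S.Φ' (c s))) →
      S.Int2 ((∑ s ∈ Finset.range (l + 1), S.a0 (c s) * S.j1 ^ s) / S.a0 (S.cst S.π)) →
      ∀ s < l + 1, IsRes S.inc S.red (S.Φ' (c s)) 0 := by
    intro c hc hI
    exact orth_two S.P l (by omega) S.hV S.hVϖ S.a0 S.Φ' S.Ψinf S.Ψ0 S.Ψinf_a0 S.Ψ0_a0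
      (S.cst S.π) S.Φ'_π S.J S.j1 S.Ψinf_j1 S.Ψ0_j1 S.hJ S.hind1
      (S.hne _ (by omega)) (by rw [← pow_mul]; exact S.hne _ (by nlinarith)) c hc hI.1 hI.2
  have h := coords_of_orth S.P S.a0 S.Φ' S.frac' (S.cst S.π) S.Φ'_π S.j1
    (l + 1) S.Int2 hInt horth c (hc ▸ hy)
  obtain ⟨c', h1, h2⟩ := Coords_truncate S.a0 S.j1 (fun x => InV S.inc S.red (S.Φ' x))
    (by rw [map_zero]; exact isRes_zero.inV) _ c h
  exact ⟨c', h1, hc.trans h2⟩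

end Setup

end Fermat.Agent.S36.Val
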