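import Fermat.Agent.S36.Val.Place
import Fermat.Agent.Crux.GM.NormalA
import Fermat.Agent.ES.Defs

/-!
# S36 / Val / Gauss : the Gauss place of `A((q))` and its morphisms   (task `S36/V-Gauss`)

`A` a DVR, `φ : A ↪ Kb` (any field), `r : A ↠ k`.  `inc = coeffMap φ`, `red = coeffMap r`, `ϖ = C π`.
* `isPlace_gauss` : `fac = Crux.GM.Normal.exists_pow_mul_red_ne_zero`, `red_unif`: `r π = 0`
  (`Crux.GM.Normal.map_irreducible_eq_zero'`), injectivity coefficientwise.
* `placeHom_V` : `ModularCurve.coeffMap_qExpand`.   * `placeHom_twist` : coefficientwise (`twist_coeff`, `map_zpow`-type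
  lemma for units: `Units.map`), `r z = 1`.   * `placeHom_base`.
-/

set_option autoImplicit false
set_option linter.unusedSectionVars false

open ModularCurve

namespace Fermat.Agent.S36.Val

open Fermat.Agent.ES (twist)

variable {A k Kb : Type*} [CommRing A] [IsDomain A] [IsDiscreteValuationRing A] [Field k] [Field Kb]
  (φ : A →+* Kb) (r : A →+* k) {π : A}

theorem isPlace_gauss (hφ : Function.Injective φ) (hr : Function.Surjective r)
    (hπ : Irreducible π) : IsPlace (coeffMap φ) (coeffMap r) (HahnSeries.C π) := by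
  refine ⟨?_, ?_, ?_, ?_⟩
  · intro x y hxy
    ext n
    apply hφ
    have := congrArg (fun z => HahnSeries.coeff z n) hxy
    simpa using this
  · rw [HahnSeries.C_apply, coeffMap_single,
      Fermat.Agent.Crux.GM.Normal.map_irreducible_eq_zero' r hr hπ, HahnSeries.single_eq_zero]
  · intro h
    rw [HahnSeries.C_apply, HahnSeries.single_eq_zero_iff] at h
    exact hπ.ne_zero h
  · intro g hg
    exact Fermat.Agent.Crux.GM.Normal.exists_pow_mul_red_ne_zero r hr hπ g hg

/-- `coeffMap` commutes with `q ↦ q ^ l`. -/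
theorem gauss_coeffMap_qExpand {R S : Type*} [CommRing R] [CommRing S] (f : R →+* S) (l : ℕ)
    [NeZero l] (x : LaurentSeries R) :
    coeffMap f (qExpand R l x) = qExpand S l (coeffMap f x) := by
  ext n
  by_cases hn : (l : ℤ) ∣ n
  · obtain ⟨m, rfl⟩ := hn
    rw [coeffMap_coeff, qExpand_coeff_mul, qExpand_coeff_mul, coeffMap_coeff]
  · rw [coeffMap_coeff, qExpand_coeff_of_not_dvd _ _ hn, qExpand_coeff_of_not_dvd _ _ hn, map_zero]

theorem placeHom_V (l : ℕ) [NeZero l] :
    PlaceHom (coeffMap φ) (coeffMap r) (coeffMap φ) (coeffMap r) (qExpand Kb l) (qExpand A l)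
      (qExpand k l) :=
  ⟨fun g => (gauss_coeffMap_qExpand φ l g).symm, fun g => gauss_coeffMap_qExpand r l g⟩

theorem qExpand_C (l : ℕ) [NeZero l] (a : A) :
    qExpand A l (HahnSeries.C a) = HahnSeries.C a :=
  ModularCurve.qExpand_C l a

theorem placeHom_twist (z : Aˣ) (hz : r z = 1) :
    PlaceHom (coeffMap φ) (coeffMap r) (coeffMap φ) (coeffMap r) (twist (Units.map φ.toMonoidHom z))
      (twist z) (RingHom.id _) := by
  refine ⟨fun g => ?_, fun g => ?_⟩
  · ext n
    rw [Fermat.Agent.ES.twist_coeff, coeffMap_coeff, coeffMap_coeff, Fermat.Agent.ES.twist_coeff,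
      map_mul, ← map_zpow]
    rfl
  · ext n
    rw [coeffMap_coeff, Fermat.Agent.ES.twist_coeff, map_mul, RingHom.id_apply, coeffMap_coeff]
    have h1 : Units.map r.toMonoidHom z = 1 := Units.ext hz
    have h2 : r ((z ^ n : Aˣ) : A) = ((Units.map r.toMonoidHom z) ^ n : kˣ) := by
      rw [← map_zpow]
      rfl
    rw [h2, h1, one_zpow, Units.val_one, one_mul]

theorem twist_C (z : Aˣ) (a : A) : twist z (HahnSeries.C a) = HahnSeries.C a := by
  ext n
  rw [Fermat.Agent.ES.twist_coeff, HahnSeries.C_apply]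
  rcases eq_or_ne n 0 with rfl | h
  · simp
  · rw [HahnSeries.coeff_single_of_ne h, mul_zero]

theorem placeHom_base {A1 : Type*} [CommRing A1] (ψ : A →+* A1) (φ1 : A1 →+* Kb) (r1 : A1 →+* k)
    (h1 : ∀ a, φ1 (ψ a) = φ a) (h2 : ∀ a, r1 (ψ a) = r a) :
    PlaceHom (coeffMap φ) (coeffMap r) (coeffMap φ1) (coeffMap r1) (RingHom.id _) (coeffMap ψ)
      (RingHom.id _) := by
  refine ⟨fun g => ?_, fun g => ?_⟩
  · ext n
    simp [h1]
  · ext n
    simp [h2]

end Fermat.Agent.S36.Val
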