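import Fermat.Agent.S36.Val.NormFacts

/-!
# S36 / Val / Main : "#1240 (2)" = `exists_W`   (task `S36/V-Main`)

`int3_pow_sub_one`: `y` has residue `1` at the three places.  At `∞`, `0`: `Φ y = 1 + ϖ a`, `a ∈ V'`
(`IsRes.exists_eq_unif_mul`), so `Φ (y^l - 1) ∈ ϖ V'` (geometric sum / `Commute.add_pow` /
`sub_dvd_pow_sub_pow` in the subring `vSubring`).  At `mid`: `τ y = 1 + lam b`;
`exists_add_pow_prime_eq` in the subring `vSubring inc1 red1`: `(1 + lam b)^l = 1 + (lam b)^l + l r`,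
`lam^l ∈ lam^(l-1) V'_1`, `l ∈ ϖ O` (`S.hlϖ`), `base (inc ϖ) = inc1 u * inc1 lam^(l-1)`, `u` a unit.
`exists_W`: `exists_res_one` (Abs.lean) for `Pm = S.Pm i₀` (`ι` is nonempty by `card_ι`), with all the
hypotheses from `Elems, Coords, NormFacts`; `hK` from `S.hK` (`Ψinf_a0, Ψ0_a0`, `hV.isRes`); then
`W = (c0 f^((l+1)(l-1)) h^m)^l`, `int3_pow_sub_one`, `int3_indep`.
-/

set_option autoImplicit false

open Polynomial

namespace Fermat.Agent.S36.Val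

open Fermat.Agent.Crux.G.QLink

section aux

variable {Ω O κ : Type*} [Field Ω] [CommRing O] [Field κ] {inc : O →+* Ω} {red : O →+* κ} {ϖ : O}

/-- `a ≡ 1 mod ϖ` ⟹ `a ^ n ≡ 1 mod ϖ`. -/
theorem Main_inV_pow_sub_one (P : IsPlace inc red ϖ) {a : Ω} (ha : IsRes inc red a 1) (n : ℕ) :
    InV inc red ((a ^ n - 1) / inc ϖ) := by
  have h0 : IsRes inc red (a - 1) 0 := by simpa using ha.sub isRes_one
  obtain ⟨a', ha', e⟩ := h0.exists_eq_unif_mul P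
  have h1 : (a ^ n - 1) / inc ϖ = (∑ k ∈ Finset.range n, a ^ k) * a' := by
    rw [← geom_sum_mul, e, div_eq_iff P.unif_ne_zero]
    ring
  rw [h1]
  exact (IsRes.sum (Finset.range n) (fun k _ => ha.pow k)).inV.mul ha'

/-- `b ≡ 1 mod λ`, `l ∈ λ^(l-1) V'` ⟹ `b ^ l ≡ 1 mod λ^(l-1)`. -/
theorem Main_inV_pow_prime_sub_one (P : IsPlace inc red ϖ) {l : ℕ} (hl : l.Prime) {t : Ω}
    (ht : InV inc red t) (hlt : (l : Ω) = inc ϖ ^ (l - 1) * t) {b : Ω} (hb : IsRes inc red b 1) :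
    InV inc red ((b ^ l - 1) / inc ϖ ^ (l - 1)) := by
  have h0 : IsRes inc red (b - 1) 0 := by simpa using hb.sub isRes_one
  obtain ⟨b', hb', e⟩ := h0.exists_eq_unif_mul P
  have hϖV : InV inc red (inc ϖ) := inV_inc ϖ
  obtain ⟨r, hr⟩ := exists_add_pow_prime_eq hl (1 : vSubring inc red)
    (⟨inc ϖ * b', hϖV.mul hb'⟩ : vSubring inc red)
  have hr' := congrArg (fun w : vSubring inc red => (w : Ω)) hr
  simp only [Subring.coe_add, Subring.coe_pow, Subring.coe_one, Subring.coe_mul,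
    Subring.coe_natCast] at hr'
  have hb1 : b = 1 + inc ϖ * b' := by rw [← e]; ring
  have hll : l = (l - 1) + 1 := by have := hl.pos; omega
  have h1 : (b ^ l - 1) / inc ϖ ^ (l - 1)
      = inc ϖ * b' ^ l + t * (inc ϖ * b') * (r : Ω) := by
    rw [div_eq_iff (pow_ne_zero _ P.unif_ne_zero), hb1, hr', hlt, one_pow, mul_pow]
    have : inc ϖ ^ l = inc ϖ ^ (l - 1) * inc ϖ := by
      conv_lhs => rw [hll]
      rw [pow_succ]
    rw [this]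
    ring
  rw [h1]
  have hb'l : InV inc red (b' ^ l) := (vSubring inc red).pow_mem hb' l
  exact (hϖV.mul hb'l).add ((ht.mul (hϖV.mul hb')).mul r.2)

end aux

namespace Setup

variable {l : ℕ} {K F0 F1 F2 Ω O κ Ω1 O1 ι μ : Type*} [Field K] [Field F0] [Field F1]
    [Field F2] [Field Ω] [CommRing O] [Field κ] [Field Ω1] [CommRing O1] [Fintype ι]
    [Fintype μ] (S : Setup l K F0 F1 F2 Ω O κ Ω1 O1 ι μ)

theorem Main_Φinf_π : S.Φinf (S.c2 S.π) = S.inc S.ϖ := by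
  change S.Φinf (S.i0 (S.cst S.π)) = _
  rw [S.Φinf_i0, S.Φ'_π]

theorem Main_Φ0_π : S.Φ0 (S.c2 S.π) = S.inc S.ϖ := by
  change S.Φ0 (S.i0 (S.cst S.π)) = _
  rw [S.Φ0_i0, S.Φ'_π, S.hV.comm_inc, S.hVϖ, S.hV.comm_inc, S.hVϖ]

theorem Main_τ_π (i : ι) : S.τ i (S.c2 S.π) = S.inc1 S.u * S.inc1 S.lam ^ (l - 1) := by
  change S.τ i (S.i0 (S.cst S.π)) = _
  rw [S.τ_i0, S.Φ'_π, S.hbase.comm_inc, S.hϖ, map_mul, map_pow]

theorem int3_pow_sub_one (hl : l.Prime) (i : ι) (y : F2)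
    (hy : Res3 S.Pinf (S.Pm i) S.P0 y 1 1 1) : S.Int3 i ((y ^ l - 1) / S.c2 S.π) := by
  obtain ⟨h1, h2, h3⟩ := hy
  refine ⟨?_, ?_, ?_⟩
  · rw [map_div₀, map_sub, map_pow, map_one, S.Main_Φinf_π]
    exact Main_inV_pow_sub_one S.P h1 l
  · rw [map_div₀, map_sub, map_pow, map_one, S.Main_τ_π]
    obtain ⟨s, hs⟩ := S.hlϖ
    have hlt : (l : Ω1) = S.inc1 S.lam ^ (l - 1) * S.inc1 (S.u * S.baseO s) := by
      have e1 : (l : Ω1) = S.inc1 (S.baseO (l : O)) := by simp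
      rw [e1, hs, map_mul, S.hϖ, map_mul, map_mul, map_mul, map_pow]
      ring
    have h4 := Main_inV_pow_prime_sub_one S.P1 hl (inV_inc _) hlt h2
    have h5 : InV S.inc1 S.red1 (S.inc1 S.u)⁻¹ := ((isRes_inc S.u).inv S.P1.inj S.hu).inV
    have e2 : (S.τ i y ^ l - 1) / (S.inc1 S.u * S.inc1 S.lam ^ (l - 1))
        = (S.τ i y ^ l - 1) / S.inc1 S.lam ^ (l - 1) * (S.inc1 S.u)⁻¹ := by
      rw [div_mul_eq_div_div_swap, div_eq_mul_inv _ (S.inc1 S.u)]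
    rw [e2]
    exact h4.mul h5
  · rw [map_div₀, map_sub, map_pow, map_one, S.Main_Φ0_π]
    exact Main_inV_pow_sub_one S.P h3 l

/-- **"#1240 (2)"**: the norm conditions make `f^((l²-1) l)` a Kummer-equivalent of an element
`W ≡ 1 mod π O_{F2}`. -/
theorem exists_W (hl : l.Prime) (m : ℕ) (hm : 0 < m) (hlm : l.Coprime m) (f : F2) (hf : f ≠ 0)
    (k1 k2 : K) (hk1 : k1 ≠ 0) (hk2 : k2 ≠ 0) (h1 h2 : F1)
    (hfA : S.NmA f = S.a0 (S.cst k1) * h1 ^ m) (hfB : S.NmB f = S.a0 (S.cst k2) * h2 ^ m) :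
    ∃ (c0 : K) (h : F2), c0 ≠ 0 ∧ h ≠ 0 ∧
      ∀ i, S.Int3 i ((S.c2 c0 * f ^ ((l + 1) * (l - 1) * l) * h ^ m - 1) / S.c2 S.π) := by
  have hl2 : 2 ≤ l := hl.two_le
  obtain ⟨i₀⟩ : Nonempty ι := by
    rw [← Fintype.card_pos_iff, S.card_ι]
    omega
  obtain ⟨einf, em, e0, heinf, hem, he0⟩ := S.exists_idem hl2 i₀
  obtain ⟨hπ1, hπ2, hπ3⟩ := S.ord_π hl2 i₀
  have hK : ∀ c : K, c ≠ 0 → ∃ (n : ℤ) (e u : K), c = S.π ^ n * e ^ m * u ∧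
      S.Qinf.Res ((S.a0.comp S.cst) u) 1 ∧ S.Q0.Res ((S.a0.comp S.cst) u) 1 := by
    intro c hc
    obtain ⟨n, e, u, hcu, hu⟩ := S.hK m hm c hc
    refine ⟨n, e, u, hcu, ?_, ?_⟩
    · change IsRes S.inc S.red (S.Ψinf (S.a0 (S.cst u))) 1
      rw [S.Ψinf_a0]
      exact hu
    · change IsRes S.inc S.red (S.Ψ0 (S.a0 (S.cst u))) 1
      rw [S.Ψ0_a0]
      have := S.hV.isRes hu
      rwa [map_one] at this
  have hπQinf : S.Qinf.Ord 1 ((S.a0.comp S.cst) S.π) := by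
    change IsOrd S.inc S.red S.ϖ 1 (S.Ψinf (S.a0 (S.cst S.π)))
    rw [S.Ψinf_a0, S.Φ'_π]
    exact isOrd_unif S.P
  have hπQ0 : S.Q0.Ord 1 ((S.a0.comp S.cst) S.π) := by
    change IsOrd S.inc S.red S.ϖ 1 (S.Ψ0 (S.a0 (S.cst S.π)))
    rw [S.Ψ0_a0, S.Φ'_π, S.hV.comm_inc, S.hVϖ]
    exact isOrd_unif S.P
  obtain ⟨c0, h, hc0, hh, hres⟩ := exists_res_one l m hl2 hm hlm S.Pinf (S.Pm i₀) S.P0 S.Qinf S.Q0
    (S.a0.comp S.cst) S.al S.be S.NmA S.NmB S.Vκ S.π hK S.be_cst hπQinf hπQ0 hπ1 hπ2 hπ3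
    S.NmA_al S.NmB_be (S.ordAinf hl2 i₀) (S.ordA0 hl2) (S.ordBinf hl2) (S.ordB0 hl2 i₀)
    (S.resAinf hl2 i₀) (S.resA0 hl2 i₀) (S.resBinf hl2 i₀) (S.res3_al i₀) (S.res3_be i₀)
    (S.deg_one hl2 i₀) S.Tinf S.Z (S.ord_Tinf hl2 i₀) (S.ord_Z hl2 i₀) einf em e0 heinf hem he0
    f hf k1 k2 hk1 hk2 h1 h2 hfA hfB
  refine ⟨c0 ^ l, h ^ l, pow_ne_zero _ hc0, pow_ne_zero _ hh, fun i => ?_⟩
  have h3 := S.int3_pow_sub_one hl i₀ _ hres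
  have e : (S.al ((S.a0.comp S.cst) c0) * f ^ ((l + 1) * (l - 1)) * h ^ m) ^ l
      = S.c2 (c0 ^ l) * f ^ ((l + 1) * (l - 1) * l) * (h ^ l) ^ m := by
    have : S.al ((S.a0.comp S.cst) c0) = S.c2 c0 := rfl
    rw [this, mul_pow, mul_pow, map_pow, ← pow_mul, ← pow_mul, ← pow_mul, mul_comm m l]
  rw [e] at h3
  exact S.int3_indep hl2 i₀ i _ h3

end Setup

end Fermat.Agent.S36.Val
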