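import Fermat.Agent.S36.Val.Unif

/-!
# S36 / Val / NormFacts : orders and residues of the two norms   (task `S36/V-NormFacts`)

All from the four identities `S.NAinf, S.NBinf, S.NA0, S.NB0` in `Ω1`:
* `base` multiplies orders by `l - 1` and preserves residues (`S.hbase.isOrd/isRes` with `S.hϖ, S.hu`);
  descent: `PlaceHom.isOrd_of_map`, `PlaceHom.isRes_of_map` (`e = l - 1 > 0`);
* `V` and `tw ζ` preserve orders (`PlaceHom.isOrd` with `e = 1`, `u = 1`, `S.hVϖ`, `S.htwlam`),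
  `tw ζ` preserves residues, `V` acts by `Vκ`;
* `IsOrd.prod`, `IsRes.prod`, `Finset.sum_const`, `Finset.prod_const`, `S.card_ι`, `S.card_μ`;
* `ord_indep`, `res_indep` : the `l - 1` factors `τ i y` have the same order / residue.
E.g. `ordAinf`: `base (Ψinf (NmA y))` has order `(l-1) a + ∑_i b = (l-1)(a+b)`.
`resA0`: `base (V (Ψ0 (NmA y)))` has residue `Vκ d` and `∏_ζ c = c^l`.
-/

set_option autoImplicit false

open Polynomial

namespace Fermat.Agent.S36.Val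

open Fermat.Agent.Crux.G.QLink


namespace Setup

variable {l : ℕ} {K F0 F1 F2 Ω O κ Ω1 O1 ι μ : Type*} [Field K] [Field F0] [Field F1]
    [Field F2] [Field Ω] [CommRing O] [Field κ] [Field Ω1] [CommRing O1] [Fintype ι]
    [Fintype μ] (S : Setup l K F0 F1 F2 Ω O κ Ω1 O1 ι μ)

/-! ### helpers -/

theorem NF_base_ord {n : ℤ} {a : Ω} (h : IsOrd S.inc S.red S.ϖ n a) :
    IsOrd S.inc1 S.red1 S.lam (((l - 1 : ℕ) : ℤ) * n) (S.base a) :=
  S.hbase.isOrd S.P S.P1 (l - 1) S.u S.hu S.hϖ h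

theorem NF_base_ord_desc (hl : 2 ≤ l) {n : ℤ} {a : Ω} (hf : IsFrac S.inc a)
    (h : IsOrd S.inc1 S.red1 S.lam (((l - 1 : ℕ) : ℤ) * n) (S.base a)) :
    IsOrd S.inc S.red S.ϖ n a :=
  S.hbase.isOrd_of_map S.P S.P1 (l - 1) (by omega) S.u S.hu S.hϖ hf h

theorem NF_red_one_ne : S.red 1 ≠ 0 := by
  rw [map_one]; exact one_ne_zero

theorem NF_red1_one_ne : S.red1 1 ≠ 0 := by
  rw [map_one]; exact one_ne_zero

theorem NF_V_ord_desc {n : ℤ} {a : Ω} (hf : IsFrac S.inc a)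
    (h : IsOrd S.inc S.red S.ϖ n (S.V a)) : IsOrd S.inc S.red S.ϖ n a :=
  S.hV.isOrd_of_map S.P S.P 1 one_pos 1 S.NF_red_one_ne (by rw [S.hVϖ]; ring) hf
    (by simpa using h)

theorem NF_tw_ord (ζ : μ) {n : ℤ} {a : Ω1} (h : IsOrd S.inc1 S.red1 S.lam n a) :
    IsOrd S.inc1 S.red1 S.lam n (S.tw ζ a) := by
  have := (S.htw ζ).isOrd S.P1 S.P1 1 1 S.NF_red1_one_ne (by rw [S.htwlam]; ring) h
  simpa using this

theorem NF_V_frac {a : Ω} (hf : IsFrac S.inc a) : IsFrac S.inc (S.V a) :=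
  S.hV.isFrac S.P.inj S.P.inj hf

theorem NF_base_res {a : Ω} {c : κ} (h : IsRes S.inc S.red a c) :
    IsRes S.inc1 S.red1 (S.base a) c := S.hbase.isRes h

theorem NF_tw_res (ζ : μ) {a : Ω1} {c : κ} (h : IsRes S.inc1 S.red1 a c) :
    IsRes S.inc1 S.red1 (S.tw ζ a) c := (S.htw ζ).isRes h

theorem NF_base_res_desc (hl : 2 ≤ l) {a : Ω} {c : κ} (hf : IsFrac S.inc a)
    (h : IsRes S.inc1 S.red1 (S.base a) c) : IsRes S.inc S.red a c := by
  obtain ⟨c', h1, h2⟩ := S.hbase.isRes_of_map S.P S.P1 (l - 1) (by omega) S.u S.hu S.hϖ hf h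
  rw [RingHom.id_apply] at h2
  rwa [← h2]

theorem NF_int3 {i : ι} {y : F2} {a b c : κ} (hy : Res3 S.Pinf (S.Pm i) S.P0 y a b c) :
    S.Int3 i y :=
  ⟨IsRes.inV hy.1, IsRes.inV hy.2.1, IsRes.inV hy.2.2⟩

/-- order of `∏_ζ tw ζ (base a)`. -/
theorem NF_ord_prod_tw {n : ℤ} {a : Ω} (h : IsOrd S.inc S.red S.ϖ n a) :
    IsOrd S.inc1 S.red1 S.lam (((l - 1 : ℕ) : ℤ) * ((l : ℤ) * n)) (∏ ζ, S.tw ζ (S.base a)) := by
  have := IsOrd.prod S.P1 Finset.univ (a := fun ζ => S.tw ζ (S.base a))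
    (n := fun _ => ((l - 1 : ℕ) : ℤ) * n) (fun ζ _ => S.NF_tw_ord ζ (S.NF_base_ord h))
  rw [Finset.sum_const, Finset.card_univ, S.card_μ, nsmul_eq_mul] at this
  convert this using 1
  ring

/-- residue of `∏_ζ tw ζ (base a)`. -/
theorem NF_res_prod_tw {a : Ω} {c : κ} (h : IsRes S.inc S.red a c) :
    IsRes S.inc1 S.red1 (∏ ζ, S.tw ζ (S.base a)) (c ^ l) := by
  have := IsRes.prod (inc := S.inc1) (red := S.red1) Finset.univ
    (a := fun ζ => S.tw ζ (S.base a)) (c := fun _ => c)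
    (fun ζ _ => S.NF_tw_res ζ (S.NF_base_res h))
  rwa [Finset.prod_const, Finset.card_univ, S.card_μ] at this

/-! ### the nine lemmas -/

theorem ordAinf (hl : 2 ≤ l) (i : ι) (y : F2) (a b : ℤ) (ha : S.Pinf.Ord a y)
    (hb : (S.Pm i).Ord b y) : S.Qinf.Ord (a + b) (S.NmA y) := by
  refine S.NF_base_ord_desc hl (S.fracΨinf _) ?_
  rw [S.NAinf]
  have h1 := IsOrd.prod S.P1 Finset.univ (a := fun i' => S.τ i' y) (n := fun _ => b)
    (fun i' _ => S.ord_indep hl i i' y b hb)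
  rw [Finset.sum_const, Finset.card_univ, S.card_ι, nsmul_eq_mul] at h1
  have h2 := (S.NF_base_ord ha).mul S.P1 h1
  convert h2 using 1
  ring

theorem ordA0 (hl : 2 ≤ l) (y : F2) (a : ℤ) (ha : S.P0.Ord a y) :
    S.Q0.Ord (l * a) (S.NmA y) := by
  refine S.NF_V_ord_desc (S.fracΨ0 _) (S.NF_base_ord_desc hl (S.NF_V_frac (S.fracΨ0 _)) ?_)
  rw [S.NA0]
  exact S.NF_ord_prod_tw ha

theorem ordBinf (hl : 2 ≤ l) (y : F2) (a : ℤ) (ha : S.Pinf.Ord a y) :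
    S.Qinf.Ord (l * a) (S.NmB y) := by
  refine S.NF_V_ord_desc (S.fracΨinf _) (S.NF_base_ord_desc hl (S.NF_V_frac (S.fracΨinf _)) ?_)
  rw [S.NBinf]
  exact S.NF_ord_prod_tw ha

theorem ordB0 (hl : 2 ≤ l) (i : ι) (y : F2) (a b : ℤ) (ha : S.P0.Ord a y)
    (hb : (S.Pm i).Ord b y) : S.Q0.Ord (a + b) (S.NmB y) := by
  refine S.NF_base_ord_desc hl (S.fracΨ0 _) ?_
  rw [S.NB0]
  have h1 := IsOrd.prod S.P1 Finset.univ (a := fun i' => S.tw (S.ζ i') (S.τ (S.ν i') y))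
    (n := fun _ => b) (fun i' _ => S.NF_tw_ord _ (S.ord_indep hl i (S.ν i') y b hb))
  rw [Finset.sum_const, Finset.card_univ, S.card_ι, nsmul_eq_mul] at h1
  have h2 := (S.NF_base_ord ha).mul S.P1 h1
  convert h2 using 1
  ring

theorem resAinf (hl : 2 ≤ l) (i : ι) (y : F2) (a b c : κ)
    (hy : Res3 S.Pinf (S.Pm i) S.P0 y a b c) : S.Qinf.Res (S.NmA y) (a * b ^ (l - 1)) := by
  refine S.NF_base_res_desc hl (S.fracΨinf _) ?_
  rw [S.NAinf]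
  have h1 := IsRes.prod (inc := S.inc1) (red := S.red1) Finset.univ
    (a := fun i' => S.τ i' y) (c := fun _ => b)
    (fun i' _ => S.res_indep hl i i' y (S.NF_int3 hy) b hy.2.1)
  rw [Finset.prod_const, Finset.card_univ, S.card_ι] at h1
  exact (S.NF_base_res hy.1).mul h1

theorem resA0 (hl : 2 ≤ l) (i : ι) (y : F2) (a b c d : κ)
    (hy : Res3 S.Pinf (S.Pm i) S.P0 y a b c) (hd : S.Q0.Res (S.NmA y) d) : S.Vκ d = c ^ l := by
  have h1 : IsRes S.inc1 S.red1 (S.base (S.V (S.Ψ0 (S.NmA y)))) (S.Vκ d) :=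
    S.NF_base_res (S.hV.isRes hd)
  rw [S.NA0] at h1
  exact h1.unique S.P1.inj (S.NF_res_prod_tw hy.2.2)

theorem resBinf (hl : 2 ≤ l) (i : ι) (y : F2) (a b c d : κ)
    (hy : Res3 S.Pinf (S.Pm i) S.P0 y a b c) (hd : S.Qinf.Res (S.NmB y) d) : S.Vκ d = a ^ l := by
  have h1 : IsRes S.inc1 S.red1 (S.base (S.V (S.Ψinf (S.NmB y)))) (S.Vκ d) :=
    S.NF_base_res (S.hV.isRes hd)
  rw [S.NBinf] at h1
  exact h1.unique S.P1.inj (S.NF_res_prod_tw hy.1)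

theorem resB0 (hl : 2 ≤ l) (i : ι) (y : F2) (a b c : κ)
    (hy : Res3 S.Pinf (S.Pm i) S.P0 y a b c) : S.Q0.Res (S.NmB y) (c * b ^ (l - 1)) := by
  refine S.NF_base_res_desc hl (S.fracΨ0 _) ?_
  rw [S.NB0]
  have h1 := IsRes.prod (inc := S.inc1) (red := S.red1) Finset.univ
    (a := fun i' => S.tw (S.ζ i') (S.τ (S.ν i') y)) (c := fun _ => b)
    (fun i' _ => S.NF_tw_res _ (S.res_indep hl i (S.ν i') y (S.NF_int3 hy) b hy.2.1))
  rw [Finset.prod_const, Finset.card_univ, S.card_ι] at h1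
  exact (S.NF_base_res hy.2.2).mul h1

theorem res3_al (i : ι) (h : F1) (c d : κ) (hc : S.Qinf.Res h c) (hd : S.Q0.Res h d) :
    Res3 S.Pinf (S.Pm i) S.P0 (S.al h) c c (S.Vκ d) := by
  refine ⟨?_, ?_, ?_⟩
  · show IsRes S.inc S.red (S.Φinf (S.al h)) c
    rw [S.Φinf_al]
    exact hc
  · show IsRes S.inc1 S.red1 (S.τ i (S.al h)) c
    rw [S.τ_al]
    exact S.NF_base_res hc
  · show IsRes S.inc S.red (S.Φ0 (S.al h)) (S.Vκ d)
    rw [S.Φ0_al]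
    exact S.hV.isRes hd

theorem res3_be (i : ι) (h : F1) (c d : κ) (hc : S.Qinf.Res h c) (hd : S.Q0.Res h d) :
    Res3 S.Pinf (S.Pm i) S.P0 (S.be h) (S.Vκ c) d d := by
  refine ⟨?_, ?_, ?_⟩
  · show IsRes S.inc S.red (S.Φinf (S.be h)) (S.Vκ c)
    rw [S.Φinf_be]
    exact S.hV.isRes hc
  · show IsRes S.inc1 S.red1 (S.τ i (S.be h)) d
    rw [S.τ_be]
    exact S.NF_tw_res _ (S.NF_base_res hd)
  · show IsRes S.inc S.red (S.Φ0 (S.be h)) d
    rw [S.Φ0_be]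
    exact hd

end Setup

end Fermat.Agent.S36.Val
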