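import Fermat.Agent.S36.Val.Place

/-!
# S36 / Val / Orth : an orthogonal family gives integral coordinates   (task `S36/V-OrthAbs`)

`F0 → F2` fields, `Φ' : F0 → Frac O` a place of `F0` with uniformiser `p0`.  `θ ∈ F2`, `n`, and a
predicate `Int` on `F2` ("integral at all the places above"), stable under multiplication by `p0`.
ORTHOGONALITY `horth`: if the `c_s` are integral and `(∑ c_s θ^s)/p0` is `Int`, then all `c_s` have
residue `0`.

* `coords_of_orth` : if `y = ∑ c_s θ^s` is `Int` then all `c_s` are integral.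
  [There is `N` with `p0^N c_s` integral for all `s < n` (`exists_isOrd`; induction on `n` or
  `Finset.sup`).  Induction on `N`: `c'_s = p0^(N+1) c_s` are integral, `(∑ c'_s θ^s)/p0 = p0^N y` is
  `Int`, so `Φ' c'_s = ϖ a'`, `a' ∈ V'` (`IsRes.exists_eq_unif_mul`), i.e. `p0^N c_s` is integral.]
* `eq_zero_of_orth` : the `θ^s`, `s < n`, are linearly independent over `F0`.
  [apply `coords_of_orth` to `p0^(-N) c_s` for all `N` (`y = 0`): the order of `c_s` is `≥ N`.]
-/

set_option autoImplicit false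

namespace Fermat.Agent.S36.Val

open Fermat.Agent.Crux.G.QLink

variable {Ω O κ : Type*} [Field Ω] [CommRing O] [Field κ] {inc : O →+* Ω} {red : O →+* κ} {ϖ : O}
variable {F0 F2 : Type*} [Field F0] [Field F2]

/-- there is a common power of the uniformiser clearing the denominators. -/
theorem orth_exists_pow (P : IsPlace inc red ϖ)
    (Φ' : F0 →+* Ω) (hfrac' : ∀ c, IsFrac inc (Φ' c)) (p0 : F0) (hp0 : Φ' p0 = inc ϖ)
    (n : ℕ) (c : ℕ → F0) :
    ∃ N : ℕ, ∀ s < n, InV inc red (Φ' (p0 ^ N * c s)) := by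
  induction n with
  | zero => exact ⟨0, fun s hs => absurd hs (Nat.not_lt_zero s)⟩
  | succ n ih =>
    obtain ⟨N, hN⟩ := ih
    have hstep : ∀ (k : ℕ) (a : F0), InV inc red (Φ' a) → InV inc red (Φ' (p0 ^ k * a)) := by
      intro k a ha
      obtain ⟨r, hr⟩ := inV_iff.1 ha
      rw [map_mul, map_pow, hp0]
      exact (((isRes_inc (inc := inc) (red := red) ϖ).pow k).mul hr).inV
    have hlast : ∃ M : ℕ, InV inc red (Φ' (p0 ^ M * c n)) := by
      by_cases h0 : Φ' (c n) = 0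
      · refine ⟨0, ?_⟩
        rw [pow_zero, one_mul, h0]
        exact isRes_zero.inV
      · obtain ⟨m, hm⟩ := exists_isOrd P (hfrac' (c n)) h0
        refine ⟨m.natAbs, ?_⟩
        rw [map_mul, map_pow, hp0]
        exact (((isOrd_unif P).pow P m.natAbs).mul P hm).inV P (by omega)
    obtain ⟨M, hM⟩ := hlast
    refine ⟨M + N, fun s hs => ?_⟩
    rcases Nat.lt_succ_iff_lt_or_eq.1 hs with hs | rfl
    · rw [pow_add, mul_assoc]
      exact hstep M _ (hN s hs)
    · rw [add_comm, pow_add, mul_assoc]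
      exact hstep N _ hM

theorem coords_of_orth (P : IsPlace inc red ϖ) (i0 : F0 →+* F2)
    (Φ' : F0 →+* Ω) (hfrac' : ∀ c, IsFrac inc (Φ' c)) (p0 : F0) (hp0 : Φ' p0 = inc ϖ)
    (θ : F2) (n : ℕ) (Int : F2 → Prop) (hInt : ∀ y, Int y → Int (i0 p0 * y))
    (horth : ∀ c : ℕ → F0, (∀ s < n, InV inc red (Φ' (c s))) →
      Int ((∑ s ∈ Finset.range n, i0 (c s) * θ ^ s) / i0 p0) →
      ∀ s < n, IsRes inc red (Φ' (c s)) 0)
    (c : ℕ → F0) (hyI : Int (∑ s ∈ Finset.range n, i0 (c s) * θ ^ s)) :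
    ∀ s < n, InV inc red (Φ' (c s)) := by
  have hp0ne : p0 ≠ 0 := by
    rintro rfl
    rw [map_zero] at hp0
    exact P.unif_ne_zero hp0.symm
  have hi0 : i0 p0 ≠ 0 := (map_ne_zero i0).2 hp0ne
  have hIntpow : ∀ N : ℕ, Int (i0 p0 ^ N * ∑ s ∈ Finset.range n, i0 (c s) * θ ^ s) := by
    intro N
    induction N with
    | zero => rwa [pow_zero, one_mul]
    | succ N ih => rw [pow_succ', mul_assoc]; exact hInt _ ih
  have key : ∀ N : ℕ, (∀ s < n, InV inc red (Φ' (p0 ^ N * c s))) →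
      ∀ s < n, InV inc red (Φ' (c s)) := by
    intro N
    induction N with
    | zero => intro h s hs; simpa using h s hs
    | succ N ih =>
      intro h
      apply ih
      have hI : Int ((∑ s ∈ Finset.range n, i0 (p0 ^ (N + 1) * c s) * θ ^ s) / i0 p0) := by
        have e : (∑ s ∈ Finset.range n, i0 (p0 ^ (N + 1) * c s) * θ ^ s) / i0 p0
            = i0 p0 ^ N * ∑ s ∈ Finset.range n, i0 (c s) * θ ^ s := by
          rw [div_eq_iff hi0, Finset.mul_sum, Finset.sum_mul]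
          refine Finset.sum_congr rfl fun s _ => ?_
          rw [map_mul, map_pow]; ring
        rw [e]; exact hIntpow N
      have h0 := horth (fun s => p0 ^ (N + 1) * c s) h hI
      intro s hs
      obtain ⟨a', ha', e⟩ := (h0 s hs).exists_eq_unif_mul P
      have : Φ' (p0 ^ N * c s) = a' := by
        apply mul_left_cancel₀ P.unif_ne_zero
        rw [← e, ← hp0, ← map_mul]
        congr 1; ring
      rw [this]; exact ha'
  obtain ⟨N, hN⟩ := orth_exists_pow P Φ' hfrac' p0 hp0 n c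
  exact key N hN

theorem eq_zero_of_orth (P : IsPlace inc red ϖ) (i0 : F0 →+* F2)
    (Φ' : F0 →+* Ω) (hfrac' : ∀ c, IsFrac inc (Φ' c)) (p0 : F0) (hp0 : Φ' p0 = inc ϖ)
    (θ : F2) (n : ℕ) (Int : F2 → Prop) (hInt : ∀ y, Int y → Int (i0 p0 * y)) (hInt0 : Int 0)
    (horth : ∀ c : ℕ → F0, (∀ s < n, InV inc red (Φ' (c s))) →
      Int ((∑ s ∈ Finset.range n, i0 (c s) * θ ^ s) / i0 p0) →
      ∀ s < n, IsRes inc red (Φ' (c s)) 0)
    (c : ℕ → F0) (hc : ∑ s ∈ Finset.range n, i0 (c s) * θ ^ s = 0) :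
    ∀ s < n, c s = 0 := by
  have hp0ne : p0 ≠ 0 := by
    rintro rfl
    rw [map_zero] at hp0
    exact P.unif_ne_zero hp0.symm
  intro s hs
  by_contra hcs
  have hΦ : Φ' (c s) ≠ 0 := (map_ne_zero Φ').2 hcs
  obtain ⟨m, hm⟩ := exists_isOrd P (hfrac' (c s)) hΦ
  have hsum : ∑ t ∈ Finset.range n, i0 (c t / p0 ^ (m.natAbs + 1)) * θ ^ t = 0 := by
    have : ∑ t ∈ Finset.range n, i0 (c t / p0 ^ (m.natAbs + 1)) * θ ^ t
        = (i0 (p0 ^ (m.natAbs + 1)))⁻¹ * ∑ t ∈ Finset.range n, i0 (c t) * θ ^ t := by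
      rw [Finset.mul_sum]
      refine Finset.sum_congr rfl fun t _ => ?_
      rw [map_div₀, div_eq_mul_inv]; ring
    rw [this, hc, mul_zero]
  have hV := coords_of_orth P i0 Φ' hfrac' p0 hp0 θ n Int hInt horth
    (fun t => c t / p0 ^ (m.natAbs + 1)) (by rw [hsum]; exact hInt0) s hs
  have hV' : InV inc red (Φ' (c s) / inc ϖ ^ (m.natAbs + 1)) := by
    have e : Φ' (c s / p0 ^ (m.natAbs + 1)) = Φ' (c s) / inc ϖ ^ (m.natAbs + 1) := by
      rw [map_div₀, map_pow, hp0]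
    rw [← e]; exact hV
  have := (hm.div P ((isOrd_unif P).pow P (m.natAbs + 1))).nonneg_of_inV P hV'
  have h2 : m ≤ (m.natAbs : ℤ) := _root_.Int.le_natAbs
  have h3 : ((m.natAbs + 1 : ℕ) : ℤ) = (m.natAbs : ℤ) + 1 := by norm_cast
  rw [h3] at this
  omega

end Fermat.Agent.S36.Val
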