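import Fermat.Agent.S36.Val.Place
import Fermat.Agent.S36.R.Defs

/-!
# S36 / Val / PData : a complete finite family of vertical places on one chart gives a `R.Model`
(tasks `S36/V-PD-rho`, `S36/V-PD-model`, `S36/V-PD-dict`)

One chart: `A`, `πA`, `[Algebra A[X] F]`, `M = integralClosure A[X] F`.  `Pl c` (`c : ι`) places of `F` with
residue maps to `κ`, `e c = v_c(π)`, `R ⊆ κ` a subring.  Hypotheses (fields of `PData`):
`complete/integral` : `O_F = {y : integral at all c}` (`Crux.G.IsOL`);  `res_mem/surj` : `res_c (M) = R`;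
`unit` : `s ∈ A[X] \ (π)` is a unit at all `c`;  `sepEl` : weak approximation;  `sat` : `O_F ∩ M[1/π] = M`.

* `rho D c : M →+* R` : choose the residue (`integral` + `IsOL.of_isIntegral`), ring hom by `res_unique`.
* `model D : R.Model M R π ι`:
  - `sat`: `π ∣ t a`, `ρ_c t ≠ 0` ⟹ `a/π = (t a/π)/t` is integral at `c` (`res_div`); `complete`, `D.sat`
    (`IsBK (a/π)` with `j = 1`).
  - `pow`: `ρ_c f = 0` ⟹ `v_c(f) ≥ 1` (or `f = 0`), `v_c(f^(e c)/π) ≥ 0`.  `U` from `sepEl c`,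
    `N = ∑ e c'` (or `Finset.sup`): `g = U^N f^(e c)/π` and `U^N` are integral at all places, so in `O_F`:
    `s₁ • U^N`, `s₂ • g` integral; `t = s₁ s₂ • U^N`, `t f^(e c) = π (s₁ s₂ • g)`.
  - `sep`: `u = s • U`.
  - `fin`: `d ≠ 0` integral: a monic `p` with `p(d) = 0`; divide by the largest power of `X`: WLOG
    `p(0) ≠ 0`; then `d ∣ p(0)` in `M`; `p(0) = (C π)^N * t`, `C π ∤ t`
    (`WfDvdMonoid.max_power_factor'`), `ρ_c t ≠ 0` by `unit`.
* dictionary: `oneMod`, `congAt`.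
-/

set_option autoImplicit false
set_option linter.unusedSectionVars false

open Polynomial

namespace Fermat.Agent.S36.Val

open Fermat.Agent.Crux.G Fermat.Agent.S36.R

/-- `y` is integral at the place `P`. -/
def APlace.Int {F κ : Type*} [Field F] [Field κ] (P : APlace F κ) (y : F) : Prop := ∃ r, P.Res y r

structure PData (A : Type*) [CommRing A] (πA : A) (F : Type*) [Field F] [Algebra A[X] F]
    (κ : Type*) [Field κ] (ι : Type*) where
  Pl : ι → APlace F κ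
  e : ι → ℕ
  R : Subring κ
  ord_pi : ∀ c, (Pl c).Ord (e c) (algebraMap A[X] F (C πA))
  e_pos : ∀ c, 0 < e c
  complete : ∀ y : F, (∀ c, (Pl c).Int y) → IsOL πA y
  integral : ∀ y : F, IsOL πA y → ∀ c, (Pl c).Int y
  res_mem : ∀ y : F, IsIntegral A[X] y → ∀ c r, (Pl c).Res y r → r ∈ R
  surj : ∀ c, ∀ r ∈ R, ∃ y : F, IsIntegral A[X] y ∧ (Pl c).Res y r
  unit : ∀ s : A[X], ¬ C πA ∣ s → ∀ c, (Pl c).Ord 0 (algebraMap A[X] F s)
  sepEl : ∀ c, ∃ U : F, (Pl c).Ord 0 U ∧ ∀ c', c' ≠ c → ∃ n : ℤ, 0 < n ∧ (Pl c').Ord n U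
  sat : ∀ y : F, IsOL πA y → IsBK πA y → IsIntegral A[X] y
  pi_ne : algebraMap A[X] F (C πA) ≠ 0

namespace APlace

variable {F κ : Type*} [Field F] [Field κ] (P : APlace F κ)

theorem pd_int_of_ord {n : ℤ} {y : F} (h : P.Ord n y) (hn : 0 ≤ n) : P.Int y := by
  rcases hn.eq_or_lt with rfl | hn
  · obtain ⟨c, -, hc⟩ := P.ord_zero_iff.1 h
    exact ⟨c, hc⟩
  · exact ⟨0, P.res_of_pos h hn⟩

theorem pd_int_mul {y y' : F} (h : P.Int y) (h' : P.Int y') : P.Int (y * y') := by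
  obtain ⟨c, hc⟩ := h
  obtain ⟨c', hc'⟩ := h'
  exact ⟨_, P.res_mul hc hc'⟩

theorem pd_int_pow {y : F} (h : P.Int y) (n : ℕ) : P.Int (y ^ n) := by
  obtain ⟨c, hc⟩ := h
  exact ⟨_, P.res_pow hc n⟩

theorem pd_ord_pos_of_res_zero {y : F} (hy : y ≠ 0) (h : P.Res y 0) :
    ∃ n : ℤ, 0 < n ∧ P.Ord n y := by
  obtain ⟨n, hn⟩ := P.ord_exists y hy
  refine ⟨n, ?_, hn⟩
  by_contra hneg
  have hn' : 0 ≤ -n := by omega
  obtain ⟨c, hc⟩ := P.pd_int_of_ord (P.ord_inv hn) hn'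
  have h1 := P.res_mul h hc
  rw [mul_inv_cancel₀ hy, zero_mul] at h1
  exact one_ne_zero (P.res_unique P.res_one h1)

end APlace

namespace PData

variable {A : Type*} [CommRing A] [IsDomain A] [IsDiscreteValuationRing A] {πA : A} {F : Type*} [Field F] [Algebra A[X] F]
  {κ : Type*} [Field κ] {ι : Type*} (D : PData A πA F κ ι)

/-- the uniformiser of the base, in `M`. -/
noncomputable def piM (A : Type*) [CommRing A] (πA : A) (F : Type*) [Field F] [Algebra A[X] F] :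
    integralClosure A[X] F := algebraMap A[X] (integralClosure A[X] F) (C πA)

theorem exists_res (hπ : Prime πA) (c : ι) (y : integralClosure A[X] F) :
    ∃ r : D.R, (D.Pl c).Res (y : F) (r : κ) := by
  obtain ⟨r, hr⟩ := D.integral y (IsOL.of_isIntegral hπ y.2) c
  exact ⟨⟨r, D.res_mem y y.2 c r hr⟩, hr⟩

/-- the reduction to the component `c`. -/
noncomputable def rho (hπ : Prime πA) (c : ι) : integralClosure A[X] F →+* D.R where
  toFun y := Classical.choose (D.exists_res hπ c y)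
  map_one' := Subtype.ext ((D.Pl c).res_unique
    (Classical.choose_spec (D.exists_res hπ c 1)) (D.Pl c).res_one)
  map_mul' x y := Subtype.ext ((D.Pl c).res_unique
    (Classical.choose_spec (D.exists_res hπ c (x * y)))
    ((D.Pl c).res_mul (Classical.choose_spec (D.exists_res hπ c x))
      (Classical.choose_spec (D.exists_res hπ c y))))
  map_zero' := Subtype.ext ((D.Pl c).res_unique
    (Classical.choose_spec (D.exists_res hπ c 0)) (D.Pl c).res_zero)
  map_add' x y := Subtype.ext ((D.Pl c).res_unique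
    (Classical.choose_spec (D.exists_res hπ c (x + y)))
    ((D.Pl c).res_add (Classical.choose_spec (D.exists_res hπ c x))
      (Classical.choose_spec (D.exists_res hπ c y))))

theorem res_rho (hπ : Prime πA) (c : ι) (y : integralClosure A[X] F) :
    (D.Pl c).Res (y : F) (D.rho hπ c y : κ) := Classical.choose_spec (D.exists_res hπ c y)

theorem rho_eq (hπ : Prime πA) (c : ι) (y : integralClosure A[X] F) (r : κ)
    (h : (D.Pl c).Res (y : F) r) : (D.rho hπ c y : κ) = r :=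
  (D.Pl c).res_unique (D.res_rho hπ c y) h

theorem rho_surj (hπ : Prime πA) (c : ι) : Function.Surjective (D.rho hπ c) := by
  rintro ⟨r, hr⟩
  obtain ⟨y, hy, h⟩ := D.surj c r hr
  exact ⟨⟨y, hy⟩, Subtype.ext (D.rho_eq hπ c ⟨y, hy⟩ r h)⟩

theorem rho_pi (hπ : Prime πA) (c : ι) : D.rho hπ c (piM A πA F) = 0 := by
  apply Subtype.ext
  apply D.rho_eq hπ c
  exact (D.Pl c).res_of_pos (D.ord_pi c) (by exact_mod_cast D.e_pos c)

theorem pd_rho_ne_zero_of_ord (hπ : Prime πA) (c : ι) (t : integralClosure A[X] F)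
    (h : (D.Pl c).Ord 0 (t : F)) : D.rho hπ c t ≠ 0 := by
  obtain ⟨r, hr, h1⟩ := (D.Pl c).ord_zero_iff.1 h
  intro h0
  apply hr
  rw [← D.rho_eq hπ c t r h1, h0]
  rfl

theorem pd_ord_of_rho_ne_zero (hπ : Prime πA) (c : ι) (t : integralClosure A[X] F)
    (h : D.rho hπ c t ≠ 0) : (D.Pl c).Ord 0 (t : F) :=
  (D.Pl c).ord_of_res (D.res_rho hπ c t) (fun h0 => h (Subtype.ext h0))

theorem pd_int_coe (hπ : Prime πA) (c : ι) (y : integralClosure A[X] F) : (D.Pl c).Int (y : F) :=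
  ⟨_, D.res_rho hπ c y⟩

theorem rho_pow [Finite ι] (hπ : Prime πA) (c : ι) (f : integralClosure A[X] F)
    (hf : D.rho hπ c f = 0) : ∃ t, D.rho hπ c t ≠ 0 ∧ piM A πA F ∣ t * f ^ D.e c := by
  classical
  have := Fintype.ofFinite ι
  by_cases hf0 : f = 0
  · refine ⟨1, by rw [map_one]; exact one_ne_zero, ?_⟩
    rw [hf0, zero_pow (D.e_pos c).ne', mul_zero]
    exact dvd_zero _
  set πF := algebraMap A[X] F (C πA) with hπF
  have hπ0 : πF ≠ 0 := D.pi_ne
  have hfF : (f : F) ≠ 0 := fun h => hf0 (Subtype.ext h)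
  have hres0 : (D.Pl c).Res (f : F) 0 := by
    have := D.res_rho hπ c f
    rwa [hf] at this
  obtain ⟨m, hm, hordf⟩ := (D.Pl c).pd_ord_pos_of_res_zero hfF hres0
  obtain ⟨U, hU0, hU⟩ := D.sepEl c
  set N : ℕ := ∑ c', D.e c' with hN
  -- `U ^ N` is integral everywhere
  have hUint : ∀ c', (D.Pl c').Int U := by
    intro c'
    by_cases hc : c' = c
    · subst hc; exact (D.Pl c').pd_int_of_ord hU0 le_rfl
    · obtain ⟨n, hn, ho⟩ := hU c' hc
      exact (D.Pl c').pd_int_of_ord ho hn.le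
  have hUN : ∀ c', (D.Pl c').Int (U ^ N) := fun c' => (D.Pl c').pd_int_pow (hUint c') N
  -- `g = U ^ N * f ^ e / π` is integral everywhere
  have hg : ∀ c', (D.Pl c').Int (U ^ N * (f : F) ^ D.e c / πF) := by
    intro c'
    by_cases hc : c' = c
    · subst hc
      have h1 : (D.Pl c').Int ((f : F) ^ D.e c' / πF) := by
        refine (D.Pl c').pd_int_of_ord ((D.Pl c').ord_div ((D.Pl c').ord_pow hordf (D.e c'))
          (D.ord_pi c')) ?_
        have : (0 : ℤ) < D.e c' := by exact_mod_cast D.e_pos c'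
        nlinarith
      have h2 := (D.Pl c').pd_int_mul (hUN c') h1
      rwa [← mul_div_assoc] at h2
    · obtain ⟨n, hn, ho⟩ := hU c' hc
      have h1 : (D.Pl c').Int (U ^ N / πF) := by
        refine (D.Pl c').pd_int_of_ord ((D.Pl c').ord_div ((D.Pl c').ord_pow ho N)
          (D.ord_pi c')) ?_
        have h3 : D.e c' ≤ N := Finset.single_le_sum (f := D.e) (fun _ _ => Nat.zero_le _)
          (Finset.mem_univ c')
        have h4 : (D.e c' : ℤ) ≤ N := by exact_mod_cast h3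
        have h5 : (0 : ℤ) ≤ N := by positivity
        nlinarith
      have h2 := (D.Pl c').pd_int_mul h1 ((D.Pl c').pd_int_pow (D.pd_int_coe hπ c' f) (D.e c))
      have e1 : U ^ N / πF * (f : F) ^ D.e c = U ^ N * (f : F) ^ D.e c / πF := by ring
      rwa [e1] at h2
  obtain ⟨s₁, hs₁, hI₁⟩ := D.complete _ hUN
  obtain ⟨s₂, hs₂, hI₂⟩ := D.complete _ hg
  have hIt : IsIntegral A[X] (s₂ • s₁ • U ^ N) := by
    rw [Algebra.smul_def]
    exact isIntegral_algebraMap.mul hI₁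
  have hIb : IsIntegral A[X] (s₁ • s₂ • (U ^ N * (f : F) ^ D.e c / πF)) := by
    rw [Algebra.smul_def]
    exact isIntegral_algebraMap.mul hI₂
  refine ⟨⟨_, hIt⟩, ?_, ⟨_, hIb⟩, Subtype.ext ?_⟩
  · apply D.pd_rho_ne_zero_of_ord hπ c
    show (D.Pl c).Ord 0 (s₂ • s₁ • U ^ N)
    rw [Algebra.smul_def, Algebra.smul_def]
    have h1 := (D.Pl c).ord_mul (D.unit s₂ hs₂ c)
      ((D.Pl c).ord_mul (D.unit s₁ hs₁ c) ((D.Pl c).ord_pow hU0 N))
    simpa using h1
  · show (s₂ • s₁ • U ^ N) * (f : F) ^ D.e c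
      = πF * (s₁ • s₂ • (U ^ N * (f : F) ^ D.e c / πF))
    simp only [Algebra.smul_def]
    field_simp

theorem rho_sat (hπ : Prime πA) (a : integralClosure A[X] F)
    (h : ∀ c, ∃ t, D.rho hπ c t ≠ 0 ∧ piM A πA F ∣ t * a) : piM A πA F ∣ a := by
  set πF := algebraMap A[X] F (C πA) with hπF
  have hπ0 : πF ≠ 0 := D.pi_ne
  have hint : ∀ c, (D.Pl c).Int ((a : F) / πF) := by
    intro c
    obtain ⟨t, ht, b, hb⟩ := h c
    have ht0 := D.pd_ord_of_rho_ne_zero hπ c t ht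
    have htne : (t : F) ≠ 0 := (D.Pl c).ord_ne_zero ht0
    have hb' : (t : F) * a = πF * b := congrArg Subtype.val hb
    have e1 : (a : F) / πF = b / t := by
      field_simp
      linear_combination hb'
    rw [e1]
    exact ⟨_, (D.Pl c).res_div (D.res_rho hπ c b) (D.res_rho hπ c t)
      (fun h0 => ht (Subtype.ext h0))⟩
  have hOL := D.complete _ hint
  have hBK : IsBK πA ((a : F) / πF) := by
    refine ⟨1, ?_⟩
    have e2 : (C πA : A[X]) ^ 1 • ((a : F) / πF) = a := by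
      rw [pow_one, Algebra.smul_def, ← hπF]
      field_simp
    rw [e2]
    exact a.2
  have hI := D.sat _ hOL hBK
  refine ⟨⟨_, hI⟩, Subtype.ext ?_⟩
  show (a : F) = πF * (a / πF)
  field_simp

theorem rho_sep (hπ : Prime πA) (c c' : ι) (hc : c ≠ c') :
    ∃ u, D.rho hπ c' u = 0 ∧ D.rho hπ c u ≠ 0 := by
  obtain ⟨U, hU0, hU⟩ := D.sepEl c
  have hUint : ∀ c', (D.Pl c').Int U := by
    intro c'
    by_cases hc : c' = c
    · subst hc; exact (D.Pl c').pd_int_of_ord hU0 le_rfl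
    · obtain ⟨n, hn, ho⟩ := hU c' hc
      exact (D.Pl c').pd_int_of_ord ho hn.le
  obtain ⟨s, hs, hI⟩ := D.complete _ hUint
  refine ⟨⟨_, hI⟩, ?_, ?_⟩
  · obtain ⟨n, hn, ho⟩ := hU c' hc.symm
    apply Subtype.ext
    apply D.rho_eq hπ c'
    show (D.Pl c').Res (s • U) 0
    rw [Algebra.smul_def]
    exact (D.Pl c').res_of_pos ((D.Pl c').ord_mul (D.unit s hs c') ho) (by omega)
  · apply D.pd_rho_ne_zero_of_ord hπ c
    show (D.Pl c).Ord 0 (s • U)
    rw [Algebra.smul_def]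
    have := (D.Pl c).ord_mul (D.unit s hs c) hU0
    simpa using this

theorem rho_fin (hπ : Prime πA) (c : ι) (d : integralClosure A[X] F) (hd : d ≠ 0) :
    ∃ (N : ℕ) (t : integralClosure A[X] F), D.rho hπ c t ≠ 0 ∧ d ∣ t * piM A πA F ^ N := by
  obtain ⟨P, hPm, hP⟩ := integralClosure.isIntegral d
  rw [← aeval_def] at hP
  obtain ⟨Q, hQ, hQX⟩ := P.exists_eq_pow_rootMultiplicity_mul_and_not_dvd hPm.ne_zero 0
  rw [C_0, sub_zero] at hQ hQX
  have hQ0 : Q.coeff 0 ≠ 0 := fun h0 => hQX (X_dvd_iff.2 h0)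
  have hQd : aeval d Q = 0 := by
    rw [hQ, map_mul, map_pow, aeval_X] at hP
    exact (mul_eq_zero.1 hP).resolve_left (pow_ne_zero _ hd)
  have hnu : ¬ IsUnit (C πA : A[X]) := fun hu => hπ.not_isUnit (isUnit_C.1 hu)
  obtain ⟨N, t, ht, hfac⟩ := WfDvdMonoid.max_power_factor' hQ0 hnu
  refine ⟨N, algebraMap A[X] _ t, ?_, ?_⟩
  · apply D.pd_rho_ne_zero_of_ord hπ c
    exact D.unit t ht c
  · have e1 : algebraMap A[X] (integralClosure A[X] F) t * piM A πA F ^ N
        = algebraMap A[X] (integralClosure A[X] F) (Q.coeff 0) := by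
      rw [hfac, map_mul, map_pow, mul_comm]
      rfl
    rw [e1]
    have e2 := Q.divX_mul_X_add
    have e3 : aeval d Q.divX * d + algebraMap A[X] (integralClosure A[X] F) (Q.coeff 0) = 0 := by
      rw [← hQd]
      conv_rhs => rw [← e2]
      rw [map_add, map_mul, aeval_X, aeval_C]
    refine ⟨- aeval d Q.divX, ?_⟩
    linear_combination e3

/-- **the model.** -/
noncomputable def model [Finite ι] (hπ : Prime πA) :
    Model (integralClosure A[X] F) D.R (piM A πA F) ι where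
  ρ := D.rho hπ
  e := D.e
  surj := D.rho_surj hπ
  map_pi := D.rho_pi hπ
  pow := D.rho_pow hπ
  sat := D.rho_sat hπ
  sep := D.rho_sep hπ
  fin := D.rho_fin hπ

theorem Dict_int_of_ord {P : APlace F κ} {n : ℤ} {y : F} (h : P.Ord n y) (hn : 0 ≤ n) :
    P.Int y := by
  rcases hn.eq_or_lt with rfl | hn
  · obtain ⟨c, _, hc⟩ := P.ord_zero_iff.1 h
    exact ⟨c, hc⟩
  · exact ⟨0, P.res_of_pos h hn⟩

theorem Dict_int_pow (c : ι) (U : F) (hU0 : (D.Pl c).Ord 0 U)
    (hU : ∀ c', c' ≠ c → ∃ n : ℤ, 0 < n ∧ (D.Pl c').Ord n U) (N : ℕ) (c' : ι) :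
    (D.Pl c').Int (U ^ N) := by
  by_cases hc : c' = c
  · subst hc
    exact Dict_int_of_ord ((D.Pl c').ord_pow hU0 N) (by simp)
  · obtain ⟨n, hn, h⟩ := hU c' hc
    exact Dict_int_of_ord ((D.Pl c').ord_pow h N) (by positivity)

theorem Dict_exists_pow [Finite ι] (c : ι) (U : F) (hU0 : (D.Pl c).Ord 0 U)
    (hU : ∀ c', c' ≠ c → ∃ n : ℤ, 0 < n ∧ (D.Pl c').Ord n U) (g : F) (hg : (D.Pl c).Int g) :
    ∃ N : ℕ, ∀ c', (D.Pl c').Int (U ^ N * g) := by
  by_cases hg0 : g = 0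
  · refine ⟨0, fun c' => ?_⟩
    rw [hg0, mul_zero]
    exact ⟨0, (D.Pl c').res_zero⟩
  cases nonempty_fintype ι
  have hm : ∀ c', ∃ m, (D.Pl c').Ord m g := fun c' => (D.Pl c').ord_exists g hg0
  choose m hm using hm
  refine ⟨∑ c', (-m c').toNat, fun c' => ?_⟩
  by_cases hc : c' = c
  · subst hc
    obtain ⟨r, hr⟩ := D.Dict_int_pow c' U hU0 hU (∑ c', (-m c').toNat) c'
    obtain ⟨r', hr'⟩ := hg
    exact ⟨_, (D.Pl c').res_mul hr hr'⟩
  · obtain ⟨n, hn, h⟩ := hU c' hc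
    refine Dict_int_of_ord ((D.Pl c').ord_mul ((D.Pl c').ord_pow h _) (hm c')) ?_
    have h1 : (-m c').toNat ≤ ∑ c', (-m c').toNat :=
      Finset.single_le_sum (f := fun c' => (-m c').toNat) (fun _ _ => Nat.zero_le _)
        (Finset.mem_univ c')
    have h2 : -m c' ≤ ((-m c').toNat : ℤ) := Int.self_le_toNat _
    have h3 : (((-m c').toNat : ℕ) : ℤ) ≤ ((∑ c', (-m c').toNat : ℕ) : ℤ) := by exact_mod_cast h1
    have h4 : ((∑ c', (-m c').toNat : ℕ) : ℤ) ≤ ((∑ c', (-m c').toNat : ℕ) : ℤ) * n := by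
      have : (0 : ℤ) ≤ ((∑ c', (-m c').toNat : ℕ) : ℤ) := by positivity
      nlinarith
    linarith

theorem Dict_rho_ne_zero (hπ : Prime πA) (c : ι) (y : integralClosure A[X] F)
    (h : (D.Pl c).Ord 0 (y : F)) : D.rho hπ c y ≠ 0 := by
  obtain ⟨r, hr, h1⟩ := (D.Pl c).ord_zero_iff.1 h
  intro h0
  apply hr
  rw [← D.rho_eq hπ c y r h1, h0]
  rfl


/-- dictionary: `W ≡ 1 mod π O_F`. -/
theorem oneMod [Finite ι] (hπ : Prime πA) (W : F)
    (h : ∀ c, (D.Pl c).Int ((W - 1) / algebraMap A[X] F (C πA))) : OneMod (D.model hπ) W := by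
  rcases isEmpty_or_nonempty ι with hι | hι
  · exact ⟨0, 0, fun c => isEmptyElim c, by simp, by simp⟩
  have hπ0 : algebraMap A[X] F (C πA) ≠ 0 :=
    (D.Pl (Classical.arbitrary ι)).ord_ne_zero (D.ord_pi _)
  obtain ⟨s, hs, hint⟩ := D.complete _ h
  refine ⟨algebraMap A[X] _ s + piM A πA F * ⟨_, hint⟩, algebraMap A[X] _ s, fun c => ?_, ?_, ?_⟩
  · exact D.Dict_rho_ne_zero hπ c _ (D.unit s hs c)
  · exact ⟨⟨_, hint⟩, by ring⟩
  · change W * algebraMap A[X] F s = algebraMap A[X] F s + algebraMap A[X] F (C πA) *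
      (s • ((W - 1) / algebraMap A[X] F (C πA)))
    rw [Algebra.smul_def]
    field_simp
    ring

/-- dictionary: `h ≡ u` at `c` to the full multiplicity of `π`. -/
theorem congAt [Finite ι] (hπ : Prime πA) (c : ι) (h : F) (u : integralClosure A[X] F)
    (hh : (D.Pl c).Int ((h - u) / algebraMap A[X] F (C πA))) : CongAt (D.model hπ) c h u := by
  have hπ0 : algebraMap A[X] F (C πA) ≠ 0 := (D.Pl c).ord_ne_zero (D.ord_pi c)
  obtain ⟨U, hU0, hU⟩ := D.sepEl c
  obtain ⟨N, hN⟩ := D.Dict_exists_pow c U hU0 hU _ hh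
  obtain ⟨s, hs, hint⟩ := D.complete _ hN
  obtain ⟨s', hs', hint'⟩ := D.complete _ (D.Dict_int_pow c U hU0 hU N)
  refine ⟨u * (algebraMap A[X] _ s * ⟨_, hint'⟩) + piM A πA F * (algebraMap A[X] _ s' * ⟨_, hint⟩),
    algebraMap A[X] _ s * ⟨_, hint'⟩, 1, ?_, ?_, ?_, ?_⟩
  · apply D.Dict_rho_ne_zero hπ c
    change (D.Pl c).Ord 0 (algebraMap A[X] F s * (s' • U ^ N))
    rw [Algebra.smul_def]
    have h1 := (D.Pl c).ord_mul (D.unit s hs c) ((D.Pl c).ord_mul (D.unit s' hs' c)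
      ((D.Pl c).ord_pow hU0 N))
    simpa using h1
  · change D.rho hπ c 1 ≠ 0
    rw [map_one]
    exact one_ne_zero
  · exact ⟨algebraMap A[X] _ s' * ⟨_, hint⟩, by ring⟩
  · change h * (algebraMap A[X] F s * (s' • U ^ N)) = (u : F) * (algebraMap A[X] F s * (s' • U ^ N))
      + algebraMap A[X] F (C πA) * (algebraMap A[X] F s' *
        (s • (U ^ N * ((h - u) / algebraMap A[X] F (C πA)))))
    rw [Algebra.smul_def, Algebra.smul_def]
    field_simp
    ring

end PData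

end Fermat.Agent.S36.Val
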