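import Fermat.Agent.Crux.G.QLink

/-!
# S36 / Val : places given by a reduction `red : O → κ`, `inc : O ↪ Ω`

`V' = {g/h : red h ≠ 0} ⊆ Frac O ⊆ Ω` (`Crux.G.QLink.InV`) is a discrete valuation ring as soon as
every `g ≠ 0` of `O` is `ϖ ^ k * g'`, `red g' ≠ 0`, `red ϖ = 0` (`IsPlace`).
We use *relations* (no choice):
* `IsRes inc red a c`   : `a ∈ V'` with residue `c ∈ κ`;
* `IsOrd inc red ϖ n a` : `a = ϖ ^ n * unit of V'`  (`n : ℤ`);
* `IsFrac inc a`        : `a ∈ Frac O`.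
`APlace F κ` : the same relations on an abstract field `F` (obtained by pulling back along a ring
homomorphism `Φ : F → Ω` with values in `Frac O`, `APlace.ofHom`).
-/

set_option autoImplicit false
set_option linter.unusedSectionVars false
set_option linter.unusedVariables false

namespace Fermat.Agent.S36.Val

open Fermat.Agent.Crux.G.QLink

section defs

variable {Ω O κ : Type*} [Field Ω] [CommRing O] [Field κ] (inc : O →+* Ω) (red : O →+* κ)

/-- `a ∈ V'` and its residue is `c`. -/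
def IsRes (a : Ω) (c : κ) : Prop :=
  ∃ g h : O, red h ≠ 0 ∧ a * inc h = inc g ∧ c * red h = red g

/-- `a ∈ Frac O`. -/
def IsFrac (a : Ω) : Prop := ∃ g h : O, h ≠ 0 ∧ a * inc h = inc g

/-- `a = ϖ ^ n * (unit of V')`. -/
def IsOrd (ϖ : O) (n : ℤ) (a : Ω) : Prop :=
  ∃ c : κ, c ≠ 0 ∧ IsRes inc red (a * inc ϖ ^ (-n)) c

/-- `(O, ϖ)` "is a DVR up to localisation" with residue map `red`. -/
structure IsPlace (ϖ : O) : Prop where
  inj : Function.Injective inc
  red_unif : red ϖ = 0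
  ne_zero : ϖ ≠ 0
  fac : ∀ g : O, g ≠ 0 → ∃ (k : ℕ) (g' : O), g = ϖ ^ k * g' ∧ red g' ≠ 0

end defs

section api

variable {Ω O κ : Type*} [Field Ω] [CommRing O] [Field κ] {inc : O →+* Ω} {red : O →+* κ}

theorem isRes_inc (g : O) : IsRes inc red (inc g) (red g) := ⟨g, 1, by simp, by simp, by simp⟩

theorem isRes_zero : IsRes inc red 0 0 := by simpa using isRes_inc (inc := inc) (red := red) 0

theorem isRes_one : IsRes inc red 1 1 := by simpa using isRes_inc (inc := inc) (red := red) 1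

theorem IsRes.add {a b : Ω} {c d : κ} (ha : IsRes inc red a c) (hb : IsRes inc red b d) :
    IsRes inc red (a + b) (c + d) := by
  obtain ⟨g, h, h1, h2, h3⟩ := ha
  obtain ⟨g', h', h1', h2', h3'⟩ := hb
  refine ⟨g * h' + g' * h, h * h', by rw [map_mul]; exact mul_ne_zero h1 h1', ?_, ?_⟩
  · rw [map_mul, map_add, map_mul, map_mul, ← h2, ← h2']; ring
  · rw [map_mul, map_add, map_mul, map_mul, ← h3, ← h3']; ring

theorem IsRes.mul {a b : Ω} {c d : κ} (ha : IsRes inc red a c) (hb : IsRes inc red b d) :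
    IsRes inc red (a * b) (c * d) := by
  obtain ⟨g, h, h1, h2, h3⟩ := ha
  obtain ⟨g', h', h1', h2', h3'⟩ := hb
  refine ⟨g * g', h * h', by rw [map_mul]; exact mul_ne_zero h1 h1', ?_, ?_⟩
  · rw [map_mul, map_mul, ← h2, ← h2']; ring
  · rw [map_mul, map_mul, ← h3, ← h3']; ring

theorem IsRes.neg {a : Ω} {c : κ} (ha : IsRes inc red a c) : IsRes inc red (-a) (-c) := by
  obtain ⟨g, h, h1, h2, h3⟩ := ha
  exact ⟨-g, h, h1, by rw [map_neg, ← h2]; ring, by rw [map_neg, ← h3]; ring⟩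

theorem IsRes.sub {a b : Ω} {c d : κ} (ha : IsRes inc red a c) (hb : IsRes inc red b d) :
    IsRes inc red (a - b) (c - d) := by
  rw [sub_eq_add_neg, sub_eq_add_neg]; exact ha.add hb.neg

theorem IsRes.pow {a : Ω} {c : κ} (ha : IsRes inc red a c) (n : ℕ) :
    IsRes inc red (a ^ n) (c ^ n) := by
  induction n with
  | zero => simpa using isRes_one
  | succ n ih => rw [pow_succ, pow_succ]; exact ih.mul ha

theorem IsRes.sum {ι : Type*} (s : Finset ι) {a : ι → Ω} {c : ι → κ}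
    (h : ∀ i ∈ s, IsRes inc red (a i) (c i)) : IsRes inc red (∑ i ∈ s, a i) (∑ i ∈ s, c i) := by
  classical
  induction s using Finset.induction_on with
  | empty => simpa using isRes_zero
  | insert i s hi ih =>
    rw [Finset.sum_insert hi, Finset.sum_insert hi]
    exact (h i (Finset.mem_insert_self i s)).add
      (ih fun j hj => h j (Finset.mem_insert_of_mem hj))

theorem IsRes.prod {ι : Type*} (s : Finset ι) {a : ι → Ω} {c : ι → κ}
    (h : ∀ i ∈ s, IsRes inc red (a i) (c i)) : IsRes inc red (∏ i ∈ s, a i) (∏ i ∈ s, c i) := by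
  classical
  induction s using Finset.induction_on with
  | empty => simpa using isRes_one
  | insert i s hi ih =>
    rw [Finset.prod_insert hi, Finset.prod_insert hi]
    exact (h i (Finset.mem_insert_self i s)).mul
      (ih fun j hj => h j (Finset.mem_insert_of_mem hj))

theorem IsRes.natCast (n : ℕ) : IsRes inc red (n : Ω) (n : κ) := by
  simpa using isRes_inc (inc := inc) (red := red) (n : O)

theorem IsRes.inV {a : Ω} {c : κ} (ha : IsRes inc red a c) : InV inc red a := by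
  obtain ⟨g, h, h1, h2, -⟩ := ha
  exact ⟨g, h, h1, h2⟩

theorem inV_iff {a : Ω} : InV inc red a ↔ ∃ c, IsRes inc red a c := by
  constructor
  · rintro ⟨g, h, h1, h2⟩
    exact ⟨red g / red h, g, h, h1, h2, div_mul_cancel₀ _ h1⟩
  · rintro ⟨c, hc⟩
    exact hc.inV

theorem inM_iff {a : Ω} : InM inc red a ↔ IsRes inc red a 0 := by
  constructor
  · rintro ⟨g, h, h1, h0, h2⟩
    exact ⟨g, h, h1, h2, by rw [h0, zero_mul]⟩
  · rintro ⟨g, h, h1, h2, h3⟩
    exact ⟨g, h, h1, by rw [← h3, zero_mul], h2⟩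

theorem IsRes.unique (hinc : Function.Injective inc) {a : Ω} {c d : κ}
    (hc : IsRes inc red a c) (hd : IsRes inc red a d) : c = d := by
  obtain ⟨g, h, h1, h2, h3⟩ := hc
  obtain ⟨g', h', h1', h2', h3'⟩ := hd
  have e : g * h' = g' * h := hinc (by rw [map_mul, map_mul, ← h2, ← h2']; ring)
  have e2 := congrArg red e
  rw [map_mul, map_mul, ← h3, ← h3'] at e2
  have : (c - d) * (red h * red h') = 0 := by linear_combination e2
  rcases mul_eq_zero.1 this with h | h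
  · exact sub_eq_zero.1 h
  · exact absurd h (mul_ne_zero h1 h1')

theorem IsRes.ne_zero (hinc : Function.Injective inc) {a : Ω} {c : κ} (ha : IsRes inc red a c)
    (hc : c ≠ 0) : a ≠ 0 := by
  rintro rfl
  exact hc (ha.unique hinc isRes_zero)

theorem IsRes.inv (hinc : Function.Injective inc) {a : Ω} {c : κ} (ha : IsRes inc red a c)
    (hc : c ≠ 0) : IsRes inc red a⁻¹ c⁻¹ := by
  have ha0 := ha.ne_zero hinc hc
  obtain ⟨g, h, h1, h2, h3⟩ := ha
  refine ⟨h, g, h3 ▸ mul_ne_zero hc h1, ?_, ?_⟩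
  · rw [← h2]; field_simp
  · rw [← h3]; field_simp

theorem IsRes.zpow (hinc : Function.Injective inc) {a : Ω} {c : κ} (ha : IsRes inc red a c)
    (hc : c ≠ 0) (n : ℤ) : IsRes inc red (a ^ n) (c ^ n) := by
  cases n with
  | ofNat n => simpa using ha.pow n
  | negSucc n =>
    rw [zpow_negSucc, zpow_negSucc]
    exact (ha.pow (n + 1)).inv hinc (pow_ne_zero _ hc)

theorem IsRes.div (hinc : Function.Injective inc) {a b : Ω} {c d : κ} (ha : IsRes inc red a c)
    (hb : IsRes inc red b d) (hd : d ≠ 0) : IsRes inc red (a / b) (c / d) := by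
  rw [div_eq_mul_inv, div_eq_mul_inv]; exact ha.mul (hb.inv hinc hd)

/-! ### `Frac O` -/

theorem IsRes.isFrac {a : Ω} {c : κ} (ha : IsRes inc red a c) : IsFrac inc a := by
  obtain ⟨g, h, h1, h2, -⟩ := ha
  exact ⟨g, h, fun h0 => h1 (by rw [h0, map_zero]), h2⟩

theorem isFrac_inc (g : O) : IsFrac (Ω := Ω) inc (inc g) := by
  refine ⟨g, 1, ?_, by simp⟩
  intro h
  have : (inc 1 : Ω) = inc 0 := by rw [h]
  simp at this

theorem inc_ne_zero (hinc : Function.Injective inc) {h : O} (hh : h ≠ 0) : inc h ≠ 0 :=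
  fun h0 => hh (hinc (by rw [h0, map_zero]))

theorem mul_ne_zero_of_inj (hinc : Function.Injective inc) {h h' : O} (hh : h ≠ 0) (hh' : h' ≠ 0) :
    h * h' ≠ 0 := by
  intro h0
  have := congrArg inc h0
  rw [map_mul, map_zero] at this
  exact mul_ne_zero (inc_ne_zero hinc hh) (inc_ne_zero hinc hh') this

theorem IsFrac.add (hinc : Function.Injective inc) {a b : Ω} (ha : IsFrac inc a)
    (hb : IsFrac inc b) : IsFrac inc (a + b) := by
  obtain ⟨g, h, h1, h2⟩ := ha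
  obtain ⟨g', h', h1', h2'⟩ := hb
  refine ⟨g * h' + g' * h, h * h', mul_ne_zero_of_inj hinc h1 h1', ?_⟩
  rw [map_mul, map_add, map_mul, map_mul, ← h2, ← h2']; ring

theorem IsFrac.mul (hinc : Function.Injective inc) {a b : Ω} (ha : IsFrac inc a)
    (hb : IsFrac inc b) : IsFrac inc (a * b) := by
  obtain ⟨g, h, h1, h2⟩ := ha
  obtain ⟨g', h', h1', h2'⟩ := hb
  refine ⟨g * g', h * h', mul_ne_zero_of_inj hinc h1 h1', ?_⟩
  rw [map_mul, map_mul, ← h2, ← h2']; ring

theorem IsFrac.neg {a : Ω} (ha : IsFrac inc a) : IsFrac inc (-a) := by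
  obtain ⟨g, h, h1, h2⟩ := ha
  exact ⟨-g, h, h1, by rw [map_neg, ← h2]; ring⟩

theorem IsFrac.inv (hinc : Function.Injective inc) {a : Ω} (ha : IsFrac inc a) :
    IsFrac inc a⁻¹ := by
  by_cases ha0 : a = 0
  · rw [ha0, inv_zero]; simpa using isFrac_inc (inc := inc) 0
  obtain ⟨g, h, h1, h2⟩ := ha
  refine ⟨h, g, ?_, ?_⟩
  · rintro rfl
    rw [map_zero] at h2
    exact mul_ne_zero ha0 (inc_ne_zero hinc h1) h2
  · rw [← h2]; field_simp

variable (inc) in
/-- `Frac O` as a subfield of `Ω`. -/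
def fracSubfield (hinc : Function.Injective inc) : Subfield Ω where
  carrier := {a | IsFrac inc a}
  mul_mem' := fun ha hb => IsFrac.mul hinc ha hb
  one_mem' := by simpa using isFrac_inc (inc := inc) 1
  add_mem' := fun ha hb => IsFrac.add hinc ha hb
  zero_mem' := by simpa using isFrac_inc (inc := inc) 0
  neg_mem' := fun ha => IsFrac.neg ha
  inv_mem' := fun _ ha => IsFrac.inv hinc ha

/-! ### orders -/

variable {ϖ : O}

theorem IsPlace.unif_ne_zero (P : IsPlace inc red ϖ) : inc ϖ ≠ 0 := inc_ne_zero P.inj P.ne_zero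

theorem IsPlace.isRes_unif_pow (P : IsPlace inc red ϖ) {k : ℕ} (hk : 0 < k) :
    IsRes inc red (inc ϖ ^ k) 0 := by
  have := (isRes_inc (inc := inc) (red := red) ϖ).pow k
  rwa [P.red_unif, zero_pow hk.ne'] at this

theorem IsPlace.isRes_unif_zpow (P : IsPlace inc red ϖ) {k : ℤ} (hk : 0 < k) :
    IsRes inc red (inc ϖ ^ k) 0 := by
  obtain ⟨n, rfl⟩ := Int.eq_ofNat_of_zero_le hk.le
  rw [zpow_natCast]
  exact P.isRes_unif_pow (by exact_mod_cast hk)

theorem isOrd_zero_iff {a : Ω} : IsOrd inc red ϖ 0 a ↔ ∃ c : κ, c ≠ 0 ∧ IsRes inc red a c := by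
  simp [IsOrd]

theorem IsRes.isOrd {a : Ω} {c : κ} (ha : IsRes inc red a c) (hc : c ≠ 0) :
    IsOrd inc red ϖ 0 a := isOrd_zero_iff.2 ⟨c, hc, ha⟩

theorem IsOrd.ne_zero (P : IsPlace inc red ϖ) {n : ℤ} {a : Ω} (ha : IsOrd inc red ϖ n a) :
    a ≠ 0 := by
  obtain ⟨c, hc, h⟩ := ha
  exact left_ne_zero_of_mul (h.ne_zero P.inj hc)

theorem IsOrd.mul (P : IsPlace inc red ϖ) {n n' : ℤ} {a b : Ω} (ha : IsOrd inc red ϖ n a)
    (hb : IsOrd inc red ϖ n' b) : IsOrd inc red ϖ (n + n') (a * b) := by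
  obtain ⟨c, hc, h⟩ := ha
  obtain ⟨d, hd, h'⟩ := hb
  refine ⟨c * d, mul_ne_zero hc hd, ?_⟩
  have : a * b * inc ϖ ^ (-(n + n')) = a * inc ϖ ^ (-n) * (b * inc ϖ ^ (-n')) := by
    rw [neg_add, zpow_add₀ P.unif_ne_zero]; ring
  rw [this]
  exact h.mul h'

theorem IsOrd.inv (P : IsPlace inc red ϖ) {n : ℤ} {a : Ω} (ha : IsOrd inc red ϖ n a) :
    IsOrd inc red ϖ (-n) a⁻¹ := by
  obtain ⟨c, hc, h⟩ := ha
  refine ⟨c⁻¹, inv_ne_zero hc, ?_⟩
  have : a⁻¹ * inc ϖ ^ (- -n) = (a * inc ϖ ^ (-n))⁻¹ := by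
    rw [mul_inv, ← zpow_neg]
  rw [this]
  exact h.inv P.inj hc

theorem isOrd_one (P : IsPlace inc red ϖ) : IsOrd inc red ϖ 0 (1 : Ω) :=
  isRes_one.isOrd one_ne_zero

theorem IsOrd.pow (P : IsPlace inc red ϖ) {n : ℤ} {a : Ω} (ha : IsOrd inc red ϖ n a) (k : ℕ) :
    IsOrd inc red ϖ (k * n) (a ^ k) := by
  induction k with
  | zero => simpa using isOrd_one P
  | succ k ih =>
    rw [pow_succ]
    have := ih.mul P ha
    convert this using 1
    push_cast; ring

theorem IsOrd.zpow (P : IsPlace inc red ϖ) {n : ℤ} {a : Ω} (ha : IsOrd inc red ϖ n a) (k : ℤ) :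
    IsOrd inc red ϖ (k * n) (a ^ k) := by
  cases k with
  | ofNat k => simpa using ha.pow P k
  | negSucc k =>
    rw [zpow_negSucc]
    have := (ha.pow P (k + 1)).inv P
    convert this using 1
    rw [Int.negSucc_eq]; push_cast; ring

theorem IsOrd.div (P : IsPlace inc red ϖ) {n n' : ℤ} {a b : Ω} (ha : IsOrd inc red ϖ n a)
    (hb : IsOrd inc red ϖ n' b) : IsOrd inc red ϖ (n - n') (a / b) := by
  rw [div_eq_mul_inv, sub_eq_add_neg]; exact ha.mul P (hb.inv P)

theorem IsOrd.prod (P : IsPlace inc red ϖ) {ι : Type*} (s : Finset ι) {a : ι → Ω} {n : ι → ℤ}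
    (h : ∀ i ∈ s, IsOrd inc red ϖ (n i) (a i)) :
    IsOrd inc red ϖ (∑ i ∈ s, n i) (∏ i ∈ s, a i) := by
  classical
  induction s using Finset.induction_on with
  | empty => simpa using isOrd_one P
  | insert i s hi ih =>
    rw [Finset.prod_insert hi, Finset.sum_insert hi]
    exact (h i (Finset.mem_insert_self i s)).mul P
      (ih fun j hj => h j (Finset.mem_insert_of_mem hj))

theorem isOrd_unif (P : IsPlace inc red ϖ) : IsOrd inc red ϖ 1 (inc ϖ) := by
  refine ⟨1, one_ne_zero, ?_⟩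
  have : inc ϖ * inc ϖ ^ (-1 : ℤ) = 1 := by
    rw [zpow_neg_one, mul_inv_cancel₀ P.unif_ne_zero]
  rw [this]; exact isRes_one

/-- positive order: residue `0`. -/
theorem IsOrd.isRes_zero (P : IsPlace inc red ϖ) {n : ℤ} {a : Ω} (ha : IsOrd inc red ϖ n a)
    (hn : 0 < n) : IsRes inc red a 0 := by
  obtain ⟨c, hc, h⟩ := ha
  have := h.mul (P.isRes_unif_zpow hn)
  rwa [mul_zero, mul_assoc, ← zpow_add₀ P.unif_ne_zero, neg_add_cancel, zpow_zero, mul_one] at this

theorem IsOrd.inV (P : IsPlace inc red ϖ) {n : ℤ} {a : Ω} (ha : IsOrd inc red ϖ n a)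
    (hn : 0 ≤ n) : InV inc red a := by
  rcases hn.eq_or_lt with rfl | hn
  · obtain ⟨c, -, h⟩ := isOrd_zero_iff.1 ha
    exact h.inV
  · exact (ha.isRes_zero P hn).inV

theorem IsOrd.unique (P : IsPlace inc red ϖ) {n n' : ℤ} {a : Ω} (ha : IsOrd inc red ϖ n a)
    (ha' : IsOrd inc red ϖ n' a) : n = n' := by
  have key : ∀ {n n' : ℤ}, IsOrd inc red ϖ n a → IsOrd inc red ϖ n' a → ¬ n < n' := by
    intro n n' ha ha' hlt
    have h1 := (ha'.div P ha)
    rw [div_self (ha.ne_zero P)] at h1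
    exact one_ne_zero ((isRes_one).unique P.inj (h1.isRes_zero P (by omega)))
  exact le_antisymm (not_lt.1 (key ha' ha)) (not_lt.1 (key ha ha'))

theorem exists_isOrd (P : IsPlace inc red ϖ) {a : Ω} (ha : IsFrac inc a) (ha0 : a ≠ 0) :
    ∃ n : ℤ, IsOrd inc red ϖ n a := by
  obtain ⟨g, h, hh, e⟩ := ha
  have hih := inc_ne_zero P.inj hh
  have hg : g ≠ 0 := by
    rintro rfl
    rw [map_zero] at e
    exact mul_ne_zero ha0 hih e
  obtain ⟨k, g', rfl, hg'⟩ := P.fac g hg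
  obtain ⟨j, h', rfl, hh'⟩ := P.fac h hh
  have h1 : IsOrd inc red ϖ k (inc (ϖ ^ k * g')) := by
    rw [map_mul, map_pow]
    have := ((isOrd_unif P).pow P k).mul P ((isRes_inc g').isOrd (ϖ := ϖ) hg')
    simpa using this
  have h2 : IsOrd inc red ϖ j (inc (ϖ ^ j * h')) := by
    rw [map_mul, map_pow]
    have := ((isOrd_unif P).pow P j).mul P ((isRes_inc h').isOrd (ϖ := ϖ) hh')
    simpa using this
  refine ⟨k - j, ?_⟩
  have : a = inc (ϖ ^ k * g') / inc (ϖ ^ j * h') := by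
    rw [← e]; field_simp
  rw [this]
  exact h1.div P h2

theorem IsOrd.nonneg_of_inV (P : IsPlace inc red ϖ) {n : ℤ} {a : Ω} (ha : IsOrd inc red ϖ n a)
    (hV : InV inc red a) : 0 ≤ n := by
  by_contra hn
  obtain ⟨c, hc⟩ := inV_iff.1 hV
  have h1 := (ha.inv P).isRes_zero P (by omega)
  have h2 := hc.mul h1
  rw [mul_inv_cancel₀ (ha.ne_zero P), mul_zero] at h2
  exact one_ne_zero (isRes_one.unique P.inj h2)

theorem IsOrd.pos_of_isRes_zero (P : IsPlace inc red ϖ) {n : ℤ} {a : Ω}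
    (ha : IsOrd inc red ϖ n a) (h0 : IsRes inc red a 0) : 0 < n := by
  rcases (ha.nonneg_of_inV P h0.inV).eq_or_lt with rfl | h
  · obtain ⟨c, hc, h⟩ := isOrd_zero_iff.1 ha
    exact absurd (h.unique P.inj h0) hc
  · exact h

/-- `m_{V'} = ϖ V'`. -/
theorem IsRes.exists_eq_unif_mul (P : IsPlace inc red ϖ) {a : Ω} (h0 : IsRes inc red a 0) :
    ∃ a' : Ω, InV inc red a' ∧ a = inc ϖ * a' := by
  by_cases ha : a = 0
  · exact ⟨0, isRes_zero.inV, by rw [ha, mul_zero]⟩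
  obtain ⟨n, hn⟩ := exists_isOrd P h0.isFrac ha
  have hpos := hn.pos_of_isRes_zero P h0
  refine ⟨a / inc ϖ, (hn.div P (isOrd_unif P)).inV P (by omega), ?_⟩
  rw [mul_div_cancel₀ _ P.unif_ne_zero]

/-- `a ∈ ϖ ^ n V'`. -/
theorem IsOrd.inV_div_pow (P : IsPlace inc red ϖ) {n : ℤ} {a : Ω} (ha : IsOrd inc red ϖ n a)
    {k : ℕ} (hk : (k : ℤ) ≤ n) : InV inc red (a / inc ϖ ^ k) := by
  have := ha.div P ((isOrd_unif P).pow P k)
  exact this.inV P (by omega)

theorem IsOrd.add_of_lt (P : IsPlace inc red ϖ) {n n' : ℤ} {a b : Ω} (ha : IsOrd inc red ϖ n a)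
    (hb : IsOrd inc red ϖ n' b) (hlt : n < n') : IsOrd inc red ϖ n (a + b) := by
  obtain ⟨c, hc, h⟩ := id ha
  have h1 : IsRes inc red (b * inc ϖ ^ (-n)) 0 := by
    have := hb.mul P ((isOrd_unif P).zpow P (-n))
    exact this.isRes_zero P (by omega)
  refine ⟨c, hc, ?_⟩
  have := h.add h1
  rwa [add_zero, ← add_mul] at this

end api

/-! ### morphisms of places -/

section hom

variable {Ω O κ : Type*} [Field Ω] [CommRing O] [Field κ] (inc : O →+* Ω) (red : O →+* κ)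
variable {Ω' O' κ' : Type*} [Field Ω'] [CommRing O'] [Field κ'] (inc' : O' →+* Ω')
  (red' : O' →+* κ')

/-- a morphism of places. -/
structure PlaceHom (f : Ω →+* Ω') (fO : O →+* O') (fκ : κ →+* κ') : Prop where
  comm_inc : ∀ g, f (inc g) = inc' (fO g)
  comm_red : ∀ g, red' (fO g) = fκ (red g)

variable {inc red inc' red'} {f : Ω →+* Ω'} {fO : O →+* O'} {fκ : κ →+* κ'}

theorem PlaceHom.isRes (H : PlaceHom inc red inc' red' f fO fκ) {a : Ω} {c : κ}
    (ha : IsRes inc red a c) : IsRes inc' red' (f a) (fκ c) := by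
  obtain ⟨g, h, h1, h2, h3⟩ := ha
  refine ⟨fO g, fO h, ?_, ?_, ?_⟩
  · rw [H.comm_red]; exact (map_ne_zero fκ).2 h1
  · rw [← H.comm_inc, ← H.comm_inc, ← map_mul, h2]
  · rw [H.comm_red, H.comm_red, ← map_mul, h3]

theorem PlaceHom.inV (H : PlaceHom inc red inc' red' f fO fκ) {a : Ω}
    (ha : InV inc red a) : InV inc' red' (f a) := by
  obtain ⟨c, hc⟩ := inV_iff.1 ha
  exact (H.isRes hc).inV

theorem PlaceHom.isFrac (H : PlaceHom inc red inc' red' f fO fκ) (hinc : Function.Injective inc)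
    (hinc' : Function.Injective inc') {a : Ω}
    (ha : IsFrac inc a) : IsFrac inc' (f a) := by
  obtain ⟨g, h, h1, h2⟩ := ha
  refine ⟨fO g, fO h, ?_, ?_⟩
  · intro h0
    have : f (inc h) = 0 := by rw [H.comm_inc, h0, map_zero]
    exact inc_ne_zero hinc h1 ((map_eq_zero f).1 this)
  · rw [← H.comm_inc, ← H.comm_inc, ← map_mul, h2]

/-- ramification index `e`: `ϖ ↦ u ϖ' ^ e`. -/
theorem PlaceHom.isOrd (H : PlaceHom inc red inc' red' f fO fκ) {ϖ : O} {ϖ' : O'}
    (P : IsPlace inc red ϖ) (P' : IsPlace inc' red' ϖ') (e : ℕ) (u : O') (hu : red' u ≠ 0)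
    (hϖ : fO ϖ = u * ϖ' ^ e) {n : ℤ} {a : Ω} (ha : IsOrd inc red ϖ n a) :
    IsOrd inc' red' ϖ' (e * n) (f a) := by
  obtain ⟨c, hc, h⟩ := ha
  have h1 : IsOrd inc' red' ϖ' 0 (f (a * inc ϖ ^ (-n))) :=
    (H.isRes h).isOrd ((map_ne_zero fκ).2 hc)
  have h2 : IsOrd inc' red' ϖ' e (f (inc ϖ)) := by
    rw [H.comm_inc, hϖ, map_mul, map_pow]
    have := ((isRes_inc u).isOrd (ϖ := ϖ') hu).mul P' ((isOrd_unif P').pow P' e)
    simpa using this
  have h3 := h1.mul P' (h2.zpow P' n)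
  have e1 : f (a * inc ϖ ^ (-n)) * f (inc ϖ) ^ n = f a := by
    rw [map_mul, map_zpow₀, mul_assoc, ← zpow_add₀ ((map_ne_zero f).2 P.unif_ne_zero),
      neg_add_cancel, zpow_zero, mul_one]
  rw [e1] at h3
  convert h3 using 1
  ring

/-- descent of integrality along a (possibly ramified) morphism of places. -/
theorem PlaceHom.inV_of_map (H : PlaceHom inc red inc' red' f fO fκ) {ϖ : O} {ϖ' : O'}
    (P : IsPlace inc red ϖ) (P' : IsPlace inc' red' ϖ') (e : ℕ) (he : 0 < e) (u : O')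
    (hu : red' u ≠ 0) (hϖ : fO ϖ = u * ϖ' ^ e) {a : Ω} (hfrac : IsFrac inc a)
    (h : InV inc' red' (f a)) : InV inc red a := by
  by_cases ha : a = 0
  · rw [ha]; exact isRes_zero.inV
  obtain ⟨n, hn⟩ := exists_isOrd P hfrac ha
  have h1 := (H.isOrd P P' e u hu hϖ hn).nonneg_of_inV P' h
  exact hn.inV P (by
    have he' : (0 : ℤ) < e := by exact_mod_cast he
    exact nonneg_of_mul_nonneg_right h1 he')

theorem PlaceHom.isRes_of_map (H : PlaceHom inc red inc' red' f fO fκ) {ϖ : O} {ϖ' : O'}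
    (P : IsPlace inc red ϖ) (P' : IsPlace inc' red' ϖ') (e : ℕ) (he : 0 < e) (u : O')
    (hu : red' u ≠ 0) (hϖ : fO ϖ = u * ϖ' ^ e) {a : Ω} (hfrac : IsFrac inc a) {c' : κ'}
    (h : IsRes inc' red' (f a) c') : ∃ c, IsRes inc red a c ∧ fκ c = c' := by
  obtain ⟨c, hc⟩ := inV_iff.1 (H.inV_of_map P P' e he u hu hϖ hfrac h.inV)
  exact ⟨c, hc, (H.isRes hc).unique P'.inj h⟩

theorem PlaceHom.isOrd_of_map (H : PlaceHom inc red inc' red' f fO fκ) {ϖ : O} {ϖ' : O'}
    (P : IsPlace inc red ϖ) (P' : IsPlace inc' red' ϖ') (e : ℕ) (he : 0 < e) (u : O')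
    (hu : red' u ≠ 0) (hϖ : fO ϖ = u * ϖ' ^ e) {a : Ω} (hfrac : IsFrac inc a) {n : ℤ}
    (h : IsOrd inc' red' ϖ' (e * n) (f a)) : IsOrd inc red ϖ n a := by
  have ha : a ≠ 0 := (map_ne_zero f).1 (h.ne_zero P')
  obtain ⟨n', hn'⟩ := exists_isOrd P hfrac ha
  have h1 := (H.isOrd P P' e u hu hϖ hn').unique P' h
  have he' : (e : ℤ) ≠ 0 := by exact_mod_cast he.ne'
  rwa [← mul_left_cancel₀ he' h1]

/-- a unit of `V'`. -/
theorem isOrd_zero_of_inV {ϖ : O} (P : IsPlace inc red ϖ) {a : Ω} (ha0 : a ≠ 0)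
    (ha : InV inc red a) (ha' : InV inc red a⁻¹) : IsOrd inc red ϖ 0 a := by
  obtain ⟨c, hc⟩ := inV_iff.1 ha
  obtain ⟨n, hn⟩ := exists_isOrd P hc.isFrac ha0
  have h1 := hn.nonneg_of_inV P ha
  have h2 := (hn.inv P).nonneg_of_inV P ha'
  have : n = 0 := by omega
  rwa [this] at hn

end hom

/-! ### abstract places on a field -/

/-- A discrete valuation on `F` with a residue map to `κ`, given by relations:
`Ord n y` : `v(y) = n`;  `Res y c` : `v(y) ≥ 0` and the residue of `y` is `c`. -/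
structure APlace (F κ : Type*) [Field F] [Field κ] where
  Ord : ℤ → F → Prop
  Res : F → κ → Prop
  ord_exists : ∀ y : F, y ≠ 0 → ∃ n, Ord n y
  ord_unique : ∀ {n n' : ℤ} {y : F}, Ord n y → Ord n' y → n = n'
  ord_ne_zero : ∀ {n : ℤ} {y : F}, Ord n y → y ≠ 0
  ord_mul : ∀ {n n' : ℤ} {y y' : F}, Ord n y → Ord n' y' → Ord (n + n') (y * y')
  ord_inv : ∀ {n : ℤ} {y : F}, Ord n y → Ord (-n) y⁻¹
  ord_zero_iff : ∀ {y : F}, Ord 0 y ↔ ∃ c : κ, c ≠ 0 ∧ Res y c
  res_of_pos : ∀ {n : ℤ} {y : F}, Ord n y → 0 < n → Res y 0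
  res_unique : ∀ {y : F} {c d : κ}, Res y c → Res y d → c = d
  res_one : Res 1 1
  res_add : ∀ {y y' : F} {c c' : κ}, Res y c → Res y' c' → Res (y + y') (c + c')
  res_mul : ∀ {y y' : F} {c c' : κ}, Res y c → Res y' c' → Res (y * y') (c * c')
  res_neg : ∀ {y : F} {c : κ}, Res y c → Res (-y) (-c)

/-- the place of `F` induced by `Φ : F → Frac O ⊆ Ω`. -/
def APlace.ofHom {Ω O κ : Type*} [Field Ω] [CommRing O] [Field κ] {inc : O →+* Ω} {red : O →+* κ}
    {ϖ : O} (P : IsPlace inc red ϖ) {F : Type*} [Field F] (Φ : F →+* Ω)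
    (hfrac : ∀ y, IsFrac inc (Φ y)) : APlace F κ where
  Ord n y := IsOrd inc red ϖ n (Φ y)
  Res y c := IsRes inc red (Φ y) c
  ord_exists y hy := exists_isOrd P (hfrac y) ((map_ne_zero Φ).2 hy)
  ord_unique h h' := h.unique P h'
  ord_ne_zero h := (map_ne_zero Φ).1 (h.ne_zero P)
  ord_mul h h' := by rw [map_mul]; exact h.mul P h'
  ord_inv h := by rw [map_inv₀]; exact h.inv P
  ord_zero_iff := isOrd_zero_iff
  res_of_pos h hn := h.isRes_zero P hn
  res_unique h h' := h.unique P.inj h'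
  res_one := by rw [map_one]; exact isRes_one
  res_add h h' := by rw [map_add]; exact h.add h'
  res_mul h h' := by rw [map_mul]; exact h.mul h'
  res_neg h := by rw [map_neg]; exact h.neg

namespace APlace

variable {F κ : Type*} [Field F] [Field κ] (P : APlace F κ)

theorem ord_one : P.Ord 0 1 := P.ord_zero_iff.2 ⟨1, one_ne_zero, P.res_one⟩

theorem res_zero : P.Res 0 0 := by
  have := P.res_add P.res_one (P.res_neg P.res_one)
  simpa using this

theorem ord_of_res {y : F} {c : κ} (h : P.Res y c) (hc : c ≠ 0) : P.Ord 0 y :=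
  P.ord_zero_iff.2 ⟨c, hc, h⟩

theorem res_sub {y y' : F} {c c' : κ} (h : P.Res y c) (h' : P.Res y' c') :
    P.Res (y - y') (c - c') := by
  rw [sub_eq_add_neg, sub_eq_add_neg]; exact P.res_add h (P.res_neg h')

theorem res_inv {y : F} {c : κ} (h : P.Res y c) (hc : c ≠ 0) : P.Res y⁻¹ c⁻¹ := by
  have h0 := P.ord_of_res h hc
  have h1 := P.ord_inv h0
  rw [neg_zero] at h1
  obtain ⟨d, hd, h2⟩ := P.ord_zero_iff.1 h1
  have h3 := P.res_mul h h2
  rw [mul_inv_cancel₀ (P.ord_ne_zero h0)] at h3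
  have h4 : c * d = 1 := P.res_unique h3 P.res_one
  rwa [← eq_inv_of_mul_eq_one_right h4]

theorem res_pow {y : F} {c : κ} (h : P.Res y c) (n : ℕ) : P.Res (y ^ n) (c ^ n) := by
  induction n with
  | zero => simpa using P.res_one
  | succ n ih => rw [pow_succ, pow_succ]; exact P.res_mul ih h

theorem res_zpow {y : F} {c : κ} (h : P.Res y c) (hc : c ≠ 0) (n : ℤ) :
    P.Res (y ^ n) (c ^ n) := by
  cases n with
  | ofNat n => simpa using P.res_pow h n
  | negSucc n =>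
    rw [zpow_negSucc, zpow_negSucc]
    exact P.res_inv (P.res_pow h (n + 1)) (pow_ne_zero _ hc)

theorem res_div {y y' : F} {c c' : κ} (h : P.Res y c) (h' : P.Res y' c') (hc' : c' ≠ 0) :
    P.Res (y / y') (c / c') := by
  rw [div_eq_mul_inv, div_eq_mul_inv]; exact P.res_mul h (P.res_inv h' hc')

theorem ord_pow {y : F} {n : ℤ} (h : P.Ord n y) (k : ℕ) : P.Ord (k * n) (y ^ k) := by
  induction k with
  | zero => simpa using P.ord_one
  | succ k ih =>
    rw [pow_succ]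
    have := P.ord_mul ih h
    convert this using 1
    push_cast; ring

theorem ord_zpow {y : F} {n : ℤ} (h : P.Ord n y) (k : ℤ) : P.Ord (k * n) (y ^ k) := by
  cases k with
  | ofNat k => simpa using P.ord_pow h k
  | negSucc k =>
    rw [zpow_negSucc]
    have := P.ord_inv (P.ord_pow h (k + 1))
    convert this using 1
    rw [Int.negSucc_eq]; push_cast; ring

theorem ord_div {y y' : F} {n n' : ℤ} (h : P.Ord n y) (h' : P.Ord n' y') :
    P.Ord (n - n') (y / y') := by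
  rw [div_eq_mul_inv, sub_eq_add_neg]; exact P.ord_mul h (P.ord_inv h')

end APlace

end Fermat.Agent.S36.Val
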