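import Fermat.Agent.S36.Val.Place
import Fermat.Agent.S36.Norm.General

/-!
# S36 / Val / Setup : the data of the three levels `N`, `N l`, `N l²` and their vertical places

Everything is expressed through ring homomorphisms into two "Gauss fields":
* `(Ω, O, κ, inc, red, ϖ)`      : `Ω = K((q))`, `O = A((q))`, `κ = k((q))`, `ϖ = π`  (`K = L0`, `A = A0`);
* `(Ω1, O1, κ, inc1, red1, lam)` : the same over `A1 = A[z]`, `z` a primitive `l`-th root of unity,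
  `lam = z - 1`, `π = u lam^(l-1)`, same residue field.
`V = V_l : q ↦ q^l`; `tw ζ : q ↦ ζ q` (`ζ ∈ μ = μ_l`); `ι` = the primitive `l`-th roots of unity.

Fields: `F0 → F1 → F2` (`a0`, `al` = inclusions `f(q) ↦ f(q)`; `be : F1 → F2`, `f(q) ↦ f(q^l)`).
Places: `Φ'` on `F0`;  `Ψinf` (inclusion), `Ψ0 = Ψinf ∘ w_l` on `F1`;  `Φinf` (inclusion),
`Φ0 = Φinf ∘ w_{l²}`, `τ i` (identity on `F1`, `j(l² d ·) ↦ J((z_i q)^d)`) on `F2`.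
-/

set_option autoImplicit false

open Polynomial

namespace Fermat.Agent.S36.Val

open Fermat.Agent.Crux.G.QLink

structure Setup (l : ℕ) (K F0 F1 F2 Ω O κ Ω1 O1 ι μ : Type*) [Field K] [Field F0] [Field F1]
    [Field F2] [Field Ω] [CommRing O] [Field κ] [Field Ω1] [CommRing O1] [Fintype ι]
    [Fintype μ] where
  -- the two Gauss places
  inc : O →+* Ω
  red : O →+* κ
  ϖ : O
  P : IsPlace inc red ϖ
  inc1 : O1 →+* Ω1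
  red1 : O1 →+* κ
  lam : O1
  P1 : IsPlace inc1 red1 lam
  base : Ω →+* Ω1
  baseO : O →+* O1
  hbase : PlaceHom inc red inc1 red1 base baseO (RingHom.id κ)
  u : O1
  hu : red1 u ≠ 0
  hϖ : baseO ϖ = u * lam ^ (l - 1)
  hlϖ : ϖ ∣ (l : O)
  -- `V_l`
  V : Ω →+* Ω
  VO : O →+* O
  Vκ : κ →+* κ
  hV : PlaceHom inc red inc red V VO Vκ
  hVϖ : VO ϖ = ϖ
  -- twists
  tw : μ → Ω1 →+* Ω1
  twO : μ → O1 →+* O1
  htw : ∀ ζ, PlaceHom inc1 red1 inc1 red1 (tw ζ) (twO ζ) (RingHom.id κ)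
  htwlam : ∀ ζ, twO ζ lam = lam
  card_μ : Fintype.card μ = l
  card_ι : Fintype.card ι = l - 1
  -- fields and maps
  cst : K →+* F0
  a0 : F0 →+* F1
  al : F1 →+* F2
  be : F1 →+* F2
  NmA : F2 →*₀ F1
  NmB : F2 →*₀ F1
  Φ' : F0 →+* Ω
  Ψinf : F1 →+* Ω
  Ψ0 : F1 →+* Ω
  Φinf : F2 →+* Ω
  Φ0 : F2 →+* Ω
  τ : ι → F2 →+* Ω1
  frac' : ∀ c, IsFrac inc (Φ' c)
  fracΨinf : ∀ c, IsFrac inc (Ψinf c)
  fracΨ0 : ∀ c, IsFrac inc (Ψ0 c)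
  fracΦinf : ∀ c, IsFrac inc (Φinf c)
  fracΦ0 : ∀ c, IsFrac inc (Φ0 c)
  fracτ : ∀ i c, IsFrac inc1 (τ i c)
  -- compatibilities
  Ψinf_a0 : ∀ c, Ψinf (a0 c) = Φ' c
  Ψ0_a0 : ∀ c, Ψ0 (a0 c) = V (Φ' c)
  Φinf_al : ∀ h, Φinf (al h) = Ψinf h
  Φinf_be : ∀ h, Φinf (be h) = V (Ψinf h)
  Φ0_al : ∀ h, Φ0 (al h) = V (Ψ0 h)
  Φ0_be : ∀ h, Φ0 (be h) = Ψ0 h
  τ_al : ∀ i h, τ i (al h) = base (Ψinf h)
  ζ : ι → μ
  ν : ι → ι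
  τ_be : ∀ i h, τ i (be h) = tw (ζ i) (base (Ψ0 h))
  be_cst : ∀ c, be (a0 (cst c)) = al (a0 (cst c))
  -- constants
  π : K
  Φ'_π : Φ' (cst π) = inc ϖ
  hK : ∀ m : ℕ, 0 < m → ∀ c : K, c ≠ 0 → ∃ (n : ℤ) (e u : K), c = π ^ n * e ^ m * u ∧
    IsRes inc red (Φ' (cst u)) 1
  -- `j`
  J : O
  D : ι → O1
  hD : ∀ i, red1 (D i) ≠ 0
  j0 : F0
  j1 : F1
  j2 : F2
  Φ'_j0 : Φ' j0 = inc J
  Ψinf_j1 : Ψinf j1 = inc (VO J)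
  Ψ0_j1 : Ψ0 j1 = inc J
  Φinf_j2 : Φinf j2 = inc (VO (VO J))
  Φ0_j2 : Φ0 j2 = inc J
  τ_j2 : ∀ i, τ i j2 = inc1 (baseO J + lam * D i)
  -- formal properties of `Jb = red J`
  hJ : Vκ (red J) = red J ^ l
  hind1 : ∀ R : κ[X], R.natDegree < l → (R.map Vκ).eval (red J) = 0 → R = 0
  hind2 : ∀ R : κ[X], R.natDegree < l ^ 2 → (R.map (Vκ.comp Vκ)).eval (red J) = 0 → R = 0
  hne : ∀ k : ℕ, 1 < k → red J ^ k ≠ red J
  -- degrees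
  span1 : ∀ y : F1, ∃ c : ℕ → F0, y = ∑ s ∈ Finset.range (l + 1), a0 (c s) * j1 ^ s
  span2 : ∀ y : F2, ∃ c : ℕ → F0,
    y = ∑ s ∈ Finset.range (l ^ 2 + (l - 1) + 1), al (a0 (c s)) * j2 ^ s
  -- norms
  NmA_al : ∀ y, NmA (al y) = y ^ l
  NmB_be : ∀ y, NmB (be y) = y ^ l
  NAinf : ∀ y, base (Ψinf (NmA y)) = base (Φinf y) * ∏ i, τ i y
  NBinf : ∀ y, base (V (Ψinf (NmB y))) = ∏ ζ, tw ζ (base (Φinf y))
  NA0 : ∀ y, base (V (Ψ0 (NmA y))) = ∏ ζ, tw ζ (base (Φ0 y))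
  NB0 : ∀ y, base (Ψ0 (NmB y)) = base (Φ0 y) * ∏ i, tw (ζ i) (τ (ν i) y)
  -- (added for StepC') tame constants
  hK1 : ∀ m : ℕ, 0 < m → l.Coprime m → ∀ c : K, c ≠ 0 → ∃ (n : ℤ) (e : K), c = π ^ n * e ^ m
  hμ : ∀ m : ℕ, 0 < m → l.Coprime m → ∀ γ : κ, γ ^ m = 1 →
    ∃ u : K, u ^ m = 1 ∧ IsRes inc red (Φ' (cst u)) γ
  V_cst : ∀ c : K, V (Φ' (cst c)) = Φ' (cst c)
  NmA_eq : ∀ y, NmA y = Norm.normHom al y
  NmB_eq : ∀ y, NmB y = Norm.normHom be y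

namespace Setup

variable {l : ℕ} {K F0 F1 F2 Ω O κ Ω1 O1 ι μ : Type*} [Field K] [Field F0] [Field F1]
    [Field F2] [Field Ω] [CommRing O] [Field κ] [Field Ω1] [CommRing O1] [Fintype ι]
    [Fintype μ] (S : Setup l K F0 F1 F2 Ω O κ Ω1 O1 ι μ)

/-- `F0 → F2`. -/
def i0 : F0 →+* F2 := S.al.comp S.a0

/-- `K → F2`. -/
def c2 : K →+* F2 := S.i0.comp S.cst

/-- the residue of `J`. -/
def Jb : κ := S.red S.J

/-- the place of `F0`. -/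
def R : APlace F0 κ := APlace.ofHom S.P S.Φ' S.frac'
/-- the places of `F1`. -/
def Qinf : APlace F1 κ := APlace.ofHom S.P S.Ψinf S.fracΨinf
def Q0 : APlace F1 κ := APlace.ofHom S.P S.Ψ0 S.fracΨ0
/-- the places of `F2`. -/
def Pinf : APlace F2 κ := APlace.ofHom S.P S.Φinf S.fracΦinf
def P0 : APlace F2 κ := APlace.ofHom S.P S.Φ0 S.fracΦ0
def Pm (i : ι) : APlace F2 κ := APlace.ofHom S.P1 (S.τ i) (S.fracτ i)

/-- `y ∈ F2` is integral at `v_∞`, `v_mid` (seen through `τ i`) and `v_0`. -/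
def Int3 (i : ι) (y : F2) : Prop :=
  InV S.inc S.red (S.Φinf y) ∧ InV S.inc1 S.red1 (S.τ i y) ∧ InV S.inc S.red (S.Φ0 y)

/-- `y ∈ F1` is integral at `v_∞`, `v_0`. -/
def Int2 (y : F1) : Prop := InV S.inc S.red (S.Ψinf y) ∧ InV S.inc S.red (S.Ψ0 y)

theorem Φinf_i0 (c : F0) : S.Φinf (S.i0 c) = S.Φ' c := by
  simp [i0, S.Φinf_al, S.Ψinf_a0]

theorem Φ0_i0 (c : F0) : S.Φ0 (S.i0 c) = S.V (S.V (S.Φ' c)) := by
  simp [i0, S.Φ0_al, S.Ψ0_a0]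

theorem τ_i0 (i : ι) (c : F0) : S.τ i (S.i0 c) = S.base (S.Φ' c) := by
  simp [i0, S.τ_al, S.Ψinf_a0]

/-- `V_{l²}` as a morphism of places. -/
theorem hVV : PlaceHom S.inc S.red S.inc S.red (S.V.comp S.V) (S.VO.comp S.VO)
    (S.Vκ.comp S.Vκ) where
  comm_inc g := by simp [S.hV.comm_inc]
  comm_red g := by simp [S.hV.comm_red]

theorem hJJ : S.Vκ (S.Vκ (S.red S.J)) = S.red S.J ^ (l ^ 2) := by
  rw [S.hJ, map_pow, S.hJ, ← pow_mul, sq]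

end Setup

end Fermat.Agent.S36.Val
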