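import Fermat.Agent.S36.Val.Coords
import Fermat.Agent.S36.Val.Elems

/-!
# S36 / Val / Unif : `v_mid` does not depend on the root of unity   (task `S36/V-Unif`)

`ord_indep`: let `(a, n, c)` be the orders of `y` at `(∞, mid_i, 0)`; `w = y Tinf^(-a) Z^(-n) T0^(-c)` has orders
`(0,0,0)`, so `Int3 i w` and `Int3 i w⁻¹`; by `int3_indep` also `Int3 i' w`, `Int3 i' w⁻¹`, so
`τ i' w` has order `0` (`isOrd_zero_of_inV`); conclude with `ord_Tinf, ord_Z, ord_T0` at `i'`.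
-/

set_option autoImplicit false

open Polynomial

namespace Fermat.Agent.S36.Val

open Fermat.Agent.Crux.G.QLink


namespace Setup

variable {l : ℕ} {K F0 F1 F2 Ω O κ Ω1 O1 ι μ : Type*} [Field K] [Field F0] [Field F1]
    [Field F2] [Field Ω] [CommRing O] [Field κ] [Field Ω1] [CommRing O1] [Fintype ι]
    [Fintype μ] (S : Setup l K F0 F1 F2 Ω O κ Ω1 O1 ι μ)

theorem ord_indep (hl : 2 ≤ l) (i i' : ι) (y : F2) (n : ℤ) (h : (S.Pm i).Ord n y) :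
    (S.Pm i').Ord n y := by
  have hy0 : y ≠ 0 := (S.Pm i).ord_ne_zero h
  obtain ⟨a, ha⟩ := S.Pinf.ord_exists y hy0
  obtain ⟨c, hc⟩ := S.P0.ord_exists y hy0
  obtain ⟨hT1, hT2, hT3⟩ := S.ord_Tinf hl i
  obtain ⟨hZ1, hZ2, hZ3⟩ := S.ord_Z hl i
  obtain ⟨hU1, hU2, hU3⟩ := S.ord_T0 hl i
  obtain ⟨w, hw⟩ : ∃ w, w = y * S.Tinf ^ (-a) * S.Z ^ (-n) * S.T0 ^ (-c) := ⟨_, rfl⟩
  have gen : ∀ (P : APlace F2 κ) (x t1 t2 t3 : ℤ), P.Ord x y → P.Ord t1 S.Tinf → P.Ord t2 S.Z →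
      P.Ord t3 S.T0 → P.Ord (x + (-a) * t1 + (-n) * t2 + (-c) * t3) w := by
    intro P x t1 t2 t3 h0 h1 h2 h3
    rw [hw]
    exact P.ord_mul (P.ord_mul (P.ord_mul h0 (P.ord_zpow h1 _)) (P.ord_zpow h2 _))
      (P.ord_zpow h3 _)
  have w1 : S.Pinf.Ord 0 w := by
    have := gen S.Pinf a 1 0 0 ha hT1 hZ1 hU1
    convert this using 1; ring
  have w2 : (S.Pm i).Ord 0 w := by
    have := gen (S.Pm i) n 0 1 0 h hT2 hZ2 hU2
    convert this using 1; ring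
  have w3 : S.P0.Ord 0 w := by
    have := gen S.P0 c 0 0 1 hc hT3 hZ3 hU3
    convert this using 1; ring
  have hint : S.Int3 i w :=
    ⟨IsOrd.inV S.P w1 le_rfl, IsOrd.inV S.P1 w2 le_rfl, IsOrd.inV S.P w3 le_rfl⟩
  have hint' : S.Int3 i w⁻¹ :=
    ⟨IsOrd.inV S.P (S.Pinf.ord_inv w1) (by simp), IsOrd.inV S.P1 ((S.Pm i).ord_inv w2) (by simp),
      IsOrd.inV S.P (S.P0.ord_inv w3) (by simp)⟩
  have k := S.int3_indep hl i i' w hint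
  have k' := S.int3_indep hl i i' w⁻¹ hint'
  have hw0 : w ≠ 0 := S.Pinf.ord_ne_zero w1
  have w2' : (S.Pm i').Ord 0 w :=
    isOrd_zero_of_inV S.P1 ((_root_.map_ne_zero _).2 hw0) k.2.1 (by rw [← map_inv₀]; exact k'.2.1)
  obtain ⟨-, hT2', -⟩ := S.ord_Tinf hl i'
  obtain ⟨-, hZ2', -⟩ := S.ord_Z hl i'
  obtain ⟨-, hU2', -⟩ := S.ord_T0 hl i'
  have hT0 : S.Tinf ≠ 0 := S.Pinf.ord_ne_zero hT1
  have hZ0 : S.Z ≠ 0 := S.Pinf.ord_ne_zero hZ1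
  have hU0 : S.T0 ≠ 0 := S.Pinf.ord_ne_zero hU1
  have hyw : y = w * S.Tinf ^ a * S.Z ^ n * S.T0 ^ c := by
    rw [hw, zpow_neg, zpow_neg, zpow_neg]
    have e1 := zpow_ne_zero a hT0
    have e2 := zpow_ne_zero n hZ0
    have e3 := zpow_ne_zero c hU0
    field_simp
  have := (S.Pm i').ord_mul ((S.Pm i').ord_mul ((S.Pm i').ord_mul w2'
    ((S.Pm i').ord_zpow hT2' a)) ((S.Pm i').ord_zpow hZ2' n)) ((S.Pm i').ord_zpow hU2' c)
  rw [← hyw] at this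
  convert this using 1
  ring

end Setup

end Fermat.Agent.S36.Val
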